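/-
Programme T (S56, Taylor–Wiles primes), chapter DEF (helper8): STABILITY OF THE LOCAL CONDITIONS
of `Fermat.Prelude.Def_GaloisRep_LocalConditions / StrictOrdinary / Flat` under equivalence of
representations and under base change along a local ring homomorphism.  Imports Mathlib + Prelude
definitions only.

Equivalence (`e : GaloisRepAdic.Equiv ρ₁ ρ₂`, any local ring `A`):
* `ρ_eq_conj`, `det_eq_of_equiv`, `charpoly_eq_of_equiv`, `levelEquiv`, `levelEquiv_levelAction`;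
* `isUnramifiedAt_of_equiv`, `detIsCyclotomic_of_equiv`, `isUnipotentOnInertiaAt_of_equiv`,
  `isStrictOrdinaryAt_of_equiv`, `isFlatAt_of_equiv`;
* `strictOrdinaryCondition_of_isEquiv`, `flatCondition_of_isEquiv`.

Base change (`φ : A →+* B` local):
* `baseChangeAlong_ρ`, `det_baseChangeAlong`, `charpoly_baseChangeAlong`, `exists_line_baseChange`;
* `isUnramifiedAt_baseChangeAlong`, `detIsCyclotomic_baseChangeAlong`,
  `isUnipotentOnInertiaAt_baseChangeAlong`, `isStrictOrdinaryAt_baseChangeAlong`;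
* `strictOrdinaryCondition_baseChangeAlong`.
(Base change of `IsFlatAt` is NOT here: it belongs to chapter T/FLAT.)

The concrete conditions of S56:
* `soCond 𝒪 p Sig Smin` (strict ordinary, unramified outside `Sig`, unipotent on inertia at `Smin`),
  `flCond 𝒪 p Sig Smin` (flat instead of strict ordinary): by `rfl` the `𝒟` of statement S56 with
  `Sig = Smin ∪ Finset.univ.image qv`;
* `soCond_of_isEquiv`, `soCond_baseChangeAlong`, `flCond_of_isEquiv`,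
  `flCond_baseChangeAlong_of_isFlatAt`.
-/
import Mathlib
import Fermat.Prelude.Def_GaloisRep_StrictOrdinary
import Fermat.Prelude.Def_GaloisRep_Flat

set_option autoImplicit false
set_option linter.style.haveILetI false

open IsLocalRing
open scoped TensorProduct

namespace Fermat.Agent.TW.DEF.CondStable8

/-! ### Invariance under equivalence -/

section Equiv

variable {A : Type} [CommRing A] [IsLocalRing A] {ρ₁ ρ₂ : GaloisRepAdic A}

/-- The action of `ρ₂` is the conjugate of the action of `ρ₁`. -/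
theorem ρ_eq_conj (e : GaloisRepAdic.Equiv ρ₁ ρ₂) (σ : AlgebraicClosure ℚ ≃ₐ[ℚ] AlgebraicClosure ℚ) :
    ρ₂.ρ σ = e.toLinearEquiv.conj (ρ₁.ρ σ) := by
  ext y
  rw [LinearEquiv.conj_apply, LinearMap.comp_apply, LinearMap.comp_apply, LinearEquiv.coe_coe,
    LinearEquiv.coe_coe, e.map_apply, LinearEquiv.apply_symm_apply]

theorem isUnramifiedAt_of_equiv (e : GaloisRepAdic.Equiv ρ₁ ρ₂) {q : ℕ}
    (h : ρ₁.IsUnramifiedAt q) : ρ₂.IsUnramifiedAt q := by
  intro P hP σ hσ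
  rw [ρ_eq_conj e σ, h P hP σ hσ]
  ext y
  simp [LinearEquiv.conj_apply]

theorem det_eq_of_equiv (e : GaloisRepAdic.Equiv ρ₁ ρ₂)
    (σ : AlgebraicClosure ℚ ≃ₐ[ℚ] AlgebraicClosure ℚ) :
    LinearMap.det (ρ₂.ρ σ) = LinearMap.det (ρ₁.ρ σ) := by
  rw [ρ_eq_conj e σ, LinearEquiv.conj_apply, LinearMap.comp_assoc, LinearMap.det_conj]

theorem detIsCyclotomic_of_equiv (e : GaloisRepAdic.Equiv ρ₁ ρ₂) {p : ℕ}
    (h : ρ₁.DetIsCyclotomic p) : ρ₂.DetIsCyclotomic p :=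
  ⟨h.1, fun n σ a ha => by rw [det_eq_of_equiv e σ]; exact h.2 n σ a ha⟩

theorem charpoly_eq_of_equiv (e : GaloisRepAdic.Equiv ρ₁ ρ₂)
    (σ : AlgebraicClosure ℚ ≃ₐ[ℚ] AlgebraicClosure ℚ) :
    LinearMap.charpoly (ρ₂.ρ σ) = LinearMap.charpoly (ρ₁.ρ σ) := by
  rw [ρ_eq_conj e σ, LinearEquiv.charpoly_conj]

theorem isUnipotentOnInertiaAt_of_equiv (e : GaloisRepAdic.Equiv ρ₁ ρ₂) {q : ℕ}
    (h : ρ₁.IsUnipotentOnInertiaAt q) : ρ₂.IsUnipotentOnInertiaAt q := by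
  intro P hP σ hσ
  rw [charpoly_eq_of_equiv e σ]
  exact h P hP σ hσ

theorem isStrictOrdinaryAt_of_equiv (e : GaloisRepAdic.Equiv ρ₁ ρ₂) {p : ℕ}
    (h : ρ₁.IsStrictOrdinaryAt p) : ρ₂.IsStrictOrdinaryAt p := by
  refine ⟨h.1, fun P hP => ?_⟩
  obtain ⟨L, ⟨b, hb⟩, hD, hI, hS⟩ := h.2 P hP
  refine ⟨L.map (e.toLinearEquiv : ρ₁.V →ₗ[A] ρ₂.V), ⟨b.map e.toLinearEquiv, ?_⟩, ?_, ?_, ?_⟩
  · rw [hb, Submodule.map_span, Set.image_singleton, Module.Basis.map_apply]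
    rfl
  · rintro σ hσ _ ⟨w, hw, rfl⟩
    exact ⟨ρ₁.ρ σ w, hD σ hσ w hw, e.map_apply σ w⟩
  · intro σ hσ v
    refine ⟨ρ₁.ρ σ (e.toLinearEquiv.symm v) - e.toLinearEquiv.symm v, hI σ hσ _, ?_⟩
    rw [LinearEquiv.coe_coe, map_sub, e.map_apply, LinearEquiv.apply_symm_apply]
  · intro σ hσ
    obtain ⟨x, z, hx, hz, hxz⟩ := hS σ hσ
    refine ⟨x, z, ?_, ?_, hxz⟩
    · rintro _ ⟨w, hw, rfl⟩
      rw [LinearEquiv.coe_coe, ← e.map_apply, hx w hw, map_smul]
    · intro v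
      refine ⟨ρ₁.ρ σ (e.toLinearEquiv.symm v) - z • e.toLinearEquiv.symm v, hz _, ?_⟩
      rw [LinearEquiv.coe_coe, map_sub, map_smul, e.map_apply, LinearEquiv.apply_symm_apply]

/-- The equivalence of the levels `V ⧸ I V` induced by an equivalence of representations. -/
noncomputable def levelEquiv (e : GaloisRepAdic.Equiv ρ₁ ρ₂) (I : Ideal A) :
    (ρ₁.V ⧸ (I • (⊤ : Submodule A ρ₁.V))) ≃ₗ[A] (ρ₂.V ⧸ (I • (⊤ : Submodule A ρ₂.V))) :=
  Submodule.Quotient.equiv _ _ e.toLinearEquiv (by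
    rw [Submodule.map_smul'', Submodule.map_top, LinearMap.range_eq_top.mpr]
    exact e.toLinearEquiv.surjective)

theorem levelEquiv_mk (e : GaloisRepAdic.Equiv ρ₁ ρ₂) (I : Ideal A) (v : ρ₁.V) :
    levelEquiv e I (Submodule.Quotient.mk v) = Submodule.Quotient.mk (e.toLinearEquiv v) := rfl

theorem levelEquiv_levelAction (e : GaloisRepAdic.Equiv ρ₁ ρ₂) (I : Ideal A)
    (σ : AlgebraicClosure ℚ ≃ₐ[ℚ] AlgebraicClosure ℚ) (x : ρ₁.V ⧸ (I • (⊤ : Submodule A ρ₁.V))) :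
    levelEquiv e I (ρ₁.levelAction I σ x) = ρ₂.levelAction I σ (levelEquiv e I x) := by
  obtain ⟨v, rfl⟩ := Submodule.Quotient.mk_surjective _ x
  show levelEquiv e I (Submodule.Quotient.mk (ρ₁.ρ σ v)) =
    ρ₂.levelAction I σ (Submodule.Quotient.mk (e.toLinearEquiv v))
  rw [levelEquiv_mk, e.map_apply]
  rfl

theorem isFlatAt_of_equiv (e : GaloisRepAdic.Equiv ρ₁ ρ₂) {p : ℕ}
    (h : ρ₁.IsFlatAt p) : ρ₂.IsFlatAt p := by
  refine ⟨h.1, fun I hI => ?_⟩
  obtain ⟨H, i1, i2, h1, h2, h3, ε, hadd, hgal⟩ := h.2 I hI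
  refine ⟨H, i1, i2, h1, h2, h3, ε.trans (levelEquiv e I).toEquiv, fun f g => ?_,
    fun σ f g hfg => ?_⟩
  · show levelEquiv e I (ε (f * g)) = levelEquiv e I (ε f) + levelEquiv e I (ε g)
    rw [hadd, map_add]
  · show levelEquiv e I (ε g) = ρ₂.levelAction I σ (levelEquiv e I (ε f))
    rw [hgal σ f g hfg, levelEquiv_levelAction]

end Equiv

/-! ### Base change of a line -/

section Line

variable {A : Type} [CommRing A] {B : Type} [CommRing B] [Algebra A B]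
  {V : Type} [AddCommGroup V] [Module A V]

/-- For a line `L = A ∙ v` in `V` and `x ∈ L`, `c ⊗ x` lies in the line `B ∙ (1 ⊗ v)`. -/
theorem tmul_mem_span_one_tmul (v : V) {x : V} (hx : x ∈ (A ∙ v : Submodule A V)) (c : B) :
    c ⊗ₜ[A] x ∈ (B ∙ ((1 : B) ⊗ₜ[A] v) : Submodule B (B ⊗[A] V)) := by
  obtain ⟨t, rfl⟩ := Submodule.mem_span_singleton.mp hx
  rw [Submodule.mem_span_singleton]
  refine ⟨c * algebraMap A B t, ?_⟩
  rw [TensorProduct.smul_tmul', smul_eq_mul, mul_one, TensorProduct.tmul_smul,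
    TensorProduct.smul_tmul', Algebra.smul_def, mul_comm]

theorem algebraMap_smul_tmul (z : A) (c : B) (y : V) :
    algebraMap A B z • (c ⊗ₜ[A] y) = c ⊗ₜ[A] (z • y) := by
  calc algebraMap A B z • (c ⊗ₜ[A] y) = (algebraMap A B z * c) ⊗ₜ[A] y := by
        rw [TensorProduct.smul_tmul', smul_eq_mul]
    _ = (z • c) ⊗ₜ[A] y := by rw [Algebra.smul_def]
    _ = c ⊗ₜ[A] (z • y) := TensorProduct.smul_tmul z c y

/-- Base change of a line spanned by the first vector of a basis, with the properties needed for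
the (strict) ordinary condition. -/
theorem exists_line_baseChange (b : Module.Basis (Fin 2) A V) (L : Submodule A V)
    (hb : L = A ∙ b 0) :
    ∃ L' : Submodule B (B ⊗[A] V),
      (∃ b' : Module.Basis (Fin 2) B (B ⊗[A] V), L' = B ∙ b' 0) ∧
      (∀ f : V →ₗ[A] V, (∀ v ∈ L, f v ∈ L) → ∀ w ∈ L', f.baseChange B w ∈ L') ∧
      (∀ f : V →ₗ[A] V, (∀ v, f v - v ∈ L) → ∀ w, f.baseChange B w - w ∈ L') ∧
      (∀ (f : V →ₗ[A] V) (x : A), (∀ w ∈ L, f w = x • w) →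
        ∀ w ∈ L', f.baseChange B w = algebraMap A B x • w) ∧
      (∀ (f : V →ₗ[A] V) (z : A), (∀ v, f v - z • v ∈ L) →
        ∀ w, f.baseChange B w - algebraMap A B z • w ∈ L') := by
  have hb0 : Algebra.TensorProduct.basis B b 0 = (1 : B) ⊗ₜ[A] b 0 :=
    Algebra.TensorProduct.basis_apply b 0
  have hb0L : b 0 ∈ L := by rw [hb]; exact Submodule.mem_span_singleton_self _
  have hpure : ∀ (c : B) (x : V), x ∈ L →
      c ⊗ₜ[A] x ∈ (B ∙ ((1 : B) ⊗ₜ[A] b 0) : Submodule B (B ⊗[A] V)) := by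
    intro c x hx
    rw [hb] at hx
    exact tmul_mem_span_one_tmul (b 0) hx c
  refine ⟨(B ∙ ((1 : B) ⊗ₜ[A] b 0) : Submodule B (B ⊗[A] V)),
    ⟨Algebra.TensorProduct.basis B b, by rw [hb0]⟩, ?_, ?_, ?_, ?_⟩
  · intro f hf w hw
    obtain ⟨c, rfl⟩ := Submodule.mem_span_singleton.mp hw
    rw [map_smul, LinearMap.baseChange_tmul]
    exact Submodule.smul_mem _ c (hpure 1 _ (hf (b 0) hb0L))
  · intro f hf w
    induction w using TensorProduct.induction_on with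
    | zero => rw [LinearMap.map_zero, sub_zero]; exact Submodule.zero_mem _
    | tmul c x =>
      rw [LinearMap.baseChange_tmul, ← TensorProduct.tmul_sub]
      exact hpure c _ (hf x)
    | add x y hx hy =>
      rw [map_add, add_sub_add_comm]
      exact Submodule.add_mem _ hx hy
  · intro f x hf w hw
    obtain ⟨c, rfl⟩ := Submodule.mem_span_singleton.mp hw
    rw [map_smul, LinearMap.baseChange_tmul, hf (b 0) hb0L, smul_comm, algebraMap_smul_tmul]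
  · intro f z hf w
    induction w using TensorProduct.induction_on with
    | zero => rw [LinearMap.map_zero, smul_zero, sub_zero]; exact Submodule.zero_mem _
    | tmul c y =>
      rw [LinearMap.baseChange_tmul, algebraMap_smul_tmul, ← TensorProduct.tmul_sub]
      exact hpure c _ (hf y)
    | add y y' hy hy' =>
      rw [map_add, smul_add, add_sub_add_comm]
      exact Submodule.add_mem _ hy hy'

end Line

/-! ### Base change along a local homomorphism -/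

section BaseChange

variable {A : Type} [CommRing A] [IsLocalRing A] {B : Type} [CommRing B] [IsLocalRing B]
  (φ : A →+* B) (hφ : IsLocalHom φ) (ρ : GaloisRepAdic A)

theorem baseChangeAlong_ρ (σ : AlgebraicClosure ℚ ≃ₐ[ℚ] AlgebraicClosure ℚ) :
    letI : Algebra A B := φ.toAlgebra
    (ρ.baseChangeAlong φ hφ).ρ σ = (ρ.ρ σ).baseChange B := rfl

theorem isUnramifiedAt_baseChangeAlong {q : ℕ} (h : ρ.IsUnramifiedAt q) :
    (ρ.baseChangeAlong φ hφ).IsUnramifiedAt q := by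
  letI : Algebra A B := φ.toAlgebra
  intro P hP σ hσ
  rw [baseChangeAlong_ρ, h P hP σ hσ]
  exact LinearMap.baseChange_one (R := A) (A := B) (M := ρ.V)

theorem det_baseChangeAlong (σ : AlgebraicClosure ℚ ≃ₐ[ℚ] AlgebraicClosure ℚ) :
    LinearMap.det ((ρ.baseChangeAlong φ hφ).ρ σ) = φ (LinearMap.det (ρ.ρ σ)) := by
  letI : Algebra A B := φ.toAlgebra
  rw [baseChangeAlong_ρ]
  exact LinearMap.det_baseChange (ρ.ρ σ)

include hφ in
theorem natCast_mem_maximalIdeal_of_isLocalHom {p : ℕ} (h : (p : A) ∈ maximalIdeal A) :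
    (p : B) ∈ maximalIdeal B := by
  haveI := hφ
  have h1 := map_nonunit φ (p : A) h
  rwa [map_natCast] at h1

theorem detIsCyclotomic_baseChangeAlong {p : ℕ} (h : ρ.DetIsCyclotomic p) :
    (ρ.baseChangeAlong φ hφ).DetIsCyclotomic p := by
  refine ⟨natCast_mem_maximalIdeal_of_isLocalHom φ hφ h.1, fun n σ a ha => ?_⟩
  have h1 := h.2 n σ a ha
  rw [Ideal.mem_span_singleton] at h1 ⊢
  obtain ⟨c, hc⟩ := h1
  refine ⟨φ c, ?_⟩
  rw [det_baseChangeAlong, ← map_natCast φ a, ← map_sub, hc, map_mul, map_natCast]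

theorem charpoly_baseChangeAlong (σ : AlgebraicClosure ℚ ≃ₐ[ℚ] AlgebraicClosure ℚ) :
    LinearMap.charpoly ((ρ.baseChangeAlong φ hφ).ρ σ) = (LinearMap.charpoly (ρ.ρ σ)).map φ := by
  letI : Algebra A B := φ.toAlgebra
  rw [baseChangeAlong_ρ]
  exact LinearMap.charpoly_baseChange (ρ.ρ σ) B

theorem isUnipotentOnInertiaAt_baseChangeAlong {q : ℕ} (h : ρ.IsUnipotentOnInertiaAt q) :
    (ρ.baseChangeAlong φ hφ).IsUnipotentOnInertiaAt q := by
  intro P hP σ hσ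
  rw [charpoly_baseChangeAlong, h P hP σ hσ]
  simp

theorem isStrictOrdinaryAt_baseChangeAlong {p : ℕ} (h : ρ.IsStrictOrdinaryAt p) :
    (ρ.baseChangeAlong φ hφ).IsStrictOrdinaryAt p := by
  letI : Algebra A B := φ.toAlgebra
  refine ⟨natCast_mem_maximalIdeal_of_isLocalHom φ hφ h.1, fun P hP => ?_⟩
  obtain ⟨L, ⟨b, hb⟩, hD, hI, hS⟩ := h.2 P hP
  obtain ⟨L', hb', h1, h2, h3, h4⟩ := exists_line_baseChange (B := B) b L hb
  refine ⟨L', hb', fun σ hσ => h1 _ (hD σ hσ), fun σ hσ => h2 _ (hI σ hσ), fun σ hσ => ?_⟩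
  obtain ⟨x, z, hx, hz, hxz⟩ := hS σ hσ
  refine ⟨φ x, φ z, h3 _ x hx, h4 _ z hz, fun n a ha => ?_⟩
  have h5 := hxz n a ha
  rw [Ideal.mem_span_singleton] at h5 ⊢
  obtain ⟨c, hc⟩ := h5
  refine ⟨φ c, ?_⟩
  rw [← map_natCast φ a, ← map_mul, ← map_sub, hc, map_mul, map_natCast]

end BaseChange

/-! ### The global conditions -/

section Conditions

variable {𝒪 : Type} [CommRing 𝒪] {p : ℕ} {Sig Smin : Finset ℕ}
  {A : Type} [CommRing A] [IsLocalRing A] [Algebra 𝒪 A]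

theorem strictOrdinaryCondition_of_isEquiv {ρ₁ ρ₂ : GaloisRepAdic A} (h : ρ₁.IsEquiv ρ₂)
    (h1 : GaloisRep.strictOrdinaryCondition 𝒪 p Sig ρ₁) :
    GaloisRep.strictOrdinaryCondition 𝒪 p Sig ρ₂ := by
  obtain ⟨e⟩ := h
  exact ⟨detIsCyclotomic_of_equiv e h1.1, isStrictOrdinaryAt_of_equiv e h1.2.1,
    fun q hq hqS => isUnramifiedAt_of_equiv e (h1.2.2 q hq hqS)⟩

theorem flatCondition_of_isEquiv {ρ₁ ρ₂ : GaloisRepAdic A} (h : ρ₁.IsEquiv ρ₂)
    (h1 : GaloisRep.flatCondition 𝒪 p Sig ρ₁) : GaloisRep.flatCondition 𝒪 p Sig ρ₂ := by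
  obtain ⟨e⟩ := h
  exact ⟨detIsCyclotomic_of_equiv e h1.1, isFlatAt_of_equiv e h1.2.1,
    fun q hq hqS => isUnramifiedAt_of_equiv e (h1.2.2 q hq hqS)⟩

theorem strictOrdinaryCondition_baseChangeAlong {B : Type} [CommRing B] [IsLocalRing B]
    [Algebra 𝒪 B] (φ : A →+* B) (hφ : IsLocalHom φ) {ρ : GaloisRepAdic A}
    (h1 : GaloisRep.strictOrdinaryCondition 𝒪 p Sig ρ) :
    GaloisRep.strictOrdinaryCondition 𝒪 p Sig (ρ.baseChangeAlong φ hφ) :=
  ⟨detIsCyclotomic_baseChangeAlong φ hφ ρ h1.1, isStrictOrdinaryAt_baseChangeAlong φ hφ ρ h1.2.1,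
    fun q hq hqS => isUnramifiedAt_baseChangeAlong φ hφ ρ (h1.2.2 q hq hqS)⟩

variable (𝒪 p Sig Smin)

/-- The deformation condition of the strict-ordinary half of S56: strict ordinary at `p`, cyclotomic
determinant, unramified outside `Sig`, unipotent on inertia at the primes `≠ p` of `Smin`. -/
def soCond : ∀ ⦃A : Type⦄ [CommRing A] [IsLocalRing A] [Algebra 𝒪 A], GaloisRepAdic A → Prop :=
  fun _A _ _ _ ρ => GaloisRep.strictOrdinaryCondition 𝒪 p Sig ρ ∧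
    ∀ q ∈ Smin, q.Prime → q ≠ p → ρ.IsUnipotentOnInertiaAt q

/-- The deformation condition of the flat half of S56. -/
def flCond : ∀ ⦃A : Type⦄ [CommRing A] [IsLocalRing A] [Algebra 𝒪 A], GaloisRepAdic A → Prop :=
  fun _A _ _ _ ρ => GaloisRep.flatCondition 𝒪 p Sig ρ ∧
    ∀ q ∈ Smin, q.Prime → q ≠ p → ρ.IsUnipotentOnInertiaAt q

variable {𝒪 p Sig Smin}

theorem soCond_of_isEquiv {ρ₁ ρ₂ : GaloisRepAdic A} (h : ρ₁.IsEquiv ρ₂)
    (h1 : soCond 𝒪 p Sig Smin ρ₁) : soCond 𝒪 p Sig Smin ρ₂ := by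
  refine ⟨strictOrdinaryCondition_of_isEquiv h h1.1, fun q hq hqp hne => ?_⟩
  obtain ⟨e⟩ := h
  exact isUnipotentOnInertiaAt_of_equiv e (h1.2 q hq hqp hne)

theorem flCond_of_isEquiv {ρ₁ ρ₂ : GaloisRepAdic A} (h : ρ₁.IsEquiv ρ₂)
    (h1 : flCond 𝒪 p Sig Smin ρ₁) : flCond 𝒪 p Sig Smin ρ₂ := by
  refine ⟨flatCondition_of_isEquiv h h1.1, fun q hq hqp hne => ?_⟩
  obtain ⟨e⟩ := h
  exact isUnipotentOnInertiaAt_of_equiv e (h1.2 q hq hqp hne)

theorem soCond_baseChangeAlong {B : Type} [CommRing B] [IsLocalRing B] [Algebra 𝒪 B]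
    (φ : A →+* B) (hφ : IsLocalHom φ) {ρ : GaloisRepAdic A} (h1 : soCond 𝒪 p Sig Smin ρ) :
    soCond 𝒪 p Sig Smin (ρ.baseChangeAlong φ hφ) :=
  ⟨strictOrdinaryCondition_baseChangeAlong φ hφ h1.1, fun q hq hqp hne =>
    isUnipotentOnInertiaAt_baseChangeAlong φ hφ ρ (h1.2 q hq hqp hne)⟩

/-- Base change of the flat condition, given base change of `IsFlatAt` (chapter T/FLAT). -/
theorem flCond_baseChangeAlong_of_isFlatAt {B : Type} [CommRing B] [IsLocalRing B] [Algebra 𝒪 B]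
    (φ : A →+* B) (hφ : IsLocalHom φ) {ρ : GaloisRepAdic A} (h1 : flCond 𝒪 p Sig Smin ρ)
    (hflat : (ρ.baseChangeAlong φ hφ).IsFlatAt p) :
    flCond 𝒪 p Sig Smin (ρ.baseChangeAlong φ hφ) :=
  ⟨⟨detIsCyclotomic_baseChangeAlong φ hφ ρ h1.1.1, hflat,
    fun q hq hqS => isUnramifiedAt_baseChangeAlong φ hφ ρ (h1.1.2.2 q hq hqS)⟩,
    fun q hq hqp hne => isUnipotentOnInertiaAt_baseChangeAlong φ hφ ρ (h1.2 q hq hqp hne)⟩

end Conditions

end Fermat.Agent.TW.DEF.CondStable8
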