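/-
Programme T (S56, Taylor–Wiles primes), chapter DEF (helper1, chapter lead): VOCABULARY.

Cohomology is the level cohomology of `PT/PRO/LevelCoh28` (+ `LevelCohRes28`) for the level bases of
`PT/GLUE/Objects21` (the ones used by the proof of S55, and by `TW/LOC/Defs2`):

* `GQ = Gal(ℚ̄/ℚ)`; for `S : Finset Nat.Primes` and `M : Rep k GQ`:
  `HS1 S M`, `HS2 S M` := `H¹`, `H²` of `(GQ, levelS S)` with coefficients in `M`  ("`H^i(G_S, M)`");
* for a prime `q`: `Gq q = Gal(ℚ̄_q/ℚ_q)`, `rq q : Gq q →* GQ`, `Mq M q := Rep.res (rq q) M`,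
  `Hq1 M q`, `Hq2 M q` := `H¹`, `H²` of `(Gq q, levelLoc q)` with coefficients in `Mq M q`;
* `isLevelHom_rq`, and the restriction maps `resq1 S M q : HS1 S M →ₗ Hq1 M q`, `resq2`
  (`LevelCohRes28.ppH1/ppH2` along `rq q`, identity on coefficients), with their cocycle formulas;
* `Sel S M L := ⨅ q : ↥S, (L q).comap (resq1 S M q)` for a family of local conditions
  `L q : Submodule k (Hq1 M q)`, with `mem_Sel_iff` and `Sel_mono`;
* the adjoint representations in matrix form: for `rbar : GQ →* M2 k`,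
  `adRep rbar : Rep k GQ` on `M2 k` (`σ • X = rbar σ * X * rbar σ⁻¹`) and
  `ad0Rep rbar : Rep k GQ` on the trace-zero matrices, `ad0Incl : ad0Rep rbar → adRep rbar`
  (linear, equivariant, injective), `finrank_ad0 : finrank k (ad0Rep rbar) = 3` (`k` a field),
  and discreteness for `levelS S` when `rbar` is trivial on some member of `levelS S`.
-/
import Mathlib
import Fermat.Agent.PT.GLUE.Objects21
import Fermat.Agent.PT.PRO.LevelCohRes28

set_option autoImplicit false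

open Fermat.Agent.PT.PRO.LevelCoh28 Fermat.Agent.PT.PRO.LevelCohRes28
open Fermat.Agent.PT.GLUE.Objects21

namespace Fermat.Agent.TW.DEF.Basic1

/-- The absolute Galois group of `ℚ`. -/
abbrev GQ : Type := AlgebraicClosure ℚ ≃ₐ[ℚ] AlgebraicClosure ℚ

/-- `2 × 2` matrices (same as `S53.M2`). -/
abbrev M2 (A : Type) : Type := Matrix (Fin 2) (Fin 2) A

/-! ### Global and local level cohomology -/

section Coh

variable {k : Type} [CommRing k] (S : Finset Nat.Primes) (M : Rep.{0} k GQ)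

/-- `H¹(G_S, M)`. -/
abbrev HS1 : Type := H1 (levelS S) M

/-- `H²(G_S, M)`. -/
abbrev HS2 : Type := H2 (levelS S) M

variable (q : ℕ) [Fact q.Prime]

/-- The local Galois group `Gal(ℚ̄_q/ℚ_q)`. -/
abbrev Gq : Type := PadicAlgCl q ≃ₐ[ℚ_[q]] PadicAlgCl q

/-- `Gal(ℚ̄_q/ℚ_q) → Gal(ℚ̄/ℚ)`. -/
noncomputable abbrev rq : Gq q →* GQ := localGaloisToGlobal q

/-- The restriction of `M` to the local Galois group. -/
noncomputable abbrev Mq : Rep.{0} k (Gq q) := Rep.res (rq q) M

/-- `H¹(ℚ_q, M)`. -/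
abbrev Hq1 : Type := H1 (levelLoc q) (Mq M q)

/-- `H²(ℚ_q, M)`. -/
abbrev Hq2 : Type := H2 (levelLoc q) (Mq M q)

/-- `rq q` is continuous for `levelLoc q` and `levelS S`. -/
theorem isLevelHom_rq : IsLevelHom (rq q) (levelLoc q).sets (levelS S).sets := by
  intro U hU
  exact ⟨U.comap (rq q), ⟨U, levelSetS_subset_levelSetAll S hU, rfl⟩, le_rfl⟩

/-- Restriction `H¹(G_S, M) → H¹(ℚ_q, M)`. -/
noncomputable def resq1 : HS1 S M →ₗ[k] Hq1 M q :=
  ppH1 (rq q) (LinearMap.id : M →ₗ[k] Mq M q) (fun _ _ => rfl) (isLevelHom_rq S q)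

/-- Restriction `H²(G_S, M) → H²(ℚ_q, M)`. -/
noncomputable def resq2 : HS2 S M →ₗ[k] Hq2 M q :=
  ppH2 (rq q) (LinearMap.id : M →ₗ[k] Mq M q) (fun _ _ => rfl) (isLevelHom_rq S q)

theorem resq1_mk (c : ↥(Z1 (levelS S) M)) :
    resq1 S M q (H1mk (levelS S) M c) = H1mk (levelLoc q) (Mq M q)
      (ppZ1 (rq q) (LinearMap.id : M →ₗ[k] Mq M q) (fun _ _ => rfl) (isLevelHom_rq S q) c) := rfl

theorem resq2_mk (c : ↥(Z2 (levelS S) M)) :
    resq2 S M q (H2mk (levelS S) M c) = H2mk (levelLoc q) (Mq M q)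
      (ppZ2 (rq q) (LinearMap.id : M →ₗ[k] Mq M q) (fun _ _ => rfl) (isLevelHom_rq S q) c) := rfl

/-- Restriction of level cocycles along `rq q`. -/
noncomputable def resZ1 : ↥(Z1 (levelS S) M) →ₗ[k] ↥(Z1 (levelLoc q) (Mq M q)) :=
  ppZ1 (rq q) (LinearMap.id : M →ₗ[k] Mq M q) (fun _ _ => rfl) (isLevelHom_rq S q)

/-- The underlying cocycle of a restricted class: `τ ↦ c (rq q τ)`. -/
theorem resZ1_apply (c : ↥(Z1 (levelS S) M)) (τ : Gq q) :
    (resZ1 S M q c).1 τ = c.1 (rq q τ) := rfl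

theorem resq1_mk' (c : ↥(Z1 (levelS S) M)) :
    resq1 S M q (H1mk (levelS S) M c) = H1mk (levelLoc q) (Mq M q) (resZ1 S M q c) := rfl

end Coh

/-! ### Selmer groups -/

section Selmer

variable {k : Type} [CommRing k] (S : Finset Nat.Primes) (M : Rep.{0} k GQ)

/-- The Selmer group cut out in `H¹(G_S, M)` by local conditions at the (finite) places of `S`. -/
noncomputable def Sel (L : ∀ q : ↥S, Submodule k (Hq1 M ((q : Nat.Primes) : ℕ))) :
    Submodule k (HS1 S M) :=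
  ⨅ q : ↥S, (L q).comap (resq1 S M ((q : Nat.Primes) : ℕ))

theorem mem_Sel_iff (L : ∀ q : ↥S, Submodule k (Hq1 M ((q : Nat.Primes) : ℕ))) (x : HS1 S M) :
    x ∈ Sel S M L ↔ ∀ q : ↥S, resq1 S M ((q : Nat.Primes) : ℕ) x ∈ L q := by
  simp [Sel, Submodule.mem_iInf]

theorem Sel_mono {L L' : ∀ q : ↥S, Submodule k (Hq1 M ((q : Nat.Primes) : ℕ))}
    (h : ∀ q, L q ≤ L' q) : Sel S M L ≤ Sel S M L' :=
  iInf_mono fun q => Submodule.comap_mono (h q)

/-- With no condition, the Selmer group is everything. -/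
theorem Sel_top : Sel S M (fun _ => ⊤) = ⊤ := by
  ext x
  simp [mem_Sel_iff]

end Selmer

/-! ### The adjoint representation in matrix form -/

section Ad

variable {k : Type} [CommRing k] (rbar : GQ →* M2 k)

/-- Conjugation by `rbar σ` on `2 × 2` matrices. -/
noncomputable def adFun (σ : GQ) : M2 k →ₗ[k] M2 k where
  toFun X := rbar σ * X * rbar σ⁻¹
  map_add' X Y := by rw [mul_add, add_mul]
  map_smul' c X := by
    rw [RingHom.id_apply, Matrix.mul_smul, Matrix.smul_mul]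

@[simp] theorem adFun_apply (σ : GQ) (X : M2 k) : adFun rbar σ X = rbar σ * X * rbar σ⁻¹ := rfl

theorem rbar_mul_inv (σ : GQ) : rbar σ * rbar σ⁻¹ = 1 := by
  rw [← map_mul, mul_inv_cancel, map_one]

theorem rbar_inv_mul (σ : GQ) : rbar σ⁻¹ * rbar σ = 1 := by
  rw [← map_mul, inv_mul_cancel, map_one]

/-- The adjoint representation `ad ρ̄` on `M₂(k)`. -/
noncomputable def adRepn : Representation k GQ (M2 k) where
  toFun σ := adFun rbar σ
  map_one' := by
    ext X : 1
    simp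
  map_mul' σ τ := by
    ext X : 1
    simp only [adFun_apply, Module.End.mul_apply, map_mul, mul_inv_rev, mul_assoc]

/-- `ad ρ̄ : Rep k GQ`. -/
noncomputable abbrev adRep : Rep.{0} k GQ := Rep.of (adRepn rbar)

theorem adRep_ρ_apply (σ : GQ) (X : M2 k) :
    (adRep rbar).ρ σ X = rbar σ * X * rbar σ⁻¹ := rfl

/-- The trace-zero matrices. -/
noncomputable def sl2 (k : Type) [CommRing k] : Submodule k (M2 k) :=
  LinearMap.ker (Matrix.traceLinearMap (Fin 2) k k)

theorem mem_sl2_iff (X : M2 k) : X ∈ sl2 k ↔ X.trace = 0 := by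
  rw [sl2, LinearMap.mem_ker, Matrix.traceLinearMap_apply]

theorem trace_adFun (σ : GQ) (X : M2 k) : (adFun rbar σ X).trace = X.trace := by
  rw [adFun_apply, Matrix.trace_mul_cycle, rbar_inv_mul, one_mul]

theorem adFun_mem_sl2 (σ : GQ) {X : M2 k} (hX : X ∈ sl2 k) : adFun rbar σ X ∈ sl2 k := by
  rw [mem_sl2_iff] at hX ⊢
  rw [trace_adFun, hX]

/-- The adjoint representation on trace-zero matrices. -/
noncomputable def ad0Repn : Representation k GQ ↥(sl2 k) where
  toFun σ := (adFun rbar σ).restrict fun _ hX => adFun_mem_sl2 rbar σ hX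
  map_one' := by
    ext X : 2
    simp
  map_mul' σ τ := by
    ext X : 2
    simp only [LinearMap.coe_restrict_apply, adFun_apply, Module.End.mul_apply, map_mul,
      mul_inv_rev, mul_assoc]

/-- `ad⁰ ρ̄ : Rep k GQ`. -/
noncomputable abbrev ad0Rep : Rep.{0} k GQ := Rep.of (ad0Repn rbar)

/-- The underlying matrix of an element of `ad⁰ ρ̄`. -/
noncomputable def ad0Val : (ad0Rep rbar) →ₗ[k] M2 k := (sl2 k).subtype

theorem ad0Val_injective : Function.Injective (ad0Val rbar) := Subtype.val_injective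

theorem trace_ad0Val (X : ad0Rep rbar) : (ad0Val rbar X).trace = 0 :=
  (mem_sl2_iff _).1 (Subtype.prop (p := fun Y => Y ∈ sl2 k) X)

theorem ad0Val_ρ_apply (σ : GQ) (X : ad0Rep rbar) :
    ad0Val rbar ((ad0Rep rbar).ρ σ X) = rbar σ * ad0Val rbar X * rbar σ⁻¹ := rfl

/-- The inclusion `ad⁰ ρ̄ → ad ρ̄` as a linear map. -/
noncomputable def ad0Incl : (ad0Rep rbar) →ₗ[k] (adRep rbar) := (sl2 k).subtype

theorem ad0Incl_injective : Function.Injective (ad0Incl rbar) := Subtype.val_injective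

theorem ad0Incl_ρ (σ : GQ) (X : ad0Rep rbar) :
    ad0Incl rbar ((ad0Rep rbar).ρ σ X) = (adRep rbar).ρ σ (ad0Incl rbar X) := rfl

/-- If `rbar` is trivial on a member of a family of subgroups, `ad ρ̄` is discrete for it. -/
theorem isDiscrete_adRep {𝓤 : Set (Subgroup GQ)} (h : ∃ U ∈ 𝓤, ∀ s ∈ U, rbar s = 1) :
    IsDiscrete 𝓤 (adRep rbar) := by
  obtain ⟨U, hU, h1⟩ := h
  intro X
  refine ⟨U, hU, fun s hs => ?_⟩
  have hs' : rbar s⁻¹ = 1 := h1 _ (U.inv_mem hs)
  rw [adRep_ρ_apply, h1 s hs, hs', one_mul, mul_one]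

theorem isDiscrete_ad0Rep {𝓤 : Set (Subgroup GQ)} (h : ∃ U ∈ 𝓤, ∀ s ∈ U, rbar s = 1) :
    IsDiscrete 𝓤 (ad0Rep rbar) := by
  obtain ⟨U, hU, h1⟩ := h
  intro X
  refine ⟨U, hU, fun s hs => ?_⟩
  have hs' : rbar s⁻¹ = 1 := h1 _ (U.inv_mem hs)
  apply ad0Val_injective
  rw [ad0Val_ρ_apply, h1 s hs, hs', one_mul, mul_one]

end Ad

section Finrank

variable {k : Type} [Field k]

theorem trace_surjective : Function.Surjective (Matrix.traceLinearMap (Fin 2) k k) := by
  intro c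
  refine ⟨Matrix.of ![![c, 0], ![0, 0]], ?_⟩
  simp [Matrix.trace_fin_two]

/-- The trace-zero `2 × 2` matrices have dimension `3`. -/
theorem finrank_sl2 : Module.finrank k ↥(sl2 k) = 3 := by
  have h := LinearMap.finrank_range_add_finrank_ker (Matrix.traceLinearMap (Fin 2) k k)
  have h1 : Module.finrank k ↥(LinearMap.range (Matrix.traceLinearMap (Fin 2) k k)) = 1 := by
    rw [LinearMap.range_eq_top.2 trace_surjective, finrank_top, Module.finrank_self]
  have h2 : Module.finrank k (Matrix (Fin 2) (Fin 2) k) = 4 := by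
    rw [Module.finrank_matrix]
    simp
  rw [h1, h2] at h
  have h3 : Module.finrank k ↥(LinearMap.ker (Matrix.traceLinearMap (Fin 2) k k)) = 3 := by omega
  exact h3

/-- `ad⁰ ρ̄` has dimension `3`. -/
theorem finrank_ad0 (rbar : GQ →* M2 k) : Module.finrank k (ad0Rep rbar) = 3 := finrank_sl2

end Finrank

end Fermat.Agent.TW.DEF.Basic1
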