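/-
PROGRAMME T, chapter DEF (helper1).  `LevelKer1`: a homomorphism `r : Gal(ℚ̄/ℚ) →* X` which is
trivial on `Gal(ℚ̄/F)` for a finite `F/ℚ` and trivial on all inertia groups at the primes outside `S`
is trivial on a NORMAL member of the level basis `Objects21.levelS S` (i.e. "factors through a finite
quotient of `G_S`"):

* `exists_levelS_forall_eq_one`;
* consequences: `isLevel₁_of_forall_eq_one` (a function `f` with `f (g * s) = f g` for `s ∈ ker r` is
  a level cochain) and `isDiscrete_of_forall_ρ_eq_one`.
-/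
import Mathlib
import Fermat.Agent.PT.GLUE.Objects21

set_option autoImplicit false

open Fermat.Agent.PT.PRO.LevelCoh28 Fermat.Agent.PT.GLUE.Objects21 Fermat.Agent.PT.BR

namespace Fermat.Agent.TW.DEF.LevelKer1

local notation "Qbar" => AlgebraicClosure ℚ
local notation "Γ" => (AlgebraicClosure ℚ ≃ₐ[ℚ] AlgebraicClosure ℚ)

local instance isAlgClosureQbarLK1 : IsAlgClosure ℚ Qbar := ⟨inferInstance, inferInstance⟩
local instance normalQbarLK1 : Normal ℚ Qbar := IsAlgClosure.normal ℚ Qbar
local instance isGaloisQbarLK1 : IsGalois ℚ Qbar := IsAlgClosure.isGalois ℚ Qbar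

variable {X : Type*} [Monoid X] (r : Γ →* X) (S : Finset Nat.Primes)

/-- A homomorphism with open kernel, unramified outside `S`, is trivial on a normal member of
`levelS S`. -/
theorem exists_levelS_forall_eq_one
    (hfin : ∃ F : IntermediateField ℚ Qbar, FiniteDimensional ℚ F ∧
      ∀ s ∈ F.fixingSubgroup, r s = 1)
    (hur : ∀ q : Nat.Primes, q ∉ S → ∀ A : ValuationSubring Qbar,
      A.LiesOverPrime (q : ℕ) → ∀ g ∈ A.inertiaSubgroupIn ℚ, r g = 1) :
    ∃ U ∈ (levelS S).sets, U.Normal ∧ ∀ s ∈ U, r s = 1 := by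
  obtain ⟨F, hFfin, hF⟩ := hfin
  let N : Subgroup Γ := MonoidHom.ker r
  have hFN : F.fixingSubgroup ≤ N := fun s hs => hF s hs
  have hNopen : IsOpen (N : Set Γ) := Subgroup.isOpen_mono hFN F.fixingSubgroup_isOpen
  have hNclosed : IsClosed (N : Set Γ) := Subgroup.isClosed_of_isOpen N hNopen
  let Nc : ClosedSubgroup Γ := ⟨N, hNclosed⟩
  have hfix : (IntermediateField.fixedField N).fixingSubgroup = N :=
    InfiniteGalois.fixingSubgroup_fixedField Nc
  have hle : IntermediateField.fixedField N ≤ F := by
    have h1 := IntermediateField.fixedField_antitone hFN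
    rwa [InfiniteGalois.fixedField_fixingSubgroup] at h1
  have hL : (IntermediateField.fixedField N).IsUnramifiedOutside S := by
    refine ⟨?_, fun q hq A hA g hg => ?_⟩
    · exact FiniteDimensional.of_injective (IntermediateField.inclusion hle).toLinearMap
        (IntermediateField.inclusion_injective hle)
    · rw [hfix]
      exact hur q hq A hA g hg
  have hmem : (IntermediateField.fixedField N).fixingSubgroup ∈ (levelS S).sets :=
    ⟨IntermediateField.fixedField N, hL, rfl⟩
  obtain ⟨V, hV, hVle, hn⟩ := (levelS S).isBasis.normalCore _ hmem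
  refine ⟨V, hV, hn, fun s hs => ?_⟩
  have : s ∈ (IntermediateField.fixedField N).fixingSubgroup := hVle hs
  rw [hfix] at this
  exact this

/-- A function on `Γ` which is right-invariant under a subgroup belonging to `levelS S` is a level
cochain. -/
theorem isLevel₁_of_forall_eq {Y : Type*} {f : Γ → Y} {U : Subgroup Γ} (hU : U ∈ (levelS S).sets)
    (h : ∀ g, ∀ s ∈ U, f (g * s) = f g) : IsLevel₁ (levelS S).sets f :=
  ⟨U, hU, h⟩

/-- A representation which is trivial on a member of `levelS S` is discrete. -/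
theorem isDiscrete_of_forall_ρ_eq_one {k : Type} [CommRing k] (M : Rep.{0} k Γ)
    (h : ∃ U ∈ (levelS S).sets, ∀ s ∈ U, M.ρ s = 1) : IsDiscrete (levelS S).sets M := by
  obtain ⟨U, hU, h1⟩ := h
  intro m
  exact ⟨U, hU, fun s hs => by rw [h1 s hs, Module.End.one_apply]⟩

end Fermat.Agent.TW.DEF.LevelKer1
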