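/-
PROGRAMME T, chapter DEF (helper1).  `Cup1`: the cup product on the level ("continuous") cohomology
of `PT/PRO/LevelCoh28`.

For discrete `G`-modules `A, B, C` (`Rep k G`, level basis `𝓑`) and a `k`-bilinear map
`b : A →ₗ[k] B →ₗ[k] C` which is `G`-equivariant (`b (g • a) (g • c) = g • b a c`):

* `cupFun b x y (g, h) = b (x g) (g • y h)` on cochains; `cupFun_mem_cocycles₂`,
  `cupFun_d₀₁_left : (d a) ∪ y = d (g ↦ b a (y g))`,
  `cupFun_d₀₁_right : x ∪ (d m) = d (-(g ↦ b (x g) (g • m)))`, `isLevel₂_cupFun`;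
* `cupZ b hb hB : Z1 𝓑 A →ₗ[k] Z1 𝓑 B →ₗ[k] Z2 𝓑 C` and
  **`cup b hb hB : H1 𝓑 A →ₗ[k] H1 𝓑 B →ₗ[k] H2 𝓑 C`** with
  `cup_mk : cup b hb hB (H1mk x) (H1mk y) = H2mk (cupZ b hb hB x y)`   (`hB : IsDiscrete 𝓑.sets B`);
* naturality `ppH2_cup`: for `f : G →* H` level-continuous, `f`-equivariant coefficient maps
  `φA, φB, φC` with `φC (b a c) = b' (φA a) (φB c)`:
  `ppH2 f φC (cup b x y) = cup b' (ppH1 f φA x) (ppH1 f φB y)`
  (restriction to decomposition groups, inflation, change of coefficients are all of this form);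
* `mapH2_cup` (the special case `f = id`: change of coefficients).
-/
import Mathlib
import Fermat.Agent.PT.PRO.LevelCoh28
import Fermat.Agent.PT.PRO.LevelCohRes28

set_option autoImplicit false
set_option linter.unusedSectionVars false

universe u

open CategoryTheory groupCohomology

namespace Fermat.Agent.TW.DEF.Cup1

open Fermat.Agent.PT.PRO.LevelCoh28 Fermat.Agent.PT.PRO.LevelCohRes28

variable {k G : Type u} [CommRing k] [Group G]

/-! ### Cochain level -/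

section Cochain

variable {A B C : Rep.{u} k G} (b : A →ₗ[k] B →ₗ[k] C)

/-- The cup product of 1-cochains: `(x ∪ y)(g, h) = b (x g) (g • y h)`. -/
def cupFun (x : G → A) (y : G → B) : G × G → C := fun p => b (x p.1) (B.ρ p.1 (y p.2))

@[simp] theorem cupFun_apply (x : G → A) (y : G → B) (g h : G) :
    cupFun b x y (g, h) = b (x g) (B.ρ g (y h)) := rfl

theorem cupFun_add_left (x x' : G → A) (y : G → B) :
    cupFun b (x + x') y = cupFun b x y + cupFun b x' y := by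
  funext ⟨g, h⟩
  simp

theorem cupFun_add_right (x : G → A) (y y' : G → B) :
    cupFun b x (y + y') = cupFun b x y + cupFun b x y' := by
  funext ⟨g, h⟩
  simp

theorem cupFun_smul_left (r : k) (x : G → A) (y : G → B) :
    cupFun b (r • x) y = r • cupFun b x y := by
  funext ⟨g, h⟩
  simp

theorem cupFun_smul_right (r : k) (x : G → A) (y : G → B) :
    cupFun b x (r • y) = r • cupFun b x y := by
  funext ⟨g, h⟩
  simp

variable (hb : ∀ (g : G) (a : A) (c : B), b (A.ρ g a) (B.ρ g c) = C.ρ g (b a c))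

include hb

/-- The cup product of two 1-cocycles is a 2-cocycle. -/
theorem cupFun_mem_cocycles₂ {x : G → A} (hx : x ∈ cocycles₁ A) {y : G → B}
    (hy : y ∈ cocycles₁ B) : cupFun b x y ∈ cocycles₂ C := by
  rw [mem_cocycles₂_iff]
  intro g h j
  rw [cupFun_apply, cupFun_apply, cupFun_apply, cupFun_apply, (mem_cocycles₁_iff x).1 hx g h,
    (mem_cocycles₁_iff y).1 hy h j, ← hb]
  simp only [map_add, map_mul, Module.End.mul_apply, LinearMap.add_apply]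
  abel

/-- `(d a) ∪ y = d (g ↦ b a (y g))` for a cocycle `y`. -/
theorem cupFun_d₀₁_left (a : A) {y : G → B} (hy : y ∈ cocycles₁ B) :
    cupFun b ((d₀₁ A).hom a) y = (d₁₂ C).hom (fun g => b a (y g)) := by
  funext ⟨g, h⟩
  rw [cupFun_apply, d₀₁_hom_apply, d₁₂_hom_apply, (mem_cocycles₁_iff y).1 hy g h, ← hb]
  simp only [map_add, map_sub, LinearMap.sub_apply]
  abel

/-- `x ∪ (d m) = d (-(g ↦ b (x g) (g • m)))` for a cocycle `x`. -/
theorem cupFun_d₀₁_right {x : G → A} (hx : x ∈ cocycles₁ A) (m : B) :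
    cupFun b x ((d₀₁ B).hom m) = (d₁₂ C).hom (-(fun g => b (x g) (B.ρ g m))) := by
  funext ⟨g, h⟩
  rw [cupFun_apply, d₀₁_hom_apply, d₁₂_hom_apply]
  simp only [Pi.neg_apply, map_neg]
  rw [(mem_cocycles₁_iff x).1 hx g h, ← hb]
  simp only [map_add, map_sub, map_mul, Module.End.mul_apply, LinearMap.add_apply]
  abel

end Cochain

/-! ### Level-ness -/

section Level

variable {𝓑 : LevelBasis G} {A B C : Rep.{u} k G} (b : A →ₗ[k] B →ₗ[k] C)

/-- The cup product of level cochains (second one with values in a discrete module) is level. -/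
theorem isLevel₂_cupFun (hB : IsDiscrete 𝓑.sets B) {x : G → A} (hx : IsLevel₁ 𝓑.sets x)
    {y : G → B} (hy : IsLevel₁ 𝓑.sets y) : IsLevel₂ 𝓑.sets (cupFun b x y) := by
  obtain ⟨U, hU, -, hyU, hfix⟩ := hy.exists_normal_fixing 𝓑.isBasis hB
  obtain ⟨V, hV, hxV⟩ := hx
  obtain ⟨W, hW, hWle⟩ := 𝓑.isBasis.directed U hU V hV
  refine ⟨W, hW, fun g g' s hs s' hs' => ?_⟩
  have hsU : s ∈ U := (hWle.trans inf_le_left) hs
  have hs'U : s' ∈ U := (hWle.trans inf_le_left) hs'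
  have hsV : s ∈ V := (hWle.trans inf_le_right) hs
  rw [cupFun_apply, cupFun_apply, hxV g s hsV, hyU g' s' hs'U, map_mul, Module.End.mul_apply,
    hfix s hsU]

/-- `g ↦ b (x g) (g • m)` is level if `x` is and `m` lies in a discrete module. -/
theorem isLevel₁_twist (hB : IsDiscrete 𝓑.sets B) {x : G → A} (hx : IsLevel₁ 𝓑.sets x) (m : B) :
    IsLevel₁ 𝓑.sets (fun g => b (x g) (B.ρ g m)) := by
  obtain ⟨U, hU, hfix⟩ := hB m
  obtain ⟨V, hV, hxV⟩ := hx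
  obtain ⟨W, hW, hWle⟩ := 𝓑.isBasis.directed U hU V hV
  refine ⟨W, hW, fun g s hs => ?_⟩
  have hsU : s ∈ U := (hWle.trans inf_le_left) hs
  have hsV : s ∈ V := (hWle.trans inf_le_right) hs
  show b (x (g * s)) (B.ρ (g * s) m) = b (x g) (B.ρ g m)
  rw [hxV g s hsV, map_mul, Module.End.mul_apply, hfix s hsU]

end Level

/-! ### The cup product on cocycles and on cohomology -/

section Cup

variable {𝓑 : LevelBasis G} {A B C : Rep.{u} k G} (b : A →ₗ[k] B →ₗ[k] C)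
  (hb : ∀ (g : G) (a : A) (c : B), b (A.ρ g a) (B.ρ g c) = C.ρ g (b a c))
  (hB : IsDiscrete 𝓑.sets B)

include hb hB in
theorem cupFun_mem_Z2 {x : G → A} (hx : x ∈ Z1 𝓑 A) {y : G → B} (hy : y ∈ Z1 𝓑 B) :
    cupFun b x y ∈ Z2 𝓑 C :=
  ⟨cupFun_mem_cocycles₂ b hb hx.1 hy.1, isLevel₂_cupFun b hB hx.2 hy.2⟩

/-- The cup product on level cocycles. -/
def cupZ : ↥(Z1 𝓑 A) →ₗ[k] ↥(Z1 𝓑 B) →ₗ[k] ↥(Z2 𝓑 C) :=
  LinearMap.mk₂ k (fun x y => ⟨cupFun b (x : G → A) (y : G → B), cupFun_mem_Z2 b hb hB x.2 y.2⟩)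
    (fun _ _ _ => Subtype.ext (cupFun_add_left b _ _ _))
    (fun r _ _ => Subtype.ext (cupFun_smul_left b r _ _))
    (fun _ _ _ => Subtype.ext (cupFun_add_right b _ _ _))
    (fun r _ _ => Subtype.ext (cupFun_smul_right b r _ _))

@[simp] theorem coe_cupZ (x : ↥(Z1 𝓑 A)) (y : ↥(Z1 𝓑 B)) :
    (cupZ b hb hB x y : G × G → C) = cupFun b (x : G → A) (y : G → B) := rfl

/-- Cocycle-level cup product followed by the class map. -/
def cupZH : ↥(Z1 𝓑 A) →ₗ[k] ↥(Z1 𝓑 B) →ₗ[k] H2 𝓑 C :=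
  (cupZ b hb hB).compr₂ (H2mk 𝓑 C)

@[simp] theorem cupZH_apply (x : ↥(Z1 𝓑 A)) (y : ↥(Z1 𝓑 B)) :
    cupZH b hb hB x y = H2mk 𝓑 C (cupZ b hb hB x y) := rfl

theorem cupZH_left_coboundary {x : ↥(Z1 𝓑 A)} (hx : (x : G → A) ∈ coboundaries₁ A)
    (y : ↥(Z1 𝓑 B)) : cupZH b hb hB x y = 0 := by
  obtain ⟨a, ha⟩ := hx
  rw [cupZH_apply, H2mk_eq_zero_iff, mem_B2_iff]
  refine ⟨fun g => b a ((y : G → B) g), y.2.2.comp (b a), ?_⟩
  rw [coe_cupZ, ← ha]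
  exact (cupFun_d₀₁_left b hb a y.2.1).symm

theorem cupZH_right_coboundary (x : ↥(Z1 𝓑 A)) {y : ↥(Z1 𝓑 B)}
    (hy : (y : G → B) ∈ coboundaries₁ B) : cupZH b hb hB x y = 0 := by
  obtain ⟨m, hm⟩ := hy
  rw [cupZH_apply, H2mk_eq_zero_iff, mem_B2_iff]
  refine ⟨-(fun g => b ((x : G → A) g) (B.ρ g m)), ?_, ?_⟩
  · have := isLevel₁_twist b hB x.2.2 m
    exact (levelCochains₁ 𝓑 C).neg_mem this
  · rw [coe_cupZ, ← hm]
    exact (cupFun_d₀₁_right b hb x.2.1 m).symm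

/-- Descent in the first variable. -/
def cupAux : H1 𝓑 A →ₗ[k] ↥(Z1 𝓑 B) →ₗ[k] H2 𝓑 C :=
  Submodule.liftQ _ (cupZH b hb hB) (fun x hx => by
    rw [LinearMap.mem_ker]
    ext y
    exact cupZH_left_coboundary b hb hB hx y)

@[simp] theorem cupAux_mk (x : ↥(Z1 𝓑 A)) (y : ↥(Z1 𝓑 B)) :
    cupAux b hb hB (H1mk 𝓑 A x) y = H2mk 𝓑 C (cupZ b hb hB x y) := rfl

/-- **The cup product** `H¹(A) × H¹(B) → H²(C)` on level cohomology. -/
def cup : H1 𝓑 A →ₗ[k] H1 𝓑 B →ₗ[k] H2 𝓑 C :=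
  (Submodule.liftQ _ (cupAux b hb hB).flip (fun y hy => by
    rw [LinearMap.mem_ker]
    ext x
    exact cupZH_right_coboundary b hb hB x hy)).flip

@[simp] theorem cup_mk (x : ↥(Z1 𝓑 A)) (y : ↥(Z1 𝓑 B)) :
    cup b hb hB (H1mk 𝓑 A x) (H1mk 𝓑 B y) = H2mk 𝓑 C (cupZ b hb hB x y) := rfl

end Cup

/-! ### Naturality -/

section Natural

variable {H : Type u} [Group H] (f : G →* H) {𝓑G : LevelBasis G} {𝓑H : LevelBasis H}
  (hf : IsLevelHom f 𝓑G.sets 𝓑H.sets)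
  {A B C : Rep.{u} k H} (b : A →ₗ[k] B →ₗ[k] C)
  (hb : ∀ (g : H) (a : A) (c : B), b (A.ρ g a) (B.ρ g c) = C.ρ g (b a c))
  (hB : IsDiscrete 𝓑H.sets B)
  {A' B' C' : Rep.{u} k G} (b' : A' →ₗ[k] B' →ₗ[k] C')
  (hb' : ∀ (g : G) (a : A') (c : B'), b' (A'.ρ g a) (B'.ρ g c) = C'.ρ g (b' a c))
  (hB' : IsDiscrete 𝓑G.sets B')
  (φA : A →ₗ[k] A') (hφA : ∀ (g : G) (a : A), φA (A.ρ (f g) a) = A'.ρ g (φA a))
  (φB : B →ₗ[k] B') (hφB : ∀ (g : G) (a : B), φB (B.ρ (f g) a) = B'.ρ g (φB a))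
  (φC : C →ₗ[k] C') (hφC : ∀ (g : G) (a : C), φC (C.ρ (f g) a) = C'.ρ g (φC a))
  (hcomp : ∀ a c, φC (b a c) = b' (φA a) (φB c))

include hφB hcomp in
/-- Pull–push commutes with the cup product of cochains. -/
theorem pp₂_cupFun (x : H → A) (y : H → B) :
    pp₂ f φC (cupFun b x y) = cupFun b' (pp₁ f φA x) (pp₁ f φB y) := by
  funext ⟨g, h⟩
  simp only [pp₂_apply, cupFun_apply, pp₁_apply, hcomp, hφB]

include hcomp in
/-- **Naturality of the cup product** for change of group and coefficients. -/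
theorem ppH2_cup (x : H1 𝓑H A) (y : H1 𝓑H B) :
    ppH2 f φC hφC hf (cup b hb hB x y) =
      cup b' hb' hB' (ppH1 f φA hφA hf x) (ppH1 f φB hφB hf y) := by
  obtain ⟨x, rfl⟩ := H1mk_surjective 𝓑H A x
  obtain ⟨y, rfl⟩ := H1mk_surjective 𝓑H B y
  rw [cup_mk, ppH2_mk, ppH1_mk, ppH1_mk, cup_mk]
  congr 1
  apply Subtype.ext
  exact pp₂_cupFun f b b' φA φB hφB φC hcomp _ _

end Natural

section NaturalId

variable {𝓑 : LevelBasis G} {A B C A' B' C' : Rep.{u} k G} (b : A →ₗ[k] B →ₗ[k] C)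
  (hb : ∀ (g : G) (a : A) (c : B), b (A.ρ g a) (B.ρ g c) = C.ρ g (b a c))
  (hB : IsDiscrete 𝓑.sets B)
  (b' : A' →ₗ[k] B' →ₗ[k] C')
  (hb' : ∀ (g : G) (a : A') (c : B'), b' (A'.ρ g a) (B'.ρ g c) = C'.ρ g (b' a c))
  (hB' : IsDiscrete 𝓑.sets B')
  (φA : A →ₗ[k] A') (hφA : ∀ (g : G) (a : A), φA (A.ρ g a) = A'.ρ g (φA a))
  (φB : B →ₗ[k] B') (hφB : ∀ (g : G) (a : B), φB (B.ρ g a) = B'.ρ g (φB a))
  (φC : C →ₗ[k] C') (hφC : ∀ (g : G) (a : C), φC (C.ρ g a) = C'.ρ g (φC a))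
  (hcomp : ∀ a c, φC (b a c) = b' (φA a) (φB c))

include hcomp in
/-- Naturality of the cup product for change of coefficients. -/
theorem mapH2_cup (x : H1 𝓑 A) (y : H1 𝓑 B) :
    mapH2 φC hφC (cup b hb hB x y) = cup b' hb' hB' (mapH1 φA hφA x) (mapH1 φB hφB y) := by
  obtain ⟨x, rfl⟩ := H1mk_surjective 𝓑 A x
  obtain ⟨y, rfl⟩ := H1mk_surjective 𝓑 B y
  rw [cup_mk, mapH2_mk, mapH1_mk, mapH1_mk, cup_mk]
  congr 1
  apply Subtype.ext
  funext ⟨g, h⟩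
  show φC (b _ _) = b' (φA _) (B'.ρ g (φB _))
  rw [hcomp, hφB]

end NaturalId

end Fermat.Agent.TW.DEF.Cup1
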