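/-
PROGRAMME T, chapter DEF (helper1).  `Mu1`: the coefficient module `μ` of the Tate pairing, the
evaluation pairing `M × M^*(χ) → μ_χ`, and the resulting cup products.

Generic part (`k` a commutative ring, `G` a group, `χ : G →* kˣ`, `M : Rep k G`):
* `muRep χ : Rep k G` — the module `k` with `g • x = χ g * x`  (`muRep_ρ_apply`);
* `evalB χ M : M →ₗ[k] M.dualTwist χ →ₗ[k] muRep χ`, `evalB χ M m f = f m`, and its equivariance
  `evalB_equivariant : evalB (g • m) (g • f) = g • evalB m f`;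
* `isDiscrete_muRep`, `isDiscrete_dualTwist` (from triviality of `χ`, `M.ρ` on a member of the basis);
* `tateCup 𝓑 χ M hM' : H1 𝓑 M →ₗ H1 𝓑 (M.dualTwist χ) →ₗ H2 𝓑 (muRep χ)` (`Cup1.cup` of `evalB`).

Galois part (`GQ`, `χ = cycloChar p`, `k = ZMod p`): `muP p := muRep (cycloChar p)`,
`isDiscrete_muP` for `levelS S` (`p ∈ S`); the restriction `Mq (muRep χ) q = muRep (χ ∘ rq)`
and `Mq (M.dualTwist χ) q = (Mq M q).dualTwist (χ ∘ rq)` have the same action
(pointwise: `res_muRep_ρ`, `res_dualTwist_ρ`);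
the global and local Tate cup products `cupS`, `cupq` and their compatibility
`resq2_cupS : resq2 (cupS x y) = cupq (resq1 x) (resq1 y)`.
-/
import Mathlib
import Fermat.Prelude.Def_GroupCohomology_ContinuousUnramified
import Fermat.Agent.TW.DEF.Basic1
import Fermat.Agent.TW.DEF.Cup1
import Fermat.Agent.PT.BR.DualTwist7

set_option autoImplicit false
set_option linter.unusedSectionVars false

open Fermat.Agent.PT.PRO.LevelCoh28 Fermat.Agent.PT.PRO.LevelCohRes28
open Fermat.Agent.PT.GLUE.Objects21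
open Fermat.Agent.TW.DEF.Basic1 Fermat.Agent.TW.DEF.Cup1

namespace Fermat.Agent.TW.DEF.Mu1

noncomputable section

/-! ### Generic part -/

section Generic

variable {k G : Type} [CommRing k] [Group G] (χ : G →* kˣ)

/-- The rank one module `k(χ)`. -/
abbrev muRep : Rep.{0} k G := Rep.of ((Representation.trivial k G k).twist χ)

theorem muRep_ρ_apply (g : G) (x : k) : (muRep χ).ρ g x = (χ g : k) * x := rfl

variable (M : Rep.{0} k G)

/-- The evaluation pairing `M × M^*(χ) → k(χ)`. -/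
def evalB : M →ₗ[k] (M.dualTwist χ) →ₗ[k] (muRep χ) := Module.Dual.eval k M

@[simp] theorem evalB_apply (m : M) (f : Module.Dual k M) : evalB χ M m f = f m := rfl

theorem evalB_equivariant (g : G) (m : M) (f : M.dualTwist χ) :
    evalB χ M (M.ρ g m) ((M.dualTwist χ).ρ g f) = (muRep χ).ρ g (evalB χ M m f) := by
  rw [evalB_apply, Rep.dualTwist_ρ_apply, muRep_ρ_apply, LinearMap.smul_apply,
    LinearMap.comp_apply, ← Module.End.mul_apply, ← map_mul, inv_mul_cancel, map_one,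
    Module.End.one_apply, smul_eq_mul]
  rfl

variable {𝓤 : Set (Subgroup G)}

theorem isDiscrete_muRep (h : ∃ U ∈ 𝓤, ∀ s ∈ U, χ s = 1) : IsDiscrete 𝓤 (muRep χ) := by
  obtain ⟨U, hU, h1⟩ := h
  intro x
  exact ⟨U, hU, fun s hs => by rw [muRep_ρ_apply, h1 s hs, Units.val_one, one_mul]⟩

theorem isDiscrete_dualTwist (h : ∃ U ∈ 𝓤, ∀ s ∈ U, χ s = 1 ∧ M.ρ s = 1) :
    IsDiscrete 𝓤 (M.dualTwist χ) := by
  obtain ⟨U, hU, h1⟩ := h
  intro f
  refine ⟨U, hU, fun s hs => ?_⟩
  have h2 : M.ρ s⁻¹ = 1 := (h1 s⁻¹ (U.inv_mem hs)).2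
  rw [Rep.dualTwist_ρ_apply, (h1 s hs).1, h2, Units.val_one, one_smul]
  rfl

/-- The Tate cup product `H¹(M) × H¹(M^*(χ)) → H²(k(χ))` on level cohomology. -/
def tateCup (𝓑 : LevelBasis G) (hM' : IsDiscrete 𝓑.sets (M.dualTwist χ)) :
    H1 𝓑 M →ₗ[k] H1 𝓑 (M.dualTwist χ) →ₗ[k] H2 𝓑 (muRep χ) :=
  cup (evalB χ M) (evalB_equivariant χ M) hM'

end Generic

/-! ### Restriction along a homomorphism -/

section Res

variable {k G H : Type} [CommRing k] [Group G] [Group H] (r : H →* G) (χ : G →* kˣ)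
  (M : Rep.{0} k G)

theorem res_muRep_ρ (h : H) (x : k) :
    (Rep.res r (muRep χ)).ρ h x = (muRep (χ.comp r)).ρ h x := rfl

theorem res_dualTwist_ρ (h : H) (f : Module.Dual k M) :
    (Rep.res r (M.dualTwist χ)).ρ h f = ((Rep.res r M).dualTwist (χ.comp r)).ρ h f := by
  change (χ (r h) : k) • (f ∘ₗ M.ρ ((r h)⁻¹)) = (χ (r h) : k) • (f ∘ₗ M.ρ (r h⁻¹))
  rw [map_inv r h]

end Res

/-! ### The Galois case -/

section Galois

open ExtCitation

variable (p : ℕ) [Fact p.Prime]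

/-- `μ_p` as a `GQ`-module: `ZMod p` with the cyclotomic action. -/
abbrev muP : Rep.{0} (ZMod p) GQ := muRep (cycloChar p)

theorem isDiscrete_muP {S : Finset Nat.Primes} (hpS : pPrime p ∈ S) :
    IsDiscrete (levelS S).sets (muP p) :=
  isDiscrete_muRep _ ⟨_, ⟨_, Fermat.Agent.PT.BR.DualTwist7.isUnramifiedOutside_Kz p hpS, rfl⟩,
    fun _ hs => Fermat.Agent.PT.BR.DualTwist7.cycloChar_eq_one_of_mem_fixingSubgroup_Kz p hs⟩

variable (S : Finset Nat.Primes) (M : Rep.{0} (ZMod p) GQ)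

/-- The global Tate cup product `H¹(G_S, M) × H¹(G_S, M^*(1)) → H²(G_S, μ_p)`. -/
def cupS (hM' : IsDiscrete (levelS S).sets (M.dualTwist (cycloChar p))) :
    HS1 S M →ₗ[ZMod p] HS1 S (M.dualTwist (cycloChar p)) →ₗ[ZMod p] HS2 S (muP p) :=
  tateCup (cycloChar p) M (levelS S) hM'

variable (q : ℕ) [Fact q.Prime]

/-- The local Tate cup product `H¹(ℚ_q, M) × H¹(ℚ_q, M^*(1)) → H²(ℚ_q, μ_p)`. -/
def cupq (hMq' : IsDiscrete (levelLoc q).sets (Mq (M.dualTwist (cycloChar p)) q)) :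
    Hq1 M q →ₗ[ZMod p] Hq1 (M.dualTwist (cycloChar p)) q →ₗ[ZMod p] Hq2 (muP p) q :=
  cup (A := Mq M q) (B := Mq (M.dualTwist (cycloChar p)) q) (C := Mq (muP p) q)
    (evalB (cycloChar p) M) (fun g m f => evalB_equivariant (cycloChar p) M (rq q g) m f) hMq'

/-- **Restriction commutes with the Tate cup product.** -/
theorem resq2_cupS (hM' : IsDiscrete (levelS S).sets (M.dualTwist (cycloChar p)))
    (hMq' : IsDiscrete (levelLoc q).sets (Mq (M.dualTwist (cycloChar p)) q))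
    (x : HS1 S M) (y : HS1 S (M.dualTwist (cycloChar p))) :
    resq2 S (muP p) q (cupS p S M hM' x y) =
      cupq p M q hMq' (resq1 S M q x) (resq1 S (M.dualTwist (cycloChar p)) q y) :=
  ppH2_cup (rq q) (isLevelHom_rq S q) (evalB (cycloChar p) M) (evalB_equivariant (cycloChar p) M)
    hM' (A' := Mq M q) (B' := Mq (M.dualTwist (cycloChar p)) q) (C' := Mq (muP p) q)
    (evalB (cycloChar p) M) (fun g m f => evalB_equivariant (cycloChar p) M (rq q g) m f) hMq'
    LinearMap.id (fun _ _ => rfl) LinearMap.id (fun _ _ => rfl) LinearMap.id (fun _ _ => rfl)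
    (fun _ _ => rfl) x y

/-- The restriction to `Gq` of a discrete `G_S`-module is discrete. -/
theorem isDiscrete_Mq {N : Rep.{0} (ZMod p) GQ} (hN : IsDiscrete (levelS S).sets N) :
    IsDiscrete (levelLoc q).sets (Mq N q) := by
  intro n
  obtain ⟨U, hU, h⟩ := hN n
  obtain ⟨V, hV, hVU⟩ := isLevelHom_rq S q U hU
  exact ⟨V, hV, fun s hs => h (rq q s) (hVU hs)⟩

end Galois

end

end Fermat.Agent.TW.DEF.Mu1
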