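/-
Programme T (S56, Taylor–Wiles primes), chapter DEF/ASM (helper8): RESTRICTION OF SCALARS for level
cohomology and Selmer groups.  `T/GLOB` (`GWNumeric1`) works with `Rep (ZMod p) GQ`, while `T/DEF`,
`T/GRP`, `T/LOC` work with `ad⁰ρ̄ : Rep k GQ`, `k = ResidueField 𝒪 ⊇ 𝔽_p`.  This file identifies the
two sides.

For `[Algebra F k]`, `M : Rep k G`:
* `resScalars F M : Rep F G` — same carrier `M.V`, `a • m = algebraMap F k a • m`, same action
  (`resScalars_ρ_apply`, `resScalars_smul`; all `rfl`); `res_resScalars : Rep.res f (resScalars F M) =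
  resScalars F (Rep.res f M)` (`rfl`);
* `mem_cocycles₁_resScalars_iff`, `mem_coboundaries₁_resScalars_iff`, `mem_Z1_resScalars_iff`;
* `z1Equiv F 𝓑 M : Z1 𝓑 M ≃+ Z1 𝓑 (resScalars F M)` (identity on functions),
  `h1Equiv F 𝓑 M : H1 𝓑 M ≃+ H1 𝓑 (resScalars F M)`, `h1Equiv_mk`, `h1Equiv_smul`
  (`h1Equiv (algebraMap F k a • x) = a • h1Equiv x`);
* `invariantsEquiv`, `card_invariants_resScalars`.

Galois vocabulary of `TW/DEF/Basic1` (`M : Rep k GQ`, `S : Finset Nat.Primes`):
* `hS1Equiv F S M : HS1 S M ≃+ HS1 S (resScalars F M)`, `hq1Equiv F M q : Hq1 M q ≃+ Hq1 (resScalars F M) q`,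
  `resq1_hS1Equiv` (compatibility with `resq1`);
* `condF F M q L : Submodule F (Hq1 (resScalars F M) q)` for `L : Submodule k (Hq1 M q)`,
  `mem_condF_iff`, `hq1Equiv_mem_condF_iff`, `condEquiv`, `card_condF`;
* `mem_Sel_resScalars_iff`, `selEquiv`, `card_Sel_resScalars :
  Nat.card (Sel S (resScalars F M) (fun q => condF F M q (L q))) = Nat.card (Sel S M L)`.
-/
import Mathlib
import Fermat.Agent.TW.DEF.Basic1

set_option autoImplicit false
set_option linter.style.haveILetI false

open groupCohomology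
open Fermat.Agent.PT.PRO.LevelCoh28 Fermat.Agent.PT.PRO.LevelCohRes28
open Fermat.Agent.PT.GLUE.Objects21

namespace Fermat.Agent.TW.DEF.ScalarRes8

section Def

variable (F : Type) {k G : Type} [CommRing F] [CommRing k] [Algebra F k] [Group G]

/-- Restriction of scalars of a representation along `F → k`: same carrier, same action. -/
noncomputable def resScalars (M : Rep.{0} k G) : Rep.{0} F G :=
  letI : Module F M.V := Module.compHom M.V (algebraMap F k)
  Rep.of (X := M.V)
    { toFun := fun g =>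
        { toFun := fun m => M.ρ g m
          map_add' := fun x y => map_add _ x y
          map_smul' := fun a m => (M.ρ g).map_smul (algebraMap F k a) m }
      map_one' := by ext m; simp
      map_mul' := fun g h => by ext m; simp }

variable {F}

theorem resScalars_ρ_apply (M : Rep.{0} k G) (g : G) (m : M.V) :
    (resScalars F M).ρ g m = M.ρ g m := rfl

theorem resScalars_smul (M : Rep.{0} k G) (a : F) (x : (resScalars F M).V) :
    a • x = (algebraMap F k a • (show M.V from x) : M.V) := rfl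

variable (F)

theorem mem_cocycles₁_resScalars_iff (M : Rep.{0} k G) (f : G → M.V) :
    (show G → (resScalars F M).V from f) ∈ cocycles₁ (resScalars F M) ↔ f ∈ cocycles₁ M := by
  rw [mem_cocycles₁_iff, mem_cocycles₁_iff]
  rfl

theorem mem_coboundaries₁_resScalars_iff (M : Rep.{0} k G) (f : G → M.V) :
    (show G → (resScalars F M).V from f) ∈ coboundaries₁ (resScalars F M) ↔
      f ∈ coboundaries₁ M := by
  constructor
  · rintro ⟨x, hx⟩
    exact ⟨x, hx⟩
  · rintro ⟨x, hx⟩
    exact ⟨x, hx⟩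

variable (𝓑 : LevelBasis G)

theorem mem_Z1_resScalars_iff (M : Rep.{0} k G) (f : G → M.V) :
    (show G → (resScalars F M).V from f) ∈ Z1 𝓑 (resScalars F M) ↔ f ∈ Z1 𝓑 M := by
  rw [mem_Z1_iff, mem_Z1_iff, mem_cocycles₁_resScalars_iff]
  rfl

end Def

section Equiv

variable (F : Type) {k G : Type} [CommRing F] [CommRing k] [Algebra F k] [Group G]
  (𝓑 : LevelBasis G) (M : Rep.{0} k G)

/-- The level 1-cocycles of `M` and of its restriction of scalars are the same functions. -/
def z1Equiv : ↥(Z1 𝓑 M) ≃+ ↥(Z1 𝓑 (resScalars F M)) where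
  toFun c := ⟨c.1, (mem_Z1_resScalars_iff F 𝓑 M c.1).mpr c.2⟩
  invFun c := ⟨c.1, (mem_Z1_resScalars_iff F 𝓑 M c.1).mp c.2⟩
  left_inv _ := rfl
  right_inv _ := rfl
  map_add' _ _ := rfl

@[simp] theorem coe_z1Equiv (c : ↥(Z1 𝓑 M)) : ((z1Equiv F 𝓑 M c).1 : G → M.V) = c.1 := rfl

@[simp] theorem coe_z1Equiv_symm (c : ↥(Z1 𝓑 (resScalars F M))) :
    (((z1Equiv F 𝓑 M).symm c).1 : G → M.V) = c.1 := rfl

theorem z1Equiv_smul (a : F) (c : ↥(Z1 𝓑 M)) :
    z1Equiv F 𝓑 M (algebraMap F k a • c) = a • z1Equiv F 𝓑 M c := rfl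

/-- `H¹` of `M` and of its restriction of scalars agree (as additive groups). -/
noncomputable def h1Equiv : H1 𝓑 M ≃+ H1 𝓑 (resScalars F M) :=
  QuotientAddGroup.congr
    ((coboundaries₁ M).comap (Z1 𝓑 M).subtype).toAddSubgroup
    ((coboundaries₁ (resScalars F M)).comap (Z1 𝓑 (resScalars F M)).subtype).toAddSubgroup
    (z1Equiv F 𝓑 M) (by
      ext c
      constructor
      · rintro ⟨c', hc', rfl⟩
        exact (mem_coboundaries₁_resScalars_iff F M c'.1).mpr hc'
      · intro hc
        exact ⟨(z1Equiv F 𝓑 M).symm c, (mem_coboundaries₁_resScalars_iff F M c.1).mp hc,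
          (z1Equiv F 𝓑 M).apply_symm_apply c⟩)

theorem h1Equiv_mk (c : ↥(Z1 𝓑 M)) :
    h1Equiv F 𝓑 M (H1mk 𝓑 M c) = H1mk 𝓑 (resScalars F M) (z1Equiv F 𝓑 M c) := rfl

theorem h1Equiv_smul (a : F) (x : H1 𝓑 M) :
    h1Equiv F 𝓑 M (algebraMap F k a • x) = a • h1Equiv F 𝓑 M x := by
  obtain ⟨c, rfl⟩ := H1mk_surjective 𝓑 M x
  rw [← map_smul, h1Equiv_mk, h1Equiv_mk, z1Equiv_smul, map_smul]

end Equiv

section Res

variable (F : Type) {k G H : Type} [CommRing F] [CommRing k] [Algebra F k] [Group G] [Group H]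

theorem res_resScalars (f : H →* G) (M : Rep.{0} k G) :
    Rep.res f (resScalars F M) = resScalars F (Rep.res f M) := rfl

end Res

section Galois

open Fermat.Agent.TW.DEF.Basic1

variable (F : Type) {k : Type} [CommRing F] [CommRing k] [Algebra F k]
  (S : Finset Nat.Primes) (M : Rep.{0} k GQ)

/-- `H¹(G_S, M)` does not depend on the ring of scalars. -/
noncomputable def hS1Equiv : HS1 S M ≃+ HS1 S (resScalars F M) := h1Equiv F (levelS S) M

/-- `H¹(ℚ_q, M)` does not depend on the ring of scalars. -/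
noncomputable def hq1Equiv (q : ℕ) [Fact q.Prime] : Hq1 M q ≃+ Hq1 (resScalars F M) q :=
  h1Equiv F (levelLoc q) (Mq M q)

theorem hS1Equiv_smul (a : F) (x : HS1 S M) :
    hS1Equiv F S M (algebraMap F k a • x) = a • hS1Equiv F S M x :=
  h1Equiv_smul F (levelS S) M a x

theorem hq1Equiv_smul (q : ℕ) [Fact q.Prime] (a : F) (x : Hq1 M q) :
    hq1Equiv F M q (algebraMap F k a • x) = a • hq1Equiv F M q x :=
  h1Equiv_smul F (levelLoc q) (Mq M q) a x

/-- Restriction to `ℚ_q` commutes with restriction of scalars. -/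
theorem resq1_hS1Equiv (q : ℕ) [Fact q.Prime] (x : HS1 S M) :
    resq1 S (resScalars F M) q (hS1Equiv F S M x) = hq1Equiv F M q (resq1 S M q x) := by
  obtain ⟨c, rfl⟩ := H1mk_surjective (levelS S) M x
  rfl

/-- A local condition, viewed over the smaller ring of scalars. -/
def condF (q : ℕ) [Fact q.Prime] (L : Submodule k (Hq1 M q)) :
    Submodule F (Hq1 (resScalars F M) q) where
  carrier := {y | (hq1Equiv F M q).symm y ∈ L}
  add_mem' := fun {a b} ha hb => by
    show (hq1Equiv F M q).symm (a + b) ∈ L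
    rw [map_add]; exact L.add_mem ha hb
  zero_mem' := by
    show (hq1Equiv F M q).symm 0 ∈ L
    rw [map_zero]; exact L.zero_mem
  smul_mem' := fun a y hy => by
    show (hq1Equiv F M q).symm (a • y) ∈ L
    have h1 : (hq1Equiv F M q).symm (a • y) = algebraMap F k a • (hq1Equiv F M q).symm y := by
      apply (hq1Equiv F M q).injective
      rw [AddEquiv.apply_symm_apply, hq1Equiv_smul, AddEquiv.apply_symm_apply]
    rw [h1]; exact L.smul_mem _ hy

theorem mem_condF_iff (q : ℕ) [Fact q.Prime] (L : Submodule k (Hq1 M q))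
    (y : Hq1 (resScalars F M) q) : y ∈ condF F M q L ↔ (hq1Equiv F M q).symm y ∈ L := Iff.rfl

theorem hq1Equiv_mem_condF_iff (q : ℕ) [Fact q.Prime] (L : Submodule k (Hq1 M q)) (x : Hq1 M q) :
    hq1Equiv F M q x ∈ condF F M q L ↔ x ∈ L := by
  rw [mem_condF_iff, AddEquiv.symm_apply_apply]

/-- The local condition and its restriction of scalars are in bijection. -/
noncomputable def condEquiv (q : ℕ) [Fact q.Prime] (L : Submodule k (Hq1 M q)) :
    ↥L ≃ ↥(condF F M q L) where
  toFun x := ⟨hq1Equiv F M q x.1, (hq1Equiv_mem_condF_iff F M q L x.1).mpr x.2⟩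
  invFun y := ⟨(hq1Equiv F M q).symm y.1, y.2⟩
  left_inv x := Subtype.ext ((hq1Equiv F M q).symm_apply_apply x.1)
  right_inv y := Subtype.ext ((hq1Equiv F M q).apply_symm_apply y.1)

theorem card_condF (q : ℕ) [Fact q.Prime] (L : Submodule k (Hq1 M q)) :
    Nat.card ↥(condF F M q L) = Nat.card ↥L :=
  (Nat.card_congr (condEquiv F M q L)).symm

theorem mem_Sel_resScalars_iff
    (L : ∀ q : ↥S, Submodule k (Hq1 M ((q : Nat.Primes) : ℕ))) (x : HS1 S M) :
    hS1Equiv F S M x ∈ Sel S (resScalars F M)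
        (fun q => condF F M ((q : Nat.Primes) : ℕ) (L q)) ↔ x ∈ Sel S M L := by
  rw [mem_Sel_iff, mem_Sel_iff]
  refine forall_congr' fun q => ?_
  rw [resq1_hS1Equiv, hq1Equiv_mem_condF_iff]

/-- The Selmer group and its restriction of scalars are in bijection. -/
noncomputable def selEquiv (L : ∀ q : ↥S, Submodule k (Hq1 M ((q : Nat.Primes) : ℕ))) :
    ↥(Sel S M L) ≃ ↥(Sel S (resScalars F M)
      (fun q => condF F M ((q : Nat.Primes) : ℕ) (L q))) where
  toFun x := ⟨hS1Equiv F S M x.1, (mem_Sel_resScalars_iff F S M L x.1).mpr x.2⟩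
  invFun y := ⟨(hS1Equiv F S M).symm y.1, by
    have h := y.2
    rw [← (hS1Equiv F S M).apply_symm_apply y.1] at h
    exact (mem_Sel_resScalars_iff F S M L _).mp h⟩
  left_inv x := Subtype.ext ((hS1Equiv F S M).symm_apply_apply x.1)
  right_inv y := Subtype.ext ((hS1Equiv F S M).apply_symm_apply y.1)

theorem card_Sel_resScalars (L : ∀ q : ↥S, Submodule k (Hq1 M ((q : Nat.Primes) : ℕ))) :
    Nat.card ↥(Sel S (resScalars F M) (fun q => condF F M ((q : Nat.Primes) : ℕ) (L q))) =
      Nat.card ↥(Sel S M L) :=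
  (Nat.card_congr (selEquiv F S M L)).symm

end Galois

section Invariants

variable (F : Type) {k G : Type} [CommRing F] [CommRing k] [Algebra F k] [Group G]
  (M : Rep.{0} k G)

/-- The invariants do not depend on the ring of scalars. -/
def invariantsEquiv : ↥M.ρ.invariants ≃ ↥(resScalars F M).ρ.invariants where
  toFun x := ⟨x.1, fun g => x.2 g⟩
  invFun y := ⟨y.1, fun g => y.2 g⟩
  left_inv _ := rfl
  right_inv _ := rfl

theorem card_invariants_resScalars :
    Nat.card ↥(resScalars F M).ρ.invariants = Nat.card ↥M.ρ.invariants :=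
  (Nat.card_congr (invariantsEquiv F M)).symm

end Invariants

end Fermat.Agent.TW.DEF.ScalarRes8
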