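/-
PROGRAMME T, chapter DEF (helper1).  `LiftCocycle1`: lifts to the dual numbers and cocycles of the
adjoint representation, in the matrix model.

`k` a commutative ring, `rbar : GQ →* M2 k`, `r : GQ →* M2 k[ε]` with `fst ∘ r = rbar`
(`IsLiftOf rbar r`).  Writing `r σ = rbar σ + ε s σ`:

* `liftCocycle rbar r σ := s σ * rbar σ⁻¹`, so that `r σ = (1 + ε c σ) * rbar σ`;
* `liftCocycle_mul : c (σ τ) = rbar σ * c τ * rbar σ⁻¹ + c σ`, `liftCocycle_mem_cocycles₁`
  (a 1-cocycle of `Basic1.adRep rbar`);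
* `liftCocycle_mem_Z1 S`: if moreover `r` is trivial on a member of `levelS S`, it is a level cocycle;
* `trace_liftCocycle`: if `det (r σ) = inl (det (rbar σ))` then `trace (c σ) = 0`; hence
  `liftCocycle0 : GQ → ad0Rep rbar` and `liftCocycle0_mem_Z1`;
* `conjEps X r` (conjugation of `r` by `1 + ε X`), `liftCocycle_conjEps`, and
  `liftCocycle_sub_eq_d₀₁_iff : c' - c = d₀₁ X ↔ r' = conjEps (-X) r`:
  two lifts have cohomologous cocycles iff they are conjugate by some `1 + ε X`;
* `liftClass S h hlev htr : H1 (levelS S) (ad0Rep rbar)` and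
  `liftClass_eq_iff : liftClass r' = liftClass r ↔ ∃ X, trace X = 0 ∧ r' = conjEps (-X) r`.
-/
import Mathlib
import Fermat.Agent.TW.DEF.Basic1

set_option autoImplicit false
set_option linter.unusedSectionVars false

open groupCohomology
open Fermat.Agent.PT.PRO.LevelCoh28 Fermat.Agent.PT.GLUE.Objects21
open Fermat.Agent.TW.DEF.Basic1

namespace Fermat.Agent.TW.DEF.LiftCocycle1

noncomputable section

variable {k : Type} [CommRing k]

/-! ### Matrices over the dual numbers -/

/-- The constant part of a matrix over `k[ε]`. -/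
def fstM (A : M2 (DualNumber k)) : M2 k := A.map TrivSqZeroExt.fst

/-- The `ε`-part of a matrix over `k[ε]`. -/
def sndM (A : M2 (DualNumber k)) : M2 k := A.map TrivSqZeroExt.snd

@[simp] theorem fstM_apply (A : M2 (DualNumber k)) (i j : Fin 2) : fstM A i j = (A i j).fst := rfl

@[simp] theorem sndM_apply (A : M2 (DualNumber k)) (i j : Fin 2) : sndM A i j = (A i j).snd := rfl

theorem ext_fst_snd {A B : M2 (DualNumber k)} (h1 : fstM A = fstM B) (h2 : sndM A = sndM B) :
    A = B := by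
  ext i j
  · exact congrFun (congrFun h1 i) j
  · exact congrFun (congrFun h2 i) j

theorem fstM_mul (A B : M2 (DualNumber k)) : fstM (A * B) = fstM A * fstM B := by
  ext i j
  simp [Matrix.mul_apply, Fin.sum_univ_two]

theorem sndM_mul (A B : M2 (DualNumber k)) :
    sndM (A * B) = fstM A * sndM B + sndM A * fstM B := by
  ext i j
  simp [Matrix.mul_apply, Fin.sum_univ_two]
  ring

@[simp] theorem fstM_one : fstM (1 : M2 (DualNumber k)) = 1 := by
  ext i j
  fin_cases i <;> fin_cases j <;> simp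

@[simp] theorem sndM_one : sndM (1 : M2 (DualNumber k)) = 0 := by
  ext i j
  fin_cases i <;> fin_cases j <;> simp

/-- `A + ε B`. -/
def mkM (A B : M2 k) : M2 (DualNumber k) := Matrix.of fun i j => (A i j, B i j)

@[simp] theorem fstM_mkM (A B : M2 k) : fstM (mkM A B) = A := rfl

@[simp] theorem sndM_mkM (A B : M2 k) : sndM (mkM A B) = B := rfl

theorem mkM_fst_snd (A : M2 (DualNumber k)) : mkM (fstM A) (sndM A) = A :=
  ext_fst_snd rfl rfl

/-! ### The cocycle of a lift -/

/-- `r` lifts `rbar`. -/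
def IsLiftOf (rbar : GQ →* M2 k) (r : GQ →* M2 (DualNumber k)) : Prop :=
  ∀ σ, fstM (r σ) = rbar σ

/-- The cocycle attached to a lift: `c σ = s σ * rbar σ⁻¹` where `r σ = rbar σ + ε s σ`. -/
def liftCocycle (rbar : GQ →* M2 k) (r : GQ →* M2 (DualNumber k)) (σ : GQ) : M2 k :=
  sndM (r σ) * rbar σ⁻¹

variable {rbar : GQ →* M2 k} {r : GQ →* M2 (DualNumber k)}

theorem sndM_eq (σ : GQ) : sndM (r σ) = liftCocycle rbar r σ * rbar σ := by
  rw [liftCocycle, mul_assoc, rbar_inv_mul, mul_one]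

theorem liftCocycle_mul (h : IsLiftOf rbar r) (σ τ : GQ) :
    liftCocycle rbar r (σ * τ) =
      rbar σ * liftCocycle rbar r τ * rbar σ⁻¹ + liftCocycle rbar r σ := by
  simp only [liftCocycle]
  rw [map_mul r, sndM_mul, h σ, h τ, mul_inv_rev, map_mul rbar, add_mul]
  congr 1
  · simp only [mul_assoc]
  · rw [mul_assoc (sndM (r σ)), ← mul_assoc (rbar τ), rbar_mul_inv, one_mul]

theorem liftCocycle_mem_cocycles₁ (h : IsLiftOf rbar r) :
    (liftCocycle rbar r : GQ → adRep rbar) ∈ cocycles₁ (adRep rbar) := by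
  rw [mem_cocycles₁_iff]
  intro σ τ
  exact liftCocycle_mul h σ τ

/-- If `r` is trivial on `U`, its cocycle is right-invariant under `U`. -/
theorem liftCocycle_mul_right (h : IsLiftOf rbar r) {s : GQ} (hs : r s = 1) (σ : GQ) :
    liftCocycle rbar r (σ * s) = liftCocycle rbar r σ := by
  have h1 : rbar s = 1 := by rw [← h s, hs, fstM_one]
  have h2 : liftCocycle rbar r s = 0 := by
    rw [liftCocycle, hs, sndM_one, zero_mul]
  rw [liftCocycle_mul h, h2, mul_zero, zero_mul, zero_add]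

theorem liftCocycle_mem_Z1 (S : Finset Nat.Primes) (h : IsLiftOf rbar r)
    (hlev : ∃ U ∈ (levelS S).sets, ∀ s ∈ U, r s = 1) :
    (liftCocycle rbar r : GQ → adRep rbar) ∈ Z1 (levelS S) (adRep rbar) := by
  obtain ⟨U, hU, h1⟩ := hlev
  exact ⟨liftCocycle_mem_cocycles₁ h, U, hU, fun g s hs => liftCocycle_mul_right h (h1 s hs) g⟩

/-! ### Determinant condition and trace zero -/

theorem snd_det (A : M2 (DualNumber k)) :
    (A.det).snd = (fstM A 0 0) * (sndM A 1 1) + (sndM A 0 0) * (fstM A 1 1)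
      - ((fstM A 0 1) * (sndM A 1 0) + (sndM A 0 1) * (fstM A 1 0)) := by
  rw [Matrix.det_fin_two]
  simp

/-- If `det (r σ)` is constant (equal to `det (rbar σ)`), the cocycle has trace zero. -/
theorem trace_liftCocycle (h : IsLiftOf rbar r) (σ : GQ) (hdet : ((r σ).det).snd = 0) :
    (liftCocycle rbar r σ).trace = 0 := by
  -- `trace (s * a') = 0` where `a * a' = 1`: multiply by `det a`, a unit
  set a := rbar σ with ha
  set a' := rbar σ⁻¹ with ha'
  set s := sndM (r σ) with hs
  have haa' : a * a' = 1 := rbar_mul_inv rbar σ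
  have hdu : a.det * a'.det = 1 := by rw [← Matrix.det_mul, haa', Matrix.det_one]
  have hsd := snd_det (r σ)
  rw [hdet, h σ, ← ha, ← hs] at hsd
  -- `adjugate a = det a • a'`
  have hadj : a.adjugate = a.det • a' := by
    have h1 : a.adjugate * (a * a') = a.adjugate := by rw [haa', mul_one]
    rw [← mul_assoc, Matrix.adjugate_mul, Matrix.smul_mul, one_mul] at h1
    exact h1.symm
  have htr : (s * a.adjugate).trace = 0 := by
    rw [Matrix.adjugate_fin_two, Matrix.trace_fin_two]
    simp only [Matrix.mul_apply, Fin.sum_univ_two, Matrix.of_apply, Matrix.cons_val', Matrix.cons_val_zero,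
      Matrix.cons_val_one, Matrix.cons_val_fin_one]
    linear_combination hsd.symm
  rw [hadj, Matrix.mul_smul, Matrix.trace_smul, smul_eq_mul] at htr
  show (s * a').trace = 0
  calc (s * a').trace = (a.det * a'.det) * (s * a').trace := by rw [hdu, one_mul]
    _ = a'.det * (a.det * (s * a').trace) := by ring
    _ = 0 := by rw [htr, mul_zero]

/-- The cocycle with values in `ad⁰`. -/
def liftCocycle0 (rbar : GQ →* M2 k) (r : GQ →* M2 (DualNumber k))
    (htr : ∀ σ, (liftCocycle rbar r σ).trace = 0) (σ : GQ) : ad0Rep rbar :=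
  ⟨liftCocycle rbar r σ, (mem_sl2_iff _).2 (htr σ)⟩

@[simp] theorem ad0Val_liftCocycle0 (htr : ∀ σ, (liftCocycle rbar r σ).trace = 0) (σ : GQ) :
    ad0Val rbar (liftCocycle0 rbar r htr σ) = liftCocycle rbar r σ := rfl

theorem liftCocycle0_mem_Z1 (S : Finset Nat.Primes) (h : IsLiftOf rbar r)
    (hlev : ∃ U ∈ (levelS S).sets, ∀ s ∈ U, r s = 1)
    (htr : ∀ σ, (liftCocycle rbar r σ).trace = 0) :
    liftCocycle0 rbar r htr ∈ Z1 (levelS S) (ad0Rep rbar) := by
  obtain ⟨U, hU, h1⟩ := hlev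
  refine ⟨(mem_cocycles₁_iff _).2 fun σ τ => ?_, U, hU, fun g s hs => ?_⟩
  · apply ad0Val_injective
    rw [map_add, ad0Val_ρ_apply, ad0Val_liftCocycle0, ad0Val_liftCocycle0, ad0Val_liftCocycle0]
    exact liftCocycle_mul h σ τ
  · apply ad0Val_injective
    rw [ad0Val_liftCocycle0, ad0Val_liftCocycle0]
    exact liftCocycle_mul_right h (h1 s hs) g

/-! ### Conjugation by `1 + ε X` -/

/-- `1 + ε X`. -/
def onePlusEps (X : M2 k) : M2 (DualNumber k) := mkM 1 X

theorem onePlusEps_mul (X Y : M2 k) : onePlusEps X * onePlusEps Y = onePlusEps (X + Y) := by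
  apply ext_fst_snd
  · rw [fstM_mul]
    simp [onePlusEps]
  · rw [sndM_mul]
    simp [onePlusEps, add_comm]

theorem onePlusEps_zero : onePlusEps (0 : M2 k) = 1 := by
  apply ext_fst_snd
  · simp [onePlusEps]
  · simp [onePlusEps]

theorem onePlusEps_mul_neg (X : M2 k) : onePlusEps X * onePlusEps (-X) = 1 := by
  rw [onePlusEps_mul, add_neg_cancel, onePlusEps_zero]

theorem onePlusEps_neg_mul (X : M2 k) : onePlusEps (-X) * onePlusEps X = 1 := by
  rw [onePlusEps_mul, neg_add_cancel, onePlusEps_zero]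

/-- Conjugation of a representation by `1 + ε X`. -/
def conjEps (X : M2 k) (r : GQ →* M2 (DualNumber k)) : GQ →* M2 (DualNumber k) where
  toFun σ := onePlusEps X * r σ * onePlusEps (-X)
  map_one' := by rw [map_one, mul_one, onePlusEps_mul_neg]
  map_mul' σ τ := by
    rw [map_mul]
    calc onePlusEps X * (r σ * r τ) * onePlusEps (-X)
        = onePlusEps X * r σ * 1 * r τ * onePlusEps (-X) := by simp only [mul_one, mul_assoc]
      _ = onePlusEps X * r σ * onePlusEps (-X) * (onePlusEps X * r τ * onePlusEps (-X)) := by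
          rw [← onePlusEps_neg_mul X]; simp only [mul_assoc]

@[simp] theorem conjEps_apply (X : M2 k) (r : GQ →* M2 (DualNumber k)) (σ : GQ) :
    conjEps X r σ = onePlusEps X * r σ * onePlusEps (-X) := rfl

theorem fstM_conjEps (X : M2 k) (σ : GQ) : fstM (conjEps X r σ) = fstM (r σ) := by
  rw [conjEps_apply, fstM_mul, fstM_mul]
  simp [onePlusEps]

theorem sndM_conjEps (X : M2 k) (σ : GQ) :
    sndM (conjEps X r σ) = sndM (r σ) + X * fstM (r σ) - fstM (r σ) * X := by
  rw [conjEps_apply, sndM_mul, fstM_mul, sndM_mul]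
  simp [onePlusEps]
  abel

theorem isLiftOf_conjEps (h : IsLiftOf rbar r) (X : M2 k) : IsLiftOf rbar (conjEps X r) :=
  fun σ => by rw [fstM_conjEps, h σ]

/-- The cocycle of the conjugate by `1 + ε X` is `c - d X`. -/
theorem liftCocycle_conjEps (h : IsLiftOf rbar r) (X : M2 k) (σ : GQ) :
    liftCocycle rbar (conjEps X r) σ = liftCocycle rbar r σ - (rbar σ * X * rbar σ⁻¹ - X) := by
  rw [liftCocycle, sndM_conjEps, h σ, liftCocycle, sub_mul, add_mul, mul_assoc X, rbar_mul_inv,
    mul_one]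
  abel

/-- Two lifts with the same cocycle are equal. -/
theorem eq_of_liftCocycle_eq {r' : GQ →* M2 (DualNumber k)} (h : IsLiftOf rbar r)
    (h' : IsLiftOf rbar r') (hc : ∀ σ, liftCocycle rbar r' σ = liftCocycle rbar r σ) : r' = r := by
  ext σ : 1
  apply ext_fst_snd
  · rw [h σ, h' σ]
  · rw [sndM_eq (rbar := rbar), sndM_eq (rbar := rbar), hc σ]

/-- **Cohomologous cocycles ⟺ conjugate lifts.**  `c' - c = d₀₁ X` iff `r' = (1 - εX) r (1 + εX)`. -/
theorem liftCocycle_sub_eq_d₀₁_iff {r' : GQ →* M2 (DualNumber k)} (h : IsLiftOf rbar r)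
    (h' : IsLiftOf rbar r') (X : M2 k) :
    ((liftCocycle rbar r' : GQ → adRep rbar) - (liftCocycle rbar r : GQ → adRep rbar)
        = (d₀₁ (adRep rbar)).hom X) ↔ r' = conjEps (-X) r := by
  constructor
  · intro hd
    refine eq_of_liftCocycle_eq (isLiftOf_conjEps h (-X)) h' fun σ => ?_
    rw [liftCocycle_conjEps h]
    have := congrFun hd σ
    rw [d₀₁_hom_apply, Pi.sub_apply, adRep_ρ_apply] at this
    rw [eq_sub_iff_add_eq] at this ⊢
    simp only [mul_neg, neg_mul, sub_neg_eq_add]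
    rw [← this]
    abel
  · rintro rfl
    funext σ
    rw [Pi.sub_apply, liftCocycle_conjEps h, d₀₁_hom_apply, adRep_ρ_apply]
    simp only [mul_neg, neg_mul, sub_neg_eq_add]
    abel

/-! ### Classes in `H¹(G_S, ad⁰)` -/

/-- The class in `H¹(G_S, ad⁰ ρ̄)` of a lift with constant determinant. -/
def liftClass (S : Finset Nat.Primes) (h : IsLiftOf rbar r)
    (hlev : ∃ U ∈ (levelS S).sets, ∀ s ∈ U, r s = 1)
    (htr : ∀ σ, (liftCocycle rbar r σ).trace = 0) : H1 (levelS S) (ad0Rep rbar) :=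
  H1mk (levelS S) (ad0Rep rbar) ⟨liftCocycle0 rbar r htr, liftCocycle0_mem_Z1 S h hlev htr⟩

/-- **Two lifts have the same class in `H¹(G_S, ad⁰)` iff they are conjugate by `1 + ε X` with
`trace X = 0`.** -/
theorem liftClass_eq_iff (S : Finset Nat.Primes) {r' : GQ →* M2 (DualNumber k)}
    (h : IsLiftOf rbar r) (hlev : ∃ U ∈ (levelS S).sets, ∀ s ∈ U, r s = 1)
    (htr : ∀ σ, (liftCocycle rbar r σ).trace = 0)
    (h' : IsLiftOf rbar r') (hlev' : ∃ U ∈ (levelS S).sets, ∀ s ∈ U, r' s = 1)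
    (htr' : ∀ σ, (liftCocycle rbar r' σ).trace = 0) :
    liftClass S h' hlev' htr' = liftClass S h hlev htr ↔
      ∃ X : M2 k, X.trace = 0 ∧ r' = conjEps (-X) r := by
  have key : ∀ X0 : ad0Rep rbar,
      ((d₀₁ (ad0Rep rbar)).hom X0 = liftCocycle0 rbar r' htr' - liftCocycle0 rbar r htr) ↔
        ((liftCocycle rbar r' : GQ → adRep rbar) - (liftCocycle rbar r : GQ → adRep rbar)
          = (d₀₁ (adRep rbar)).hom (ad0Val rbar X0)) := by
    intro X0
    constructor
    · intro hd
      funext σ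
      have := congrArg (ad0Val rbar) (congrFun hd σ)
      rw [d₀₁_hom_apply, Pi.sub_apply, map_sub, map_sub, ad0Val_ρ_apply, ad0Val_liftCocycle0,
        ad0Val_liftCocycle0] at this
      rw [Pi.sub_apply, d₀₁_hom_apply, adRep_ρ_apply]
      exact this.symm
    · intro hd
      funext σ
      apply ad0Val_injective
      have := congrFun hd σ
      rw [Pi.sub_apply, d₀₁_hom_apply, adRep_ρ_apply] at this
      rw [d₀₁_hom_apply, Pi.sub_apply, map_sub, map_sub, ad0Val_ρ_apply, ad0Val_liftCocycle0,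
        ad0Val_liftCocycle0]
      exact this.symm
  rw [liftClass, liftClass, ← sub_eq_zero, ← map_sub, H1mk_eq_zero_iff]
  constructor
  · rintro ⟨X0, hX0⟩
    refine ⟨ad0Val rbar X0, trace_ad0Val rbar X0, ?_⟩
    rw [← liftCocycle_sub_eq_d₀₁_iff h h']
    exact (key X0).1 hX0
  · rintro ⟨X, hX, hr⟩
    refine ⟨⟨X, (mem_sl2_iff X).2 hX⟩, ?_⟩
    refine (key ⟨X, (mem_sl2_iff X).2 hX⟩).2 ?_
    exact (liftCocycle_sub_eq_d₀₁_iff h h' X).2 hr

end

end Fermat.Agent.TW.DEF.LiftCocycle1
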