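/-
Programme T (S56, Taylor–Wiles primes), chapter DEF, brick D3 (helper8): DEFORMATIONS TO THE DUAL
NUMBERS IN MATRIX FORM.

Notation: `k = ResidueField 𝒪`, `k[ε] = DualNumber k` with an `𝒪`-algebra structure `alg` such that
`halg : ∀ c, algebraMap 𝒪 k[ε] c = TrivSqZeroExt.inl (residue 𝒪 c)` (e.g. `S53.dualNumberAlgebra`,
for which `halg` is `S53.algebraMap_dualNumber_apply`, i.e. `rfl`), `ρbar : ResidualGaloisRep k`,
`b : Module.Basis (Fin 2) k ρbar.V`, `rbar := S53.matrixOfBasisRes ρbar b : GQ →* M2 k`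
(`rbar σ = LinearMap.toMatrix b b (ρbar.ρ σ)`).  A *dual lift* of `rbar` is `r : GQ →* M2 k[ε]`
with `S53.MatCont r` and `∀ σ, (r σ).map TrivSqZeroExt.fst = rbar σ`.

Ring theory of `k[ε]`:
* `mem_maximalIdeal_iff`, `maximalIdeal_sq_eq_bot`, `isArtinianRing_dualNumber`,
  `isAdicComplete_dualNumber`;
* `isLocalHom_algebraMap`, `residue_comp_algebraMap_surjective`, `isArtinianTestAlgebra_dualNumber`;
* `isLocalHom_algHom` (D): every `𝒪`-algebra hom from a local `𝒪`-algebra to `k[ε]` is local.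

Deformations:
* `isStrictLift_iff_fst` : over `k[ε]`, `S53.IsStrictLift rbar r ↔ ∀ σ, (r σ).map fst = rbar σ`;
* `exists_dualLift_of_residual_isEquiv` (A): a `GaloisRepAdic k[ε]` whose residual representation is
  equivalent to `ρbar` (exact shape of `DeformationRingData.universal`) is equivalent to
  `S53.ofMatrix r hr` for a dual lift `r` of `rbar`;
* `residual_isEquiv_of_dualLift` (B): conversely `S53.ofMatrix r hr` is such a deformation;
* `residual_baseChangeAlong_isEquiv` (C): base change along a local `𝒪`-algebra hom preserves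
  "residual representation equivalent to `ρbar`";
* `baseChangeAlong_comp_isEquiv` : transitivity of `GaloisRepAdic.baseChangeAlong` up to equivalence;
* `type_baseChangeAlong` (E): a deformation condition is stable under base change along ANY local
  `𝒪`-algebra hom from a complete Noetherian local `𝒪`-algebra to an Artinian test algebra.

Universal deformation ring `DQ : GaloisRep.DeformationRingData 𝒪 ρbar 𝒟`:
* `residual_baseChangeAlong_universal`, `type_baseChangeAlong_universal`;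
* `exists_dualLift_of_algHom` : every `φ : DQ.R →ₐ[𝒪] k[ε]` gives a dual lift `r` of `rbar` with
  `(DQ.ρ.baseChangeAlong φ _).IsEquiv (ofMatrix r hr)` and `𝒟 (ofMatrix r hr)`;
* `algHom_eq_of_isEquiv` : `φ ↦` (class of `DQ.ρ.baseChangeAlong φ`) is injective;
* `algHom_eq_of_ofMatrix_isEquiv` : the same through matrix models;
* `exists_algHom_of_dualLift` : every dual lift of type `𝒟` comes from some `φ`.
-/
import Mathlib
import Fermat.Agent.S53.MatrixRes
import Fermat.Agent.S53.Pairs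

set_option autoImplicit false
set_option linter.style.haveILetI false

open IsLocalRing

namespace Fermat.Agent.TW.DEF.DualLift8

open Fermat.Agent.S53 GaloisRep

/-! ### Ring theory of the dual numbers over a field -/

section Ring

variable {k : Type} [Field k]

theorem mem_maximalIdeal_iff (x : DualNumber k) :
    x ∈ maximalIdeal (DualNumber k) ↔ x.fst = 0 := by
  rw [mem_maximalIdeal, mem_nonunits_iff, TrivSqZeroExt.isUnit_iff_isUnit_fst, isUnit_iff_ne_zero,
    not_not]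

theorem mul_eq_zero_of_mem_maximalIdeal {x y : DualNumber k}
    (hx : x ∈ maximalIdeal (DualNumber k)) (hy : y ∈ maximalIdeal (DualNumber k)) : x * y = 0 := by
  rw [mem_maximalIdeal_iff] at hx hy
  ext
  · rw [TrivSqZeroExt.fst_mul, hx, zero_mul, TrivSqZeroExt.fst_zero]
  · rw [TrivSqZeroExt.snd_mul, hx, hy, zero_smul, MulOpposite.op_zero, zero_smul, add_zero,
      TrivSqZeroExt.snd_zero]

theorem maximalIdeal_sq_eq_bot : maximalIdeal (DualNumber k) ^ 2 = ⊥ := by
  rw [eq_bot_iff, pow_two, Ideal.mul_le]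
  intro x hx y hy
  rw [Ideal.mem_bot]
  exact mul_eq_zero_of_mem_maximalIdeal hx hy

theorem isArtinianRing_dualNumber : IsArtinianRing (DualNumber k) :=
  (isArtinianRing_iff_isNilpotent_maximalIdeal (DualNumber k)).mpr ⟨2, maximalIdeal_sq_eq_bot⟩

theorem isAdicComplete_dualNumber :
    IsAdicComplete (maximalIdeal (DualNumber k)) (DualNumber k) := by
  haveI := isArtinianRing_dualNumber (k := k)
  infer_instance

end Ring

/-! ### The `𝒪`-algebra `k[ε]` -/

section Algebra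

variable {𝒪 : Type} [CommRing 𝒪] [IsLocalRing 𝒪]
  [alg : Algebra 𝒪 (DualNumber (ResidueField 𝒪))]

/-- The structure map `𝒪 → k[ε]` is a local homomorphism. -/
theorem isLocalHom_algebraMap
    (halg : ∀ c : 𝒪, algebraMap 𝒪 (DualNumber (ResidueField 𝒪)) c =
      TrivSqZeroExt.inl (residue 𝒪 c)) :
    IsLocalHom (algebraMap 𝒪 (DualNumber (ResidueField 𝒪))) := by
  refine ⟨fun c hc => ?_⟩
  rw [halg, TrivSqZeroExt.isUnit_iff_isUnit_fst, TrivSqZeroExt.fst_inl] at hc
  by_contra hnc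
  have : residue 𝒪 c = 0 := (residue_eq_zero_iff c).mpr ((mem_maximalIdeal c).mpr hnc)
  rw [this] at hc
  exact not_isUnit_zero hc

/-- The residue field of `k[ε]` is generated by `𝒪`. -/
theorem residue_comp_algebraMap_surjective
    (halg : ∀ c : 𝒪, algebraMap 𝒪 (DualNumber (ResidueField 𝒪)) c =
      TrivSqZeroExt.inl (residue 𝒪 c)) :
    Function.Surjective (residue (DualNumber (ResidueField 𝒪)) ∘
      algebraMap 𝒪 (DualNumber (ResidueField 𝒪))) := by
  intro x
  obtain ⟨t, rfl⟩ := IsLocalRing.residue_surjective x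
  obtain ⟨c, hc⟩ := IsLocalRing.residue_surjective t.fst
  refine ⟨c, ?_⟩
  rw [Function.comp_apply, ← sub_eq_zero, ← map_sub, residue_eq_zero_iff, mem_maximalIdeal_iff,
    halg, TrivSqZeroExt.fst_sub, TrivSqZeroExt.fst_inl, hc, sub_self]

/-- `k[ε]` is an Artinian test algebra. -/
theorem isArtinianTestAlgebra_dualNumber
    (halg : ∀ c : 𝒪, algebraMap 𝒪 (DualNumber (ResidueField 𝒪)) c =
      TrivSqZeroExt.inl (residue 𝒪 c)) :
    IsArtinianTestAlgebra 𝒪 (DualNumber (ResidueField 𝒪)) :=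
  ⟨isLocalHom_algebraMap halg, residue_comp_algebraMap_surjective halg,
    isArtinianRing_dualNumber⟩

/-- **(D)** Every `𝒪`-algebra homomorphism from a local `𝒪`-algebra to `k[ε]` is local. -/
theorem isLocalHom_algHom {R : Type} [CommRing R] [IsLocalRing R] [Algebra 𝒪 R]
    (halg : ∀ c : 𝒪, algebraMap 𝒪 (DualNumber (ResidueField 𝒪)) c =
      TrivSqZeroExt.inl (residue 𝒪 c))
    (φ : R →ₐ[𝒪] DualNumber (ResidueField 𝒪)) :
    IsLocalHom (φ : R →+* DualNumber (ResidueField 𝒪)) := by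
  let ψ : R →+* ResidueField 𝒪 :=
    (TrivSqZeroExt.fstHom (ResidueField 𝒪) (ResidueField 𝒪) (ResidueField 𝒪) : _ →+* _).comp
      (φ : R →+* DualNumber (ResidueField 𝒪))
  have hψ : ∀ x, ψ x = (φ x).fst := fun _ => rfl
  have hsurj : Function.Surjective ψ := by
    intro t
    obtain ⟨c, rfl⟩ := residue_surjective t
    refine ⟨algebraMap 𝒪 R c, ?_⟩
    rw [hψ, AlgHom.commutes, halg, TrivSqZeroExt.fst_inl]
  have hmax : (RingHom.ker ψ).IsMaximal := RingHom.ker_isMaximal_of_surjective ψ hsurj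
  have hker : RingHom.ker ψ = maximalIdeal R := eq_maximalIdeal hmax
  refine ⟨fun x hx => ?_⟩
  have hx' : IsUnit (φ x) := hx
  rw [TrivSqZeroExt.isUnit_iff_isUnit_fst, isUnit_iff_ne_zero] at hx'
  by_contra hnx
  have : x ∈ RingHom.ker ψ := by
    rw [hker]
    exact (mem_maximalIdeal x).mpr hnx
  rw [RingHom.mem_ker, hψ] at this
  exact hx' this

/-- Over the dual numbers, `S53.IsStrictLift rbar r` says that the `ε = 0` part of `r` is
`rbar`. -/
theorem isStrictLift_iff_fst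
    (halg : ∀ c : 𝒪, algebraMap 𝒪 (DualNumber (ResidueField 𝒪)) c =
      TrivSqZeroExt.inl (residue 𝒪 c))
    (rbar : GQ →* M2 (ResidueField 𝒪)) (r : GQ →* M2 (DualNumber (ResidueField 𝒪))) :
    IsStrictLift rbar r ↔ ∀ σ, (r σ).map TrivSqZeroExt.fst = rbar σ := by
  constructor
  · intro h σ
    ext i j
    obtain ⟨a, ha⟩ := residue_surjective (rbar σ i j)
    have h1 := h σ i j a ha
    rw [mem_maximalIdeal_iff, TrivSqZeroExt.fst_sub, halg, TrivSqZeroExt.fst_inl,
      sub_eq_zero] at h1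
    rw [Matrix.map_apply, h1, ha]
  · intro h σ i j a ha
    have h1 := congrFun (congrFun (h σ) i) j
    rw [Matrix.map_apply] at h1
    rw [mem_maximalIdeal_iff, TrivSqZeroExt.fst_sub, halg, TrivSqZeroExt.fst_inl, sub_eq_zero, h1,
      ha]

end Algebra

/-! ### Deformations to `k[ε]` in matrix form -/

section Lift

variable {𝒪 : Type} [CommRing 𝒪] [IsLocalRing 𝒪]
  (ρbar : ResidualGaloisRep (ResidueField 𝒪))
  (b : Module.Basis (Fin 2) (ResidueField 𝒪) ρbar.V)

/-- `ρbar` is equivalent to its matrix model in the basis `b`. -/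
theorem isEquiv_ofMatrixRes_matrixOfBasisRes :
    ρbar.IsEquiv (ofMatrixRes (matrixOfBasisRes ρbar b) (matrixOfBasisRes_factors ρbar b)) :=
  ⟨resEquivOfMatrixOfBasis ρbar b _ _ fun _ => rfl⟩

variable [alg : Algebra 𝒪 (DualNumber (ResidueField 𝒪))]
  [IsLocalHom (algebraMap 𝒪 (DualNumber (ResidueField 𝒪)))]

/-- **(A)** Every deformation of `ρbar` to the dual numbers `k[ε]` (residual representation
equivalent to `ρbar`, in the exact shape of `GaloisRep.DeformationRingData.universal`) is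
equivalent to a matrix representation `r : GQ →* M2 k[ε]` whose `ε = 0` part is the matrix of
`ρbar` in the basis `b`. -/
theorem exists_dualLift_of_residual_isEquiv
    (halg : ∀ c : 𝒪, algebraMap 𝒪 (DualNumber (ResidueField 𝒪)) c =
      TrivSqZeroExt.inl (residue 𝒪 c))
    (ρ : GaloisRepAdic (DualNumber (ResidueField 𝒪)))
    (hres : ρ.residual.IsEquiv (ρbar.baseChangeAlong
      (ResidueField.map (algebraMap 𝒪 (DualNumber (ResidueField 𝒪)))))) :
    ∃ (r : GQ →* M2 (DualNumber (ResidueField 𝒪))) (hr : MatCont r),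
      (∀ σ, (r σ).map TrivSqZeroExt.fst = matrixOfBasisRes ρbar b σ) ∧
        ρ.IsEquiv (ofMatrix r hr) := by
  obtain ⟨r, hr, hlift, hequiv⟩ := exists_isStrictLift_of_residual_isEquiv ρbar
    (matrixOfBasisRes_factors ρbar b) (isEquiv_ofMatrixRes_matrixOfBasisRes ρbar b) ρ hres
  exact ⟨r, hr, (isStrictLift_iff_fst halg _ r).mp hlift, hequiv⟩

/-- **(B)** Conversely, a continuous matrix representation over `k[ε]` whose `ε = 0` part is the
matrix of `ρbar` in the basis `b` is a deformation of `ρbar`. -/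
theorem residual_isEquiv_of_dualLift
    (halg : ∀ c : 𝒪, algebraMap 𝒪 (DualNumber (ResidueField 𝒪)) c =
      TrivSqZeroExt.inl (residue 𝒪 c))
    {r : GQ →* M2 (DualNumber (ResidueField 𝒪))} (hr : MatCont r)
    (hfst : ∀ σ, (r σ).map TrivSqZeroExt.fst = matrixOfBasisRes ρbar b σ) :
    (ofMatrix r hr).residual.IsEquiv (ρbar.baseChangeAlong
      (ResidueField.map (algebraMap 𝒪 (DualNumber (ResidueField 𝒪))))) :=
  residual_isEquiv_of_isStrictLift ρbar (matrixOfBasisRes_factors ρbar b)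
    (isEquiv_ofMatrixRes_matrixOfBasisRes ρbar b) hr ((isStrictLift_iff_fst halg _ r).mpr hfst)

end Lift

/-! ### Base change -/

section BaseChange

variable {𝒪 : Type} [CommRing 𝒪] [IsLocalRing 𝒪]
  {R : Type} [CommRing R] [IsLocalRing R] [Algebra 𝒪 R] [IsLocalHom (algebraMap 𝒪 R)]
  {A : Type} [CommRing A] [IsLocalRing A] [Algebra 𝒪 A] [IsLocalHom (algebraMap 𝒪 A)]

/-- **(C)** The residual representation of a base change: if `ρR` over `R` is a deformation of
`ρbar`, then so is its base change along any local `𝒪`-algebra homomorphism `R → A`. -/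
theorem residual_baseChangeAlong_isEquiv (ρbar : ResidualGaloisRep (ResidueField 𝒪))
    (ρR : GaloisRepAdic R)
    (hres : ρR.residual.IsEquiv (ρbar.baseChangeAlong (ResidueField.map (algebraMap 𝒪 R))))
    (φ : R →ₐ[𝒪] A) (hφ : IsLocalHom (φ : R →+* A)) :
    (ρR.baseChangeAlong (φ : R →+* A) hφ).residual.IsEquiv
      (ρbar.baseChangeAlong (ResidueField.map (algebraMap 𝒪 A))) := by
  obtain ⟨rbar, hrbar, hρbar⟩ := exists_ofMatrixRes_isEquiv ρbar
  obtain ⟨r, hr, hlift, hequiv⟩ :=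
    exists_isStrictLift_of_residual_isEquiv ρbar hrbar hρbar ρR hres
  refine resIsEquiv_trans
    (adicIsEquiv_residual (adicIsEquiv_baseChangeAlong (φ : R →+* A) hφ hequiv)) ?_
  refine resIsEquiv_trans
    (adicIsEquiv_residual (MatrixModel.baseChangeAlong_ofMatrix (φ : R →+* A) hφ r hr)) ?_
  exact residual_isEquiv_of_isStrictLift ρbar hrbar hρbar _ (isStrictLift_mapMat_alg φ hφ hlift)

end BaseChange

section Comp

variable {A : Type} [CommRing A] [IsLocalRing A] {B : Type} [CommRing B] [IsLocalRing B]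
  {C : Type} [CommRing C] [IsLocalRing C]

/-- Transitivity of base change, up to equivalence. -/
theorem baseChangeAlong_comp_isEquiv (ρ : GaloisRepAdic A) (f : A →+* B) (hf : IsLocalHom f)
    (g : B →+* C) (hg : IsLocalHom g) (hgf : IsLocalHom (g.comp f)) :
    ((ρ.baseChangeAlong f hf).baseChangeAlong g hg).IsEquiv
      (ρ.baseChangeAlong (g.comp f) hgf) := by
  obtain ⟨r, hr, h⟩ := MatrixModel.exists_isEquiv_ofMatrix ρ
  have L1 := adicIsEquiv_baseChangeAlong g hg (adicIsEquiv_baseChangeAlong f hf h)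
  have L2 := adicIsEquiv_baseChangeAlong g hg (MatrixModel.baseChangeAlong_ofMatrix f hf r hr)
  have L3 := MatrixModel.baseChangeAlong_ofMatrix g hg (mapMat f r)
    (MatrixModel.matCont_mapMat hr f hf)
  have L4 : (ofMatrix (mapMat g (mapMat f r)) (MatrixModel.matCont_mapMat
      (MatrixModel.matCont_mapMat hr f hf) g hg)).IsEquiv
      (ofMatrix (mapMat (g.comp f) r) (MatrixModel.matCont_mapMat hr (g.comp f) hgf)) :=
    MatrixModel.ofMatrix_isEquiv_of_eq _ _ (mapMat_mapMat f g r)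
  have L5 := adicIsEquiv_baseChangeAlong (g.comp f) hgf h
  have L6 := MatrixModel.baseChangeAlong_ofMatrix (g.comp f) hgf r hr
  exact adicIsEquiv_trans L1 (adicIsEquiv_trans L2 (adicIsEquiv_trans L3 (adicIsEquiv_trans L4
    (adicIsEquiv_symm (adicIsEquiv_trans L5 L6)))))

end Comp

section TypeBC

variable {𝒪 : Type} [CommRing 𝒪] [IsLocalRing 𝒪] [Finite (ResidueField 𝒪)]
  {𝒟 : ∀ ⦃A : Type⦄ [CommRing A] [IsLocalRing A] [Algebra 𝒪 A], GaloisRepAdic A → Prop}
  {R : Type} [CommRing R] [IsLocalRing R] [IsNoetherianRing R]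
  [IsAdicComplete (maximalIdeal R) R] [Algebra 𝒪 R]
  {B : Type} [CommRing B] [IsLocalRing B] [Algebra 𝒪 B]

/-- **(E)** A deformation condition is stable under base change along ANY local `𝒪`-algebra
homomorphism from a complete Noetherian local `𝒪`-algebra to an Artinian test algebra
(not necessarily surjective). -/
theorem type_baseChangeAlong (h𝒟 : IsDeformationCondition 𝒪 𝒟)
    (hloc : IsLocalHom (algebraMap 𝒪 R))
    (hsurj : Function.Surjective (residue R ∘ algebraMap 𝒪 R))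
    (hB : IsArtinianTestAlgebra 𝒪 B) {ρ : GaloisRepAdic R} (hρ : 𝒟 ρ)
    (φ : R →ₐ[𝒪] B) (hφ : IsLocalHom (φ : R →+* B)) :
    𝒟 (ρ.baseChangeAlong (φ : R →+* B) hφ) := by
  haveI := isLocalRing_subalgebra hB φ.range
  have hEt : IsArtinianTestAlgebra 𝒪 φ.range := test_subalgebra hB φ.range
  have hval : IsLocalHom ((φ.range.val : φ.range →ₐ[𝒪] B) : φ.range →+* B) :=
    isLocalHom_of_test hEt φ.range.val
  have hq : IsLocalHom ((φ.rangeRestrict : R →ₐ[𝒪] φ.range) : R →+* φ.range) := by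
    refine ⟨fun x hx => ?_⟩
    have h1 : IsUnit ((φ.range.val : φ.range →+* B) (φ.rangeRestrict x)) := hx.map _
    exact hφ.map_nonunit x h1
  have h1 : 𝒟 (ρ.baseChangeAlong ((φ.rangeRestrict : R →ₐ[𝒪] φ.range) : R →+* φ.range) hq) :=
    (h𝒟.iff_forall_surjective hloc hsurj ρ).mp hρ hEt φ.rangeRestrict hq
      φ.rangeRestrict_surjective
  have h2 := h𝒟.baseChangeAlong hEt hB φ.range.val hval h1
  have hcomp : ((φ.range.val : φ.range →ₐ[𝒪] B) : φ.range →+* B).comp
      ((φ.rangeRestrict : R →ₐ[𝒪] φ.range) : R →+* φ.range) = (φ : R →+* B) := by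
    ext x
    rfl
  have hφ' : IsLocalHom (((φ.range.val : φ.range →ₐ[𝒪] B) : φ.range →+* B).comp
      ((φ.rangeRestrict : R →ₐ[𝒪] φ.range) : R →+* φ.range)) := by
    rw [hcomp]; exact hφ
  have h3 := h𝒟.of_isEquiv hB (baseChangeAlong_comp_isEquiv ρ _ hq _ hval hφ') h2
  have key : ∀ (ψ : R →+* B) (hψ : IsLocalHom ψ), ψ = (φ : R →+* B) →
      𝒟 (ρ.baseChangeAlong ψ hψ) → 𝒟 (ρ.baseChangeAlong (φ : R →+* B) hφ) := by
    intro ψ hψ e h
    subst e
    exact h
  exact key _ hφ' hcomp h3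

end TypeBC

/-! ### The universal deformation ring and `k[ε]` -/

section Universal

variable {𝒪 : Type} [CommRing 𝒪] [IsDomain 𝒪] [IsDiscreteValuationRing 𝒪]
  [IsAdicComplete (maximalIdeal 𝒪) 𝒪]
  [alg : Algebra 𝒪 (DualNumber (ResidueField 𝒪))]
  [IsLocalHom (algebraMap 𝒪 (DualNumber (ResidueField 𝒪)))]
  {ρbar : ResidualGaloisRep (ResidueField 𝒪)}
  {𝒟 : ∀ ⦃A : Type⦄ [CommRing A] [IsLocalRing A] [Algebra 𝒪 A], GaloisRepAdic A → Prop}

omit [IsLocalHom (algebraMap 𝒪 (DualNumber (ResidueField 𝒪)))] in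
/-- Every `φ : DQ.R →ₐ[𝒪] k[ε]` is a local homomorphism. -/
theorem isLocalHom_algHom_universal
    (halg : ∀ c : 𝒪, algebraMap 𝒪 (DualNumber (ResidueField 𝒪)) c =
      TrivSqZeroExt.inl (residue 𝒪 c))
    (DQ : DeformationRingData 𝒪 ρbar 𝒟) (φ : DQ.R →ₐ[𝒪] DualNumber (ResidueField 𝒪)) :
    IsLocalHom (φ : DQ.R →+* DualNumber (ResidueField 𝒪)) :=
  isLocalHom_algHom halg φ

/-- The base change of the universal deformation along `φ : DQ.R → k[ε]` is a deformation of
`ρbar`. -/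
theorem residual_baseChangeAlong_universal (DQ : DeformationRingData 𝒪 ρbar 𝒟)
    (φ : DQ.R →ₐ[𝒪] DualNumber (ResidueField 𝒪))
    (hφ : IsLocalHom (φ : DQ.R →+* DualNumber (ResidueField 𝒪))) :
    (DQ.ρ.baseChangeAlong (φ : DQ.R →+* DualNumber (ResidueField 𝒪)) hφ).residual.IsEquiv
      (ρbar.baseChangeAlong
        (ResidueField.map (algebraMap 𝒪 (DualNumber (ResidueField 𝒪))))) :=
  residual_baseChangeAlong_isEquiv ρbar DQ.ρ DQ.residual_isEquiv φ hφ

omit [IsLocalHom (algebraMap 𝒪 (DualNumber (ResidueField 𝒪)))] in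
/-- The base change of the universal deformation along `φ : DQ.R → k[ε]` is of type `𝒟`. -/
theorem type_baseChangeAlong_universal [Finite (ResidueField 𝒪)]
    (h𝒟 : IsDeformationCondition 𝒪 𝒟)
    (halg : ∀ c : 𝒪, algebraMap 𝒪 (DualNumber (ResidueField 𝒪)) c =
      TrivSqZeroExt.inl (residue 𝒪 c))
    (DQ : DeformationRingData 𝒪 ρbar 𝒟)
    (φ : DQ.R →ₐ[𝒪] DualNumber (ResidueField 𝒪))
    (hφ : IsLocalHom (φ : DQ.R →+* DualNumber (ResidueField 𝒪))) :
    𝒟 (DQ.ρ.baseChangeAlong (φ : DQ.R →+* DualNumber (ResidueField 𝒪)) hφ) :=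
  type_baseChangeAlong h𝒟 DQ.instIsLocalHom DQ.residue_surjective
    (isArtinianTestAlgebra_dualNumber halg) DQ.isOfType φ hφ

/-- Every `φ : DQ.R →ₐ[𝒪] k[ε]` gives a dual lift of `rbar = matrixOfBasisRes ρbar b`: the base
change of the universal deformation along `φ`, written in a suitable basis; it is of type `𝒟`. -/
theorem exists_dualLift_of_algHom [Finite (ResidueField 𝒪)]
    (h𝒟 : IsDeformationCondition 𝒪 𝒟)
    (halg : ∀ c : 𝒪, algebraMap 𝒪 (DualNumber (ResidueField 𝒪)) c =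
      TrivSqZeroExt.inl (residue 𝒪 c))
    (DQ : DeformationRingData 𝒪 ρbar 𝒟)
    (b : Module.Basis (Fin 2) (ResidueField 𝒪) ρbar.V)
    (φ : DQ.R →ₐ[𝒪] DualNumber (ResidueField 𝒪))
    (hφ : IsLocalHom (φ : DQ.R →+* DualNumber (ResidueField 𝒪))) :
    ∃ (r : GQ →* M2 (DualNumber (ResidueField 𝒪))) (hr : MatCont r),
      (∀ σ, (r σ).map TrivSqZeroExt.fst = matrixOfBasisRes ρbar b σ) ∧
        (DQ.ρ.baseChangeAlong (φ : DQ.R →+* DualNumber (ResidueField 𝒪)) hφ).IsEquiv
          (ofMatrix r hr) ∧ 𝒟 (ofMatrix r hr) := by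
  obtain ⟨r, hr, hfst, hequiv⟩ := exists_dualLift_of_residual_isEquiv ρbar b halg _
    (residual_baseChangeAlong_universal DQ φ hφ)
  exact ⟨r, hr, hfst, hequiv, h𝒟.of_isEquiv (isArtinianTestAlgebra_dualNumber halg) hequiv
    (type_baseChangeAlong_universal h𝒟 halg DQ φ hφ)⟩

/-- Two `𝒪`-algebra homomorphisms `DQ.R → k[ε]` inducing equivalent deformations are equal. -/
theorem algHom_eq_of_isEquiv [Finite (ResidueField 𝒪)]
    (h𝒟 : IsDeformationCondition 𝒪 𝒟)
    (halg : ∀ c : 𝒪, algebraMap 𝒪 (DualNumber (ResidueField 𝒪)) c =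
      TrivSqZeroExt.inl (residue 𝒪 c))
    (DQ : DeformationRingData 𝒪 ρbar 𝒟)
    (φ φ' : DQ.R →ₐ[𝒪] DualNumber (ResidueField 𝒪))
    (hφ : IsLocalHom (φ : DQ.R →+* DualNumber (ResidueField 𝒪)))
    (hφ' : IsLocalHom (φ' : DQ.R →+* DualNumber (ResidueField 𝒪)))
    (h : (DQ.ρ.baseChangeAlong (φ : DQ.R →+* DualNumber (ResidueField 𝒪)) hφ).IsEquiv
      (DQ.ρ.baseChangeAlong (φ' : DQ.R →+* DualNumber (ResidueField 𝒪)) hφ')) :
    φ = φ' := by
  haveI := isAdicComplete_dualNumber (k := ResidueField 𝒪)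
  obtain ⟨φ₀, -, huniq⟩ := DQ.universal (DualNumber (ResidueField 𝒪))
    (residue_comp_algebraMap_surjective halg)
    (DQ.ρ.baseChangeAlong (φ' : DQ.R →+* DualNumber (ResidueField 𝒪)) hφ')
    (type_baseChangeAlong_universal h𝒟 halg DQ φ' hφ')
    (residual_baseChangeAlong_universal DQ φ' hφ')
  rw [huniq φ ⟨hφ, h⟩, huniq φ' ⟨hφ', adicIsEquiv_refl _⟩]

/-- Injectivity through matrix models: if the base changes of the universal deformation along
`φ`, `φ'` are equivalent to `ofMatrix r`, `ofMatrix r'` and these two are equivalent, then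
`φ = φ'`. -/
theorem algHom_eq_of_ofMatrix_isEquiv [Finite (ResidueField 𝒪)]
    (h𝒟 : IsDeformationCondition 𝒪 𝒟)
    (halg : ∀ c : 𝒪, algebraMap 𝒪 (DualNumber (ResidueField 𝒪)) c =
      TrivSqZeroExt.inl (residue 𝒪 c))
    (DQ : DeformationRingData 𝒪 ρbar 𝒟)
    (φ φ' : DQ.R →ₐ[𝒪] DualNumber (ResidueField 𝒪))
    (hφ : IsLocalHom (φ : DQ.R →+* DualNumber (ResidueField 𝒪)))
    (hφ' : IsLocalHom (φ' : DQ.R →+* DualNumber (ResidueField 𝒪)))
    {r r' : GQ →* M2 (DualNumber (ResidueField 𝒪))} (hr : MatCont r) (hr' : MatCont r')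
    (h1 : (DQ.ρ.baseChangeAlong (φ : DQ.R →+* DualNumber (ResidueField 𝒪)) hφ).IsEquiv
      (ofMatrix r hr))
    (h2 : (DQ.ρ.baseChangeAlong (φ' : DQ.R →+* DualNumber (ResidueField 𝒪)) hφ').IsEquiv
      (ofMatrix r' hr'))
    (h : (ofMatrix r hr).IsEquiv (ofMatrix r' hr')) : φ = φ' :=
  algHom_eq_of_isEquiv h𝒟 halg DQ φ φ' hφ hφ'
    (adicIsEquiv_trans h1 (adicIsEquiv_trans h (adicIsEquiv_symm h2)))

/-- Every dual lift of `rbar` of type `𝒟` comes from a (unique) `φ : DQ.R →ₐ[𝒪] k[ε]`. -/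
theorem exists_algHom_of_dualLift
    (halg : ∀ c : 𝒪, algebraMap 𝒪 (DualNumber (ResidueField 𝒪)) c =
      TrivSqZeroExt.inl (residue 𝒪 c))
    (DQ : DeformationRingData 𝒪 ρbar 𝒟)
    (b : Module.Basis (Fin 2) (ResidueField 𝒪) ρbar.V)
    {r : GQ →* M2 (DualNumber (ResidueField 𝒪))} (hr : MatCont r)
    (hfst : ∀ σ, (r σ).map TrivSqZeroExt.fst = matrixOfBasisRes ρbar b σ)
    (htype : 𝒟 (ofMatrix r hr)) :
    ∃ (φ : DQ.R →ₐ[𝒪] DualNumber (ResidueField 𝒪))
      (hφ : IsLocalHom (φ : DQ.R →+* DualNumber (ResidueField 𝒪))),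
      (DQ.ρ.baseChangeAlong (φ : DQ.R →+* DualNumber (ResidueField 𝒪)) hφ).IsEquiv
        (ofMatrix r hr) := by
  haveI := isAdicComplete_dualNumber (k := ResidueField 𝒪)
  obtain ⟨φ, ⟨hφ, h⟩, -⟩ := DQ.universal (DualNumber (ResidueField 𝒪))
    (residue_comp_algebraMap_surjective halg) (ofMatrix r hr) htype
    (residual_isEquiv_of_dualLift ρbar b halg hr hfst)
  exact ⟨φ, hφ, h⟩

end Universal

end Fermat.Agent.TW.DEF.DualLift8
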