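/-
Programme T (S56, Taylor–Wiles primes), chapter DEF (helper8): GLUE between the `S53` matrix model
(`MatCont`, `ofMatrix`), helper1's `LiftCocycle1`/`LevelKer1` and `DualLift8`.

* `ofMatrix_ρ_eq_one_iff`, `ofMatrix_isUnramifiedAt_iff`, `det_ofMatrix_ρ` (any local ring `A`);
* `matCont_dual_iff` : over `k[ε]`, `MatCont r ↔` `r` is trivial on `Gal(ℚ̄/F)` for a finite `F/ℚ`;
* `exists_levelS_forall_eq_one_of_unramified` : `MatCont r` + `ofMatrix r hr` unramified outside `S`
  ⇒ `r` is trivial on a normal member of `levelS S` (the `hlev` of `LiftCocycle1.liftClass`);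
* `onePlusEpsUnit`, `conjEps_eq_conjHom`, `matCont_conjEps`, `ofMatrix_isEquiv_conjEps` :
  `ofMatrix r ≅ ofMatrix (conjEps X r)`;
* `exists_cyclotomic_exponent` : every `σ` acts on `μ_N(ℚ̄)` through a power `a`;
* `snd_det_eq_zero_of_detIsCyclotomic`, `snd_det_eq_zero_of_ofMatrix_detIsCyclotomic` : cyclotomic
  determinant over `k[ε]` ⇒ `(det (r σ)).snd = 0` (the `hdet` of `LiftCocycle1.trace_liftCocycle`).
-/
import Mathlib
import Fermat.Agent.TW.DEF.LiftCocycle1
import Fermat.Agent.TW.DEF.LevelKer1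
import Fermat.Agent.TW.DEF.DualLift8
import Fermat.Prelude.Def_GaloisRep_LocalConditions

set_option autoImplicit false
set_option linter.style.haveILetI false

open IsLocalRing
open Fermat.Agent.PT.PRO.LevelCoh28 Fermat.Agent.PT.GLUE.Objects21

namespace Fermat.Agent.TW.DEF.DualLiftLevel8

open Fermat.Agent.S53 Fermat.Agent.TW.DEF.LiftCocycle1 Fermat.Agent.TW.DEF.DualLift8

section General

variable {A : Type} [CommRing A] [IsLocalRing A]

/-- The matrix of `(ofMatrix r hr).ρ σ` is `r σ`: in particular `ρ σ = 1` iff `r σ = 1`. -/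
theorem ofMatrix_ρ_eq_one_iff (r : GQ →* M2 A) (hr : MatCont r) (σ : GQ) :
    (ofMatrix r hr).ρ σ = 1 ↔ r σ = 1 := by
  have h : (ofMatrix r hr).ρ σ = (Matrix.toLinAlgEquiv' (R := A) (n := Fin 2)) (r σ) := rfl
  rw [h]
  constructor
  · intro h1
    have := (Matrix.toLinAlgEquiv' (R := A) (n := Fin 2)).injective
      (h1.trans (map_one (Matrix.toLinAlgEquiv' (R := A) (n := Fin 2))).symm)
    exact this
  · intro h1
    rw [h1]
    exact map_one _

/-- Unramifiedness of a matrix model. -/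
theorem ofMatrix_isUnramifiedAt_iff (r : GQ →* M2 A) (hr : MatCont r) (q : ℕ) :
    (ofMatrix r hr).IsUnramifiedAt q ↔
      ∀ P : ValuationSubring (AlgebraicClosure ℚ), P.LiesOverPrime q →
        ∀ σ ∈ P.inertiaSubgroupIn ℚ, r σ = 1 := by
  unfold GaloisRepAdic.IsUnramifiedAt
  constructor
  · intro h P hP σ hσ
    exact (ofMatrix_ρ_eq_one_iff r hr σ).mp (h P hP σ hσ)
  · intro h P hP σ hσ
    exact (ofMatrix_ρ_eq_one_iff r hr σ).mpr (h P hP σ hσ)

/-- The determinant of a matrix model. -/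
theorem det_ofMatrix_ρ (r : GQ →* M2 A) (hr : MatCont r) (σ : GQ) :
    LinearMap.det ((ofMatrix r hr).ρ σ) = (r σ).det := by
  exact LinearMap.det_toLin' (r σ)

end General

section Level

variable {k : Type} [Field k]

/-- Over the dual numbers, adic continuity means: trivial on the absolute Galois group of a finite
extension of `ℚ`. -/
theorem matCont_dual_iff (r : GQ →* M2 (DualNumber k)) :
    MatCont r ↔ ∃ F : IntermediateField ℚ (AlgebraicClosure ℚ), FiniteDimensional ℚ F ∧
      ∀ s ∈ F.fixingSubgroup, r s = 1 := by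
  constructor
  · intro h
    obtain ⟨F, hF, h1⟩ := h 2
    refine ⟨F, hF, fun s hs => ?_⟩
    have hs' : ∀ x ∈ F, s x = x := fun x hx => (IntermediateField.mem_fixingSubgroup_iff F s).mp hs x hx
    ext i j : 1
    have h2 := h1 s hs' i j
    rw [maximalIdeal_sq_eq_bot, Ideal.mem_bot, Matrix.sub_apply, sub_eq_zero] at h2
    exact h2
  · rintro ⟨F, hF, h1⟩ n
    refine ⟨F, hF, fun σ hσ i j => ?_⟩
    have hs : σ ∈ F.fixingSubgroup := (IntermediateField.mem_fixingSubgroup_iff F σ).mpr hσ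
    rw [h1 σ hs, sub_self]
    exact Ideal.zero_mem _

/-- A continuous matrix representation over `k[ε]` which is unramified outside `S` is trivial on a
normal member of `levelS S`. -/
theorem exists_levelS_forall_eq_one_of_unramified (S : Finset Nat.Primes)
    {r : GQ →* M2 (DualNumber k)} (hr : MatCont r)
    (hur : ∀ q : Nat.Primes, q ∉ S → (ofMatrix r hr).IsUnramifiedAt (q : ℕ)) :
    ∃ U ∈ (levelS S).sets, U.Normal ∧ ∀ s ∈ U, r s = 1 :=
  LevelKer1.exists_levelS_forall_eq_one r S ((matCont_dual_iff r).mp hr) fun q hq P hP g hg =>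
    (ofMatrix_isUnramifiedAt_iff r hr (q : ℕ)).mp (hur q hq) P hP g hg

/-! ### Conjugation by `1 + ε X` -/

/-- `1 + ε X` as a unit. -/
def onePlusEpsUnit (X : M2 k) : (M2 (DualNumber k))ˣ :=
  ⟨onePlusEps X, onePlusEps (-X), onePlusEps_mul_neg X, onePlusEps_neg_mul X⟩

theorem conjEps_eq_conjHom (X : M2 k) (r : GQ →* M2 (DualNumber k)) :
    conjEps X r = conjHom (onePlusEpsUnit X) r := by
  ext σ : 1
  rw [conjEps_apply, conjHom_apply]
  rfl

theorem matCont_conjEps (X : M2 k) {r : GQ →* M2 (DualNumber k)} (hr : MatCont r) :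
    MatCont (conjEps X r) := by
  rw [conjEps_eq_conjHom]
  exact matCont_conjHom _ hr

/-- Conjugate lifts give equivalent representations. -/
theorem ofMatrix_isEquiv_conjEps (X : M2 k) {r : GQ →* M2 (DualNumber k)} (hr : MatCont r) :
    (ofMatrix r hr).IsEquiv (ofMatrix (conjEps X r) (matCont_conjEps X hr)) :=
  adicIsEquiv_trans (ofMatrix_isEquiv_conjHom (onePlusEpsUnit X) hr)
    (MatrixModel.ofMatrix_isEquiv_of_eq _ _ (conjEps_eq_conjHom X r).symm)

end Level

section Cyclo

/-- The cyclotomic exponent: every `σ` acts on the `N`-th roots of unity by some power `a`. -/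
theorem exists_cyclotomic_exponent (N : ℕ) [NeZero N] (σ : S53.GQ) :
    ∃ a : ℕ, ∀ μ : AlgebraicClosure ℚ, μ ^ N = 1 → σ μ = μ ^ a := by
  obtain ⟨ζ, hζ⟩ := HasEnoughRootsOfUnity.exists_primitiveRoot (AlgebraicClosure ℚ) N
  have h1 : (σ ζ) ^ N = 1 := by rw [← map_pow, hζ.pow_eq_one, map_one]
  obtain ⟨a, -, ha⟩ := hζ.eq_pow_of_pow_eq_one h1
  refine ⟨a, fun μ hμ => ?_⟩
  obtain ⟨j, -, rfl⟩ := hζ.eq_pow_of_pow_eq_one hμ
  rw [map_pow, ← ha, ← pow_mul, ← pow_mul, mul_comm]

variable {k : Type} [Field k]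

/-- A representation over `k[ε]` with cyclotomic determinant has determinant without `ε`-part. -/
theorem snd_det_eq_zero_of_detIsCyclotomic {p : ℕ} (hp : p ≠ 0)
    (ρ : GaloisRepAdic (DualNumber k)) (h : ρ.DetIsCyclotomic p) (σ : S53.GQ) :
    (LinearMap.det (ρ.ρ σ)).snd = 0 := by
  haveI : NeZero p := ⟨hp⟩
  have hp0 : ((p : ℕ) : DualNumber k) = 0 := by
    have h1 := (mem_maximalIdeal_iff _).mp h.1
    ext
    · exact h1
    · simp
  obtain ⟨a, ha⟩ := exists_cyclotomic_exponent p σ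
  have h2 := h.2 1 σ a (fun μ hμ => ha μ (by rwa [pow_one] at hμ))
  rw [pow_one, hp0, Ideal.span_singleton_zero, Ideal.mem_bot, sub_eq_zero] at h2
  rw [h2]
  simp

end Cyclo

section CycloMatrix

variable {k : Type} [Field k]

/-- Matrix form: if `ofMatrix r hr` has cyclotomic determinant, then `det (r σ)` has no
`ε`-part. -/
theorem snd_det_eq_zero_of_ofMatrix_detIsCyclotomic {p : ℕ} (hp : p ≠ 0)
    {r : GQ →* M2 (DualNumber k)} (hr : MatCont r) (h : (ofMatrix r hr).DetIsCyclotomic p)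
    (σ : GQ) : ((r σ).det).snd = 0 := by
  rw [← det_ofMatrix_ρ r hr σ]
  exact snd_det_eq_zero_of_detIsCyclotomic hp _ h σ

end CycloMatrix

end Fermat.Agent.TW.DEF.DualLiftLevel8
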