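/-
Programme T (Taylor–Wiles primes, S56), chapter DEF, brick T2a (helper8).

**Power-series surjections onto complete local algebras.**

Let `𝒪` be a local ring which is complete for its maximal ideal, and let `R` be a Noetherian local
`𝒪`-algebra, complete for its maximal ideal, such that `𝒪 → R` is local and `𝒪 → R ⧸ m_R` is
surjective.  For a family `x : Fin r → R` of elements of `m_R`:

* `gamma x hx : MvPowerSeries (Fin r) 𝒪 →ₐ[𝒪] R` is the `𝒪`-algebra homomorphism with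
  `gamma x hx (X i) = x i` (`gamma_X`); it is the limit of the truncated evaluations
  `S53.evalNilp` into the quotients `R ⧸ m_R ^ n` (`mk_gamma`);
* `gamma_surjective`: if `m_R ≤ (x₁, …, x_r) + m_𝒪 R` then `gamma x hx` is surjective;
* `gamma_surjective_of_le_sq`: the same under the weaker (Nakayama) hypothesis
  `m_R ≤ (x₁, …, x_r) + m_𝒪 R + m_R ^ 2`;
* `exists_surjective_of_generators`: the existential form used for the last clause of S56.

No completeness of the power series ring for its maximal ideal is needed: surjectivity is obtained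
from two applications of Mathlib's `surjective_of_mk_map_comp_surjective`, first for
`𝒪 → R ⧸ (x)` with the ideal `m_𝒪`, then for `𝒪⟦X⟧ → R` with the ideal of variables.
-/
import Mathlib
import Fermat.Agent.S53.EvalNilp

set_option autoImplicit false
set_option linter.style.haveILetI false

namespace Fermat.Agent.TW.DEF.PowerSeriesSurj8

open IsLocalRing MvPowerSeries

noncomputable section

section Construction

variable {𝒪 : Type*} [CommRing 𝒪] {R : Type*} [CommRing R] [IsLocalRing R] [Algebra 𝒪 R]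
  {r : ℕ} (x : Fin r → R)

/-- In `R ⧸ m ^ n` the ideal generated by classes of elements of `m` has vanishing `n`-th
power. -/
theorem span_range_mk_pow_eq_bot (hx : ∀ i, x i ∈ maximalIdeal R) (n : ℕ) :
    Ideal.span (Set.range fun i => Ideal.Quotient.mk (maximalIdeal R ^ n) (x i)) ^ n = ⊥ := by
  have h1 : Ideal.span (Set.range fun i => Ideal.Quotient.mk (maximalIdeal R ^ n) (x i)) ≤
      Ideal.map (Ideal.Quotient.mk (maximalIdeal R ^ n)) (maximalIdeal R) := by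
    rw [Ideal.span_le]
    rintro _ ⟨i, rfl⟩
    exact Ideal.mem_map_of_mem _ (hx i)
  rw [eq_bot_iff]
  calc Ideal.span (Set.range fun i => Ideal.Quotient.mk (maximalIdeal R ^ n) (x i)) ^ n
      ≤ (Ideal.map (Ideal.Quotient.mk (maximalIdeal R ^ n)) (maximalIdeal R)) ^ n :=
        Ideal.pow_right_mono h1 n
    _ = Ideal.map (Ideal.Quotient.mk (maximalIdeal R ^ n)) (maximalIdeal R ^ n) :=
        (Ideal.map_pow _ _ _).symm
    _ = ⊥ := Ideal.map_quotient_self _

/-- The truncated evaluation `𝒪⟦X⟧ → R ⧸ m_R ^ n`, `X i ↦ x i`. -/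
def gammaLevel (hx : ∀ i, x i ∈ maximalIdeal R) (n : ℕ) :
    MvPowerSeries (Fin r) 𝒪 →ₐ[𝒪] R ⧸ maximalIdeal R ^ n :=
  Fermat.Agent.S53.evalNilp (𝒪 := 𝒪) (fun i => Ideal.Quotient.mk (maximalIdeal R ^ n) (x i)) n
    (span_range_mk_pow_eq_bot x hx n)

@[simp]
theorem gammaLevel_X (hx : ∀ i, x i ∈ maximalIdeal R) (n : ℕ) (i : Fin r) :
    gammaLevel (𝒪 := 𝒪) x hx n (X i) = Ideal.Quotient.mk (maximalIdeal R ^ n) (x i) :=
  Fermat.Agent.S53.evalNilp_X _ n _ i

theorem gammaLevel_compat (hx : ∀ i, x i ∈ maximalIdeal R) {m n : ℕ} (hle : m ≤ n) :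
    (Ideal.Quotient.factorₐ 𝒪 (Ideal.pow_le_pow_right hle)).comp (gammaLevel (𝒪 := 𝒪) x hx n) =
      gammaLevel x hx m := by
  apply Fermat.Agent.S53.eq_evalNilp
  intro i
  rw [AlgHom.comp_apply, gammaLevel_X]
  rfl

variable [IsAdicComplete (maximalIdeal R) R]

/-- The `𝒪`-algebra homomorphism `𝒪⟦X₁, …, X_r⟧ → R` with `X i ↦ x i ∈ m_R`. -/
def gamma (hx : ∀ i, x i ∈ maximalIdeal R) : MvPowerSeries (Fin r) 𝒪 →ₐ[𝒪] R :=
  IsAdicComplete.liftAlgHom (maximalIdeal R) (gammaLevel (𝒪 := 𝒪) x hx)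
    (fun hle => gammaLevel_compat x hx hle)

theorem mk_gamma (hx : ∀ i, x i ∈ maximalIdeal R) (n : ℕ) (f : MvPowerSeries (Fin r) 𝒪) :
    Ideal.Quotient.mk (maximalIdeal R ^ n) (gamma x hx f) = gammaLevel x hx n f :=
  IsAdicComplete.mk_liftAlgHom (maximalIdeal R) (gammaLevel (𝒪 := 𝒪) x hx)
    (fun hle => gammaLevel_compat x hx hle) n f

@[simp]
theorem gamma_X (hx : ∀ i, x i ∈ maximalIdeal R) (i : Fin r) :
    gamma (𝒪 := 𝒪) x hx (X i) = x i := by
  have h := IsHausdorff.funext' (R := Unit) (maximalIdeal R)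
    (f := fun _ => gamma (𝒪 := 𝒪) x hx (X i)) (g := fun _ => x i)
    (fun n _ => by rw [mk_gamma, gammaLevel_X])
  exact congrFun h ()

theorem map_varIdeal_gamma (hx : ∀ i, x i ∈ maximalIdeal R) :
    Ideal.map (gamma (𝒪 := 𝒪) x hx)
      (Ideal.span (Set.range (X : Fin r → MvPowerSeries (Fin r) 𝒪))) =
      Ideal.span (Set.range x) := by
  rw [Ideal.map_span, ← Set.range_comp]
  congr 2
  ext i
  simp

end Construction

section Surjective

variable {𝒪 : Type*} [CommRing 𝒪] [IsLocalRing 𝒪] [IsAdicComplete (maximalIdeal 𝒪) 𝒪]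
  {R : Type*} [CommRing R] [IsLocalRing R] [IsNoetherianRing R] [Algebra 𝒪 R]

/-- If `m_R ≤ 𝔞 + m_𝒪 R` for a proper ideal `𝔞` then `𝒪 → R ⧸ 𝔞` is surjective. -/
theorem algebraMap_quotient_surjective
    (hres : Function.Surjective (IsLocalRing.residue R ∘ algebraMap 𝒪 R))
    (𝔞 : Ideal R) (h𝔞 : 𝔞 ≠ ⊤)
    (hgen : maximalIdeal R ≤ 𝔞 ⊔ (maximalIdeal 𝒪).map (algebraMap 𝒪 R)) :
    Function.Surjective (algebraMap 𝒪 (R ⧸ 𝔞)) := by
  haveI : Nontrivial (R ⧸ 𝔞) := Ideal.Quotient.nontrivial_iff.mpr h𝔞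
  haveI : IsLocalRing (R ⧸ 𝔞) :=
    IsLocalRing.of_surjective' (Ideal.Quotient.mk 𝔞) Ideal.Quotient.mk_surjective
  have hmapeq : (maximalIdeal 𝒪).map (algebraMap 𝒪 (R ⧸ 𝔞)) =
      ((maximalIdeal 𝒪).map (algebraMap 𝒪 R)).map (Ideal.Quotient.mk 𝔞) := by
    rw [Ideal.map_map]; rfl
  -- `m_𝒪 R ≤ m_R`: the kernel of the surjection `𝒪 → R ⧸ m_R` is the maximal ideal of `𝒪`
  have hle : (maximalIdeal 𝒪).map (algebraMap 𝒪 R) ≤ maximalIdeal R := by
    rw [Ideal.map_le_iff_le_comap]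
    intro c hc
    have hsurj : Function.Surjective ((IsLocalRing.residue R).comp (algebraMap 𝒪 R)) := hres
    have hmax : (RingHom.ker ((IsLocalRing.residue R).comp (algebraMap 𝒪 R))).IsMaximal :=
      RingHom.ker_isMaximal_of_surjective _ hsurj
    have hc' : c ∈ RingHom.ker ((IsLocalRing.residue R).comp (algebraMap 𝒪 R)) := by
      rw [IsLocalRing.eq_maximalIdeal hmax]; exact hc
    rw [Ideal.mem_comap, ← IsLocalRing.residue_eq_zero_iff]
    simpa [RingHom.mem_ker] using hc'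
  -- the image of `m_𝒪` in `R ⧸ 𝔞` is a proper ideal
  have hne : (maximalIdeal 𝒪).map (algebraMap 𝒪 (R ⧸ 𝔞)) ≠ ⊤ := by
    intro htop
    have h1 : (1 : R ⧸ 𝔞) ∈ ((maximalIdeal 𝒪).map (algebraMap 𝒪 R)).map (Ideal.Quotient.mk 𝔞) := by
      rw [← hmapeq, htop]; trivial
    obtain ⟨y, hy, hy1⟩ := (Ideal.mem_map_iff_of_surjective _ Ideal.Quotient.mk_surjective).mp h1
    have h2 : y - 1 ∈ 𝔞 := by
      rw [← Ideal.Quotient.eq, hy1, map_one]
    have h3 : (1 : R) ∈ maximalIdeal R := by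
      have := (maximalIdeal R).sub_mem (hle hy) (le_maximalIdeal h𝔞 h2)
      rwa [sub_sub_cancel] at this
    exact (maximalIdeal.isMaximal R).ne_top ((Ideal.eq_top_iff_one _).mpr h3)
  haveI : IsHausdorff ((maximalIdeal 𝒪).map (algebraMap 𝒪 (R ⧸ 𝔞))) (R ⧸ 𝔞) :=
    IsHausdorff.of_isLocalRing _ _ hne
  apply surjective_of_mk_map_comp_surjective (I := maximalIdeal 𝒪) (algebraMap 𝒪 (R ⧸ 𝔞))
  intro z
  obtain ⟨w, rfl⟩ := Ideal.Quotient.mk_surjective z
  obtain ⟨y, rfl⟩ := Ideal.Quotient.mk_surjective w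
  obtain ⟨c, hc⟩ := hres (IsLocalRing.residue R y)
  refine ⟨c, ?_⟩
  rw [RingHom.comp_apply, Ideal.Quotient.eq, hmapeq]
  have h1 : algebraMap 𝒪 R c - y ∈ maximalIdeal R := by
    rw [← IsLocalRing.residue_eq_zero_iff, map_sub, sub_eq_zero]
    exact hc
  have h2 := hgen h1
  have h3 : Ideal.Quotient.mk 𝔞 (algebraMap 𝒪 R c - y) ∈
      (𝔞 ⊔ (maximalIdeal 𝒪).map (algebraMap 𝒪 R)).map (Ideal.Quotient.mk 𝔞) :=
    Ideal.mem_map_of_mem _ h2
  rw [Ideal.map_sup, Ideal.map_quotient_self, bot_sup_eq] at h3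
  rw [map_sub] at h3
  exact h3

variable [IsAdicComplete (maximalIdeal R) R] {r : ℕ} (x : Fin r → R)

/-- **T2a.** If `x₁, …, x_r ∈ m_R` generate `m_R` modulo `m_𝒪 R`, the evaluation
`𝒪⟦X₁, …, X_r⟧ → R` is surjective. -/
theorem gamma_surjective (hx : ∀ i, x i ∈ maximalIdeal R)
    (hres : Function.Surjective (IsLocalRing.residue R ∘ algebraMap 𝒪 R))
    (hgen : maximalIdeal R ≤ Ideal.span (Set.range x) ⊔ (maximalIdeal 𝒪).map (algebraMap 𝒪 R)) :
    Function.Surjective (gamma (𝒪 := 𝒪) x hx) := by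
  have h𝔞 : Ideal.span (Set.range x) ≠ ⊤ := by
    intro htop
    have hle : Ideal.span (Set.range x) ≤ maximalIdeal R := by
      rw [Ideal.span_le]; rintro _ ⟨i, rfl⟩; exact hx i
    rw [htop] at hle
    exact (maximalIdeal.isMaximal R).ne_top (top_le_iff.mp hle)
  have hO := algebraMap_quotient_surjective hres (Ideal.span (Set.range x)) h𝔞 hgen
  have hmap := map_varIdeal_gamma (𝒪 := 𝒪) x hx
  set I : Ideal (MvPowerSeries (Fin r) 𝒪) :=
    Ideal.span (Set.range (X : Fin r → MvPowerSeries (Fin r) 𝒪)) with hI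
  haveI : IsHausdorff (I.map ((gamma (𝒪 := 𝒪) x hx : MvPowerSeries (Fin r) 𝒪 →ₐ[𝒪] R) :
      MvPowerSeries (Fin r) 𝒪 →+* R)) R := by
    have : I.map ((gamma (𝒪 := 𝒪) x hx : MvPowerSeries (Fin r) 𝒪 →ₐ[𝒪] R) :
      MvPowerSeries (Fin r) 𝒪 →+* R) = Ideal.span (Set.range x) := hmap
    rw [this]
    exact IsHausdorff.of_isLocalRing _ _ h𝔞
  have key := surjective_of_mk_map_comp_surjective (I := I)
    ((gamma (𝒪 := 𝒪) x hx : MvPowerSeries (Fin r) 𝒪 →ₐ[𝒪] R) : MvPowerSeries (Fin r) 𝒪 →+* R) ?_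
  · exact key
  · intro z
    obtain ⟨y, rfl⟩ := Ideal.Quotient.mk_surjective z
    obtain ⟨c, hc⟩ := hO (Ideal.Quotient.mk _ y)
    refine ⟨algebraMap 𝒪 _ c, ?_⟩
    rw [RingHom.comp_apply, RingHom.coe_coe, AlgHom.commutes, Ideal.Quotient.eq]
    have h1 : algebraMap 𝒪 R c - y ∈ Ideal.span (Set.range x) := by
      rw [← Ideal.Quotient.eq]
      exact hc
    have : I.map ((gamma (𝒪 := 𝒪) x hx : MvPowerSeries (Fin r) 𝒪 →ₐ[𝒪] R) :
      MvPowerSeries (Fin r) 𝒪 →+* R) = Ideal.span (Set.range x) := hmap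
    rw [this]
    exact h1

/-- **T2a, Nakayama form.** It suffices that `x₁, …, x_r` generate `m_R` modulo
`m_𝒪 R + m_R ^ 2`. -/
theorem gamma_surjective_of_le_sq (hx : ∀ i, x i ∈ maximalIdeal R)
    (hres : Function.Surjective (IsLocalRing.residue R ∘ algebraMap 𝒪 R))
    (hgen : maximalIdeal R ≤
      Ideal.span (Set.range x) ⊔ (maximalIdeal 𝒪).map (algebraMap 𝒪 R) ⊔ maximalIdeal R ^ 2) :
    Function.Surjective (gamma (𝒪 := 𝒪) x hx) := by
  apply gamma_surjective x hx hres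
  refine Submodule.le_of_le_smul_of_le_jacobson_bot (I := maximalIdeal R)
    (IsNoetherian.noetherian _) (IsLocalRing.jacobson_eq_maximalIdeal ⊥ bot_ne_top).ge ?_
  rw [smul_eq_mul, ← pow_two]
  exact hgen

/-- **T2a, existential form** (the shape of the last clause of S56). -/
theorem exists_surjective_of_generators (hx : ∀ i, x i ∈ maximalIdeal R)
    (hres : Function.Surjective (IsLocalRing.residue R ∘ algebraMap 𝒪 R))
    (hgen : maximalIdeal R ≤
      Ideal.span (Set.range x) ⊔ (maximalIdeal 𝒪).map (algebraMap 𝒪 R) ⊔ maximalIdeal R ^ 2) :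
    ∃ γ : MvPowerSeries (Fin r) 𝒪 →ₐ[𝒪] R, Function.Surjective γ ∧ ∀ i, γ (X i) = x i :=
  ⟨gamma x hx, gamma_surjective_of_le_sq x hx hres hgen, gamma_X x hx⟩

end Surjective

end

end Fermat.Agent.TW.DEF.PowerSeriesSurj8
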