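/-
Programme T (Taylor–Wiles primes, S56), chapter DEF, brick T2b (helper8).

**From a bound on the number of tangent vectors to a power-series surjection.**

`k = ResidueField 𝒪` finite, `k[ε] = DualNumber k` with any `𝒪`-algebra structure whose structure
map is `c ↦ inl (residue c)` (hypothesis `halg`; this is the `letI` structure inside
`GaloisRep.TangentFinite`).  `R` is a Noetherian local `𝒪`-algebra with `𝒪 → R` local and
`𝒪 → R ⧸ m_R` surjective.

* `exists_finset_der`: in an Artinian test algebra `B`, if `m_B` is NOT generated by `s` elements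
  modulo an ideal `J ⊇ m_B ^ 2 + m_𝒪 B`, there are at least `(#k) ^ (s + 1)` derivation-like
  functionals `B → k` vanishing on `J` (greedy choice of generators + `S53.TangentHom.exists_der`).
* `exists_generators_of_card_le`: if every finite set of `𝒪`-algebra homomorphisms `R → k[ε]` has
  at most `(#k) ^ r` elements, then there are `x₁, …, x_r ∈ m_R` with
  `m_R ≤ (x₁, …, x_r) + m_𝒪 R + m_R ^ 2`.
* `exists_surjective_of_card_le` (**T2**): if moreover `𝒪` and `R` are complete, there is a
  surjective `𝒪`-algebra homomorphism `MvPowerSeries (Fin r) 𝒪 →ₐ[𝒪] R`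
  (exactly the last clause of S56, for `R = DQ.R`).
-/
import Mathlib
import Fermat.Agent.S53.TangentHom
import Fermat.Agent.S53.CompleteQuot
import Fermat.Agent.TW.DEF.PowerSeriesSurj8

set_option autoImplicit false
set_option linter.style.haveILetI false
set_option linter.unusedSectionVars false

namespace Fermat.Agent.TW.DEF.TangentCount8

open IsLocalRing GaloisRep Fermat.Agent.S53 Fermat.Agent.S53.TangentHom

variable {𝒪 : Type} [CommRing 𝒪] [IsLocalRing 𝒪]

section Der

variable {B : Type} [CommRing B] [Algebra 𝒪 B] (res : B →ₐ[𝒪] ResidueField 𝒪)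

/-- Derivation-like additive functionals `B → k` (relative to the residue map `res`) vanishing on
the constants. -/
def IsDer (lam : B →+ ResidueField 𝒪) : Prop :=
  (∀ x y, lam (x * y) = res x * lam y + res y * lam x) ∧ ∀ c : 𝒪, lam (algebraMap 𝒪 B c) = 0

/-- Scalar multiple of a functional. -/
def smulFun (c : ResidueField 𝒪) (lam : B →+ ResidueField 𝒪) : B →+ ResidueField 𝒪 :=
  (AddMonoidHom.mulLeft c).comp lam

@[simp]
theorem smulFun_apply (c : ResidueField 𝒪) (lam : B →+ ResidueField 𝒪) (x : B) :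
    smulFun c lam x = c * lam x := rfl

variable {res}

theorem IsDer.add {l₁ l₂ : B →+ ResidueField 𝒪} (h₁ : IsDer res l₁) (h₂ : IsDer res l₂) :
    IsDer res (l₁ + l₂) := by
  refine ⟨fun x y => ?_, fun c => ?_⟩
  · rw [AddMonoidHom.add_apply, AddMonoidHom.add_apply, AddMonoidHom.add_apply, h₁.1, h₂.1]
    ring
  · rw [AddMonoidHom.add_apply, h₁.2, h₂.2, add_zero]

theorem IsDer.smulFun (c : ResidueField 𝒪) {l : B →+ ResidueField 𝒪} (h : IsDer res l) :
    IsDer res (smulFun c l) := by
  refine ⟨fun x y => ?_, fun d => ?_⟩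
  · rw [smulFun_apply, smulFun_apply, smulFun_apply, h.1]
    ring
  · rw [smulFun_apply, h.2, mul_zero]

end Der

section Greedy

variable [Fintype (ResidueField 𝒪)] {B : Type} [CommRing B] [IsLocalRing B] [Algebra 𝒪 B]

/-- **Greedy count.** If `m_B` is not generated by `s` elements modulo `J`, there are at least
`(#k) ^ (s + 1)` derivation-like functionals vanishing on `J`. -/
theorem exists_finset_der (hB : IsArtinianTestAlgebra 𝒪 B) (res : B →ₐ[𝒪] ResidueField 𝒪)
    (hres : ∀ (a : B) (c : 𝒪), res a = residue 𝒪 c ↔ a - algebraMap 𝒪 B c ∈ maximalIdeal B) :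
    ∀ (s : ℕ) (J : Ideal B), J ≤ maximalIdeal B → maximalIdeal B ^ 2 ≤ J →
      (∀ c ∈ maximalIdeal 𝒪, algebraMap 𝒪 B c ∈ J) →
      (¬ ∃ y : Fin s → B, (∀ i, y i ∈ maximalIdeal B) ∧
        maximalIdeal B ≤ Ideal.span (Set.range y) ⊔ J) →
      ∃ T : Finset (B →+ ResidueField 𝒪), (∀ lam ∈ T, IsDer res lam ∧ ∀ z ∈ J, lam z = 0) ∧
        Fintype.card (ResidueField 𝒪) ^ (s + 1) ≤ T.card := by
  classical
  intro s
  induction s with
  | zero =>
    intro J hJm hsq hO hno
    have hne : ¬ maximalIdeal B ≤ J := fun h =>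
      hno ⟨Fin.elim0, fun i => i.elim0, h.trans le_sup_right⟩
    obtain ⟨x, hx, hxJ⟩ := SetLike.not_le_iff_exists.mp hne
    obtain ⟨lam, hJ0, hconst, hmul, hlx⟩ := exists_der hB res hres J hJm hsq hO x hx hxJ
    have hder : IsDer res lam := ⟨hmul, hconst⟩
    refine ⟨Finset.univ.image (fun c : ResidueField 𝒪 => smulFun c lam), ?_, ?_⟩
    · intro l hl
      obtain ⟨c, -, rfl⟩ := Finset.mem_image.mp hl
      exact ⟨hder.smulFun c, fun z hz => by rw [smulFun_apply, hJ0 z hz, mul_zero]⟩
    · rw [Finset.card_image_of_injective, Finset.card_univ, zero_add, pow_one]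
      intro c c' h
      have h1 := DFunLike.congr_fun h x
      rw [smulFun_apply, smulFun_apply] at h1
      exact mul_right_cancel₀ hlx h1
  | succ s ih =>
    intro J hJm hsq hO hno
    have hne : ¬ maximalIdeal B ≤ J := fun h =>
      hno ⟨fun _ => 0, fun _ => zero_mem _, h.trans le_sup_right⟩
    obtain ⟨x, hx, hxJ⟩ := SetLike.not_le_iff_exists.mp hne
    obtain ⟨lam, hJ0, hconst, hmul, hlx⟩ := exists_der hB res hres J hJm hsq hO x hx hxJ
    have hder : IsDer res lam := ⟨hmul, hconst⟩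
    have hJ'm : J ⊔ Ideal.span {x} ≤ maximalIdeal B :=
      sup_le hJm ((Ideal.span_singleton_le_iff_mem _).mpr hx)
    have hno' : ¬ ∃ y : Fin s → B, (∀ i, y i ∈ maximalIdeal B) ∧
        maximalIdeal B ≤ Ideal.span (Set.range y) ⊔ (J ⊔ Ideal.span {x}) := by
      rintro ⟨y, hy, hle⟩
      refine hno ⟨Fin.cons x y, ?_, ?_⟩
      · intro i
        refine Fin.cases ?_ (fun j => ?_) i
        · simpa using hx
        · simpa using hy j
      · rw [Fin.range_cons, Ideal.span_insert]
        refine hle.trans ?_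
        refine sup_le (le_sup_of_le_left le_sup_right) (sup_le le_sup_right ?_)
        exact le_sup_of_le_left le_sup_left
    obtain ⟨T', hT', hcard'⟩ := ih (J ⊔ Ideal.span {x}) hJ'm (hsq.trans le_sup_left)
      (fun c hc => (le_sup_left : J ≤ _) (hO c hc)) hno'
    have hT'x : ∀ l ∈ T', l x = 0 := fun l hl =>
      (hT' l hl).2 x ((le_sup_right : Ideal.span {x} ≤ _) (Ideal.mem_span_singleton_self x))
    refine ⟨(T' ×ˢ (Finset.univ : Finset (ResidueField 𝒪))).image
      (fun p => p.1 + smulFun p.2 lam), ?_, ?_⟩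
    · intro l hl
      obtain ⟨p, hp, rfl⟩ := Finset.mem_image.mp hl
      have hp1 : p.1 ∈ T' := (Finset.mem_product.mp hp).1
      refine ⟨(hT' p.1 hp1).1.add (hder.smulFun p.2), fun z hz => ?_⟩
      rw [AddMonoidHom.add_apply, smulFun_apply, hJ0 z hz, mul_zero, add_zero]
      exact (hT' p.1 hp1).2 z ((le_sup_left : J ≤ _) hz)
    · rw [Finset.card_image_of_injOn, Finset.card_product, Finset.card_univ, pow_succ]
      · exact Nat.mul_le_mul_right _ hcard'
      · intro p hp p' hp' h
        have hp1 : p.1 ∈ T' := (Finset.mem_product.mp (Finset.mem_coe.mp hp)).1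
        have hp1' : p'.1 ∈ T' := (Finset.mem_product.mp (Finset.mem_coe.mp hp')).1
        have h1 := DFunLike.congr_fun h x
        simp only [AddMonoidHom.add_apply, smulFun_apply, hT'x p.1 hp1, hT'x p'.1 hp1',
          zero_add] at h1
        have h2 : p.2 = p'.2 := mul_right_cancel₀ hlx h1
        have h3 : p.1 = p'.1 := by
          have h4 : p.1 + smulFun p.2 lam = p'.1 + smulFun p.2 lam := by
            simpa only [h2] using h
          exact add_right_cancel h4
        exact Prod.ext h3 h2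

end Greedy

section Hom

variable [alg : Algebra 𝒪 (DualNumber (ResidueField 𝒪))] {B : Type} [CommRing B] [Algebra 𝒪 B]

/-- A finite set of derivation-like functionals gives as many tangent homomorphisms. -/
theorem exists_finset_algHom
    (halg : ∀ c : 𝒪, algebraMap 𝒪 (DualNumber (ResidueField 𝒪)) c =
      TrivSqZeroExt.inl (residue 𝒪 c))
    (res : B →ₐ[𝒪] ResidueField 𝒪) (T : Finset (B →+ ResidueField 𝒪))
    (hT : ∀ lam ∈ T, IsDer res lam) :
    ∃ T' : Finset (B →ₐ[𝒪] DualNumber (ResidueField 𝒪)), T'.card = T.card := by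
  classical
  refine ⟨T.attach.image (fun l => homOfDer halg res l.1 (hT l.1 l.2).1 (hT l.1 l.2).2), ?_⟩
  rw [Finset.card_image_of_injective, Finset.card_attach]
  intro l l' h
  apply Subtype.ext
  apply DFunLike.ext
  intro x
  have h1 := congrArg TrivSqZeroExt.snd (DFunLike.congr_fun h x)
  simpa [homOfDer_apply] using h1

end Hom

section Main

variable [Finite (ResidueField 𝒪)] [alg : Algebra 𝒪 (DualNumber (ResidueField 𝒪))]
  {R : Type} [CommRing R] [IsLocalRing R] [IsNoetherianRing R] [Algebra 𝒪 R]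

/-- **T2b.** A bound `(#k) ^ r` on the number of tangent vectors `R → k[ε]` gives `r` generators
of `m_R` modulo `m_𝒪 R + m_R ^ 2`. -/
theorem exists_generators_of_card_le
    (halg : ∀ c : 𝒪, algebraMap 𝒪 (DualNumber (ResidueField 𝒪)) c =
      TrivSqZeroExt.inl (residue 𝒪 c))
    (hloc : IsLocalHom (algebraMap 𝒪 R))
    (hres : Function.Surjective (IsLocalRing.residue R ∘ algebraMap 𝒪 R)) (r : ℕ)
    (hcard : ∀ T : Finset (R →ₐ[𝒪] DualNumber (ResidueField 𝒪)),
      T.card ≤ Nat.card (ResidueField 𝒪) ^ r) :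
    ∃ x : Fin r → R, (∀ i, x i ∈ maximalIdeal R) ∧
      maximalIdeal R ≤ Ideal.span (Set.range x) ⊔ (maximalIdeal 𝒪).map (algebraMap 𝒪 R) ⊔
        maximalIdeal R ^ 2 := by
  classical
  letI : Fintype (ResidueField 𝒪) := Fintype.ofFinite _
  by_contra hno
  have hB : IsArtinianTestAlgebra 𝒪 (QuotPow R 1) := isArtinianTestAlgebra_quotPow R hloc hres 1
  obtain ⟨res, hres'⟩ := exists_resk hB
  set mk : R →+* QuotPow R 1 := Ideal.Quotient.mk (maximalIdeal R ^ (1 + 1)) with hmk
  have hmksurj : Function.Surjective mk := Ideal.Quotient.mk_surjective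
  have hmB : maximalIdeal (QuotPow R 1) = (maximalIdeal R).map mk := maximalIdeal_quotPow R 1
  set J₀ : Ideal (QuotPow R 1) :=
    maximalIdeal (QuotPow R 1) ^ 2 ⊔ (maximalIdeal 𝒪).map (algebraMap 𝒪 (QuotPow R 1)) with hJ₀
  have hOB : ∀ c ∈ maximalIdeal 𝒪, algebraMap 𝒪 (QuotPow R 1) c ∈ maximalIdeal (QuotPow R 1) :=
    fun c hc => (algebraMap_mem_maximalIdeal_iff hB c).mpr hc
  have hJ₀m : J₀ ≤ maximalIdeal (QuotPow R 1) := by
    refine sup_le (Ideal.pow_le_self two_ne_zero) ?_
    rw [Ideal.map_le_iff_le_comap]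
    exact fun c hc => hOB c hc
  have hnoB : ¬ ∃ y : Fin r → QuotPow R 1, (∀ i, y i ∈ maximalIdeal (QuotPow R 1)) ∧
      maximalIdeal (QuotPow R 1) ≤ Ideal.span (Set.range y) ⊔ J₀ := by
    rintro ⟨y, hy, hle⟩
    apply hno
    have hy' : ∀ i, ∃ x ∈ maximalIdeal R, mk x = y i := fun i => by
      have := hy i
      rw [hmB] at this
      exact (Ideal.mem_map_iff_of_surjective mk hmksurj).mp this
    choose x hxm hxy using hy'
    refine ⟨x, hxm, ?_⟩
    set K : Ideal R := Ideal.span (Set.range x) ⊔ (maximalIdeal 𝒪).map (algebraMap 𝒪 R) ⊔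
      maximalIdeal R ^ 2 with hK
    have hmapK : Ideal.span (Set.range y) ⊔ J₀ ≤ K.map mk := by
      refine sup_le ?_ (sup_le ?_ ?_)
      · rw [Ideal.span_le]
        rintro _ ⟨i, rfl⟩
        rw [← hxy i]
        exact Ideal.mem_map_of_mem _
          ((le_sup_of_le_left le_sup_left : Ideal.span (Set.range x) ≤ K)
            (Ideal.subset_span ⟨i, rfl⟩))
      · rw [hmB, ← Ideal.map_pow]
        exact Ideal.map_mono le_sup_right
      · have : (maximalIdeal 𝒪).map (algebraMap 𝒪 (QuotPow R 1)) =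
            ((maximalIdeal 𝒪).map (algebraMap 𝒪 R)).map mk := by
          rw [Ideal.map_map]; rfl
        rw [this]
        exact Ideal.map_mono (le_sup_of_le_left le_sup_right)
    intro z hz
    have h1 : mk z ∈ K.map mk := hmapK (hle (by rw [hmB]; exact Ideal.mem_map_of_mem _ hz))
    obtain ⟨w, hw, hwz⟩ := (Ideal.mem_map_iff_of_surjective mk hmksurj).mp h1
    have h2 : w - z ∈ maximalIdeal R ^ (1 + 1) := by
      rw [← Ideal.Quotient.eq]; exact hwz
    have h3 : w - z ∈ K := (le_sup_right : maximalIdeal R ^ 2 ≤ K) h2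
    have := K.sub_mem hw h3
    rwa [sub_sub_cancel] at this
  obtain ⟨T, hT, hTcard⟩ := exists_finset_der hB res hres' r J₀ hJ₀m le_sup_left
    (fun c hc => (le_sup_right : _ ≤ J₀) (Ideal.mem_map_of_mem _ hc)) hnoB
  obtain ⟨T', hT'⟩ := exists_finset_algHom halg res T (fun l hl => (hT l hl).1)
  have hinj : Function.Injective
      (fun φ : QuotPow R 1 →ₐ[𝒪] DualNumber (ResidueField 𝒪) => φ.comp (quotPowMk R 1)) :=
    fun φ ψ h => (AlgHom.cancel_right (quotPowMk_surjective R 1)).mp h
  have h1 := hcard (T'.image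
    (fun φ : QuotPow R 1 →ₐ[𝒪] DualNumber (ResidueField 𝒪) => φ.comp (quotPowMk R 1)))
  rw [Finset.card_image_of_injective _ hinj, hT', Nat.card_eq_fintype_card] at h1
  have h2 : Fintype.card (ResidueField 𝒪) ^ (r + 1) ≤ Fintype.card (ResidueField 𝒪) ^ r :=
    hTcard.trans h1
  have h3 : 1 < Fintype.card (ResidueField 𝒪) := Fintype.one_lt_card
  exact absurd h2 (not_le.mpr (Nat.pow_lt_pow_right h3 (Nat.lt_succ_self r)))

/-- **T2.** If `𝒪` and `R` are complete and every finite set of tangent vectors `R → k[ε]` has at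
most `(#k) ^ r` elements, then `R` is a quotient of `𝒪⟦X₁, …, X_r⟧`. -/
theorem exists_surjective_of_card_le [IsAdicComplete (maximalIdeal 𝒪) 𝒪]
    [IsAdicComplete (maximalIdeal R) R]
    (halg : ∀ c : 𝒪, algebraMap 𝒪 (DualNumber (ResidueField 𝒪)) c =
      TrivSqZeroExt.inl (residue 𝒪 c))
    (hloc : IsLocalHom (algebraMap 𝒪 R))
    (hres : Function.Surjective (IsLocalRing.residue R ∘ algebraMap 𝒪 R)) (r : ℕ)
    (hcard : ∀ T : Finset (R →ₐ[𝒪] DualNumber (ResidueField 𝒪)),
      T.card ≤ Nat.card (ResidueField 𝒪) ^ r) :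
    ∃ γ : MvPowerSeries (Fin r) 𝒪 →ₐ[𝒪] R, Function.Surjective γ := by
  obtain ⟨x, hx, hgen⟩ := exists_generators_of_card_le halg hloc hres r hcard
  obtain ⟨γ, hγ, -⟩ :=
    Fermat.Agent.TW.DEF.PowerSeriesSurj8.exists_surjective_of_generators x hx hres hgen
  exact ⟨γ, hγ⟩

end Main

end Fermat.Agent.TW.DEF.TangentCount8
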