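/-
Programme T (S56, Taylor–Wiles primes), chapter DEF (helper8): **T1 = the tangent space of the
universal deformation ring injects into the Selmer group**, and T1 + T2.

Setting: `𝒪` a complete DVR (as in `GaloisRep.DeformationRingData`), `k = ResidueField 𝒪`,
`k[ε] = DualNumber k` with `[alg : Algebra 𝒪 k[ε]]`,
`halg : ∀ c, algebraMap 𝒪 k[ε] c = TrivSqZeroExt.inl (residue 𝒪 c)`,
`b : Module.Basis (Fin 2) k ρbar.V`, `rbar := S53.matrixOfBasisRes ρbar b`,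
`S : Finset Nat.Primes`, `DQ : DeformationRingData 𝒪 ρbar 𝒟`,
`L : ∀ q : ↥S, Submodule k (Hq1 (ad0Rep rbar) q)`.

Hypotheses on `𝒟`, all over `k[ε]` only:
* `hiso` : `𝒟` is invariant under `GaloisRepAdic.IsEquiv` over `k[ε]`;
* `hbc`  : `𝒟 (DQ.ρ.baseChangeAlong φ hφ)` for every `φ : DQ.R →ₐ[𝒪] k[ε]`;
* `hur`  : lifts `r` of `rbar` with `𝒟 (ofMatrix r hr)` are unramified outside `S`;
* `hdet` : for such lifts, `det (r σ)` has no `ε`-part;
* `hL`   : for such lifts, the class `liftClass S h hlev htr ∈ H¹(G_S, ad⁰ ρ̄)` restricts into `L q`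
           for all `q ∈ S` (for all proofs `hlev`, `htr`).

Results:
* `algHom_eq_of_isEquiv_of_type` : uniqueness in the universal property over `k[ε]`;
* `exists_lift_of_algHom` : `φ ↦` a lift `r_φ` of `rbar` of type `𝒟` with
  `DQ.ρ.baseChangeAlong φ ≅ ofMatrix r_φ`;
* `exists_injective_sel` (**T1**) : `∃ f : (DQ.R →ₐ[𝒪] k[ε]) → ↥(Sel S (ad0Rep rbar) L)`, injective;
* `card_tangent_le` : `T.card ≤ Nat.card ↥(Sel S (ad0Rep rbar) L)` for every finite set `T` of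
  tangent vectors (when the Selmer group is finite);
* `exists_mvPowerSeries_surjective` (**T1 + T2**) : if `Nat.card ↥(Sel ..) ≤ (Nat.card k) ^ n` then
  `DQ.R` is a quotient of `𝒪⟦X₁, …, X_n⟧`;
* `hdet_of_detIsCyclotomic` : `hdet` follows from `𝒟 ρ → ρ.DetIsCyclotomic p` (`p ≠ 0`).
-/
import Mathlib
import Fermat.Agent.TW.DEF.DualLiftLevel8
import Fermat.Agent.TW.DEF.TangentCount8

set_option autoImplicit false
set_option linter.style.haveILetI false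

open IsLocalRing
open Fermat.Agent.PT.PRO.LevelCoh28 Fermat.Agent.PT.GLUE.Objects21

namespace Fermat.Agent.TW.DEF.TangentCard8

open Fermat.Agent.S53 Fermat.Agent.TW.DEF.LiftCocycle1 Fermat.Agent.TW.DEF.DualLift8
open Fermat.Agent.TW.DEF.DualLiftLevel8 GaloisRep

variable {𝒪 : Type} [CommRing 𝒪] [IsDomain 𝒪] [IsDiscreteValuationRing 𝒪]
  [IsAdicComplete (maximalIdeal 𝒪) 𝒪]
  [alg : Algebra 𝒪 (DualNumber (ResidueField 𝒪))]
  {ρbar : ResidualGaloisRep (ResidueField 𝒪)}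
  {𝒟 : ∀ ⦃A : Type⦄ [CommRing A] [IsLocalRing A] [Algebra 𝒪 A], GaloisRepAdic A → Prop}

/-- Two `𝒪`-algebra homomorphisms `DQ.R → k[ε]` inducing equivalent deformations are equal
(the type hypothesis is needed for one of the two base changes only). -/
theorem algHom_eq_of_isEquiv_of_type
    (halg : ∀ c : 𝒪, algebraMap 𝒪 (DualNumber (ResidueField 𝒪)) c =
      TrivSqZeroExt.inl (residue 𝒪 c))
    (DQ : DeformationRingData 𝒪 ρbar 𝒟)
    (φ φ' : DQ.R →ₐ[𝒪] DualNumber (ResidueField 𝒪))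
    (hφ : IsLocalHom (φ : DQ.R →+* DualNumber (ResidueField 𝒪)))
    (hφ' : IsLocalHom (φ' : DQ.R →+* DualNumber (ResidueField 𝒪)))
    (h𝒟' : 𝒟 (DQ.ρ.baseChangeAlong (φ' : DQ.R →+* DualNumber (ResidueField 𝒪)) hφ'))
    (h : (DQ.ρ.baseChangeAlong (φ : DQ.R →+* DualNumber (ResidueField 𝒪)) hφ).IsEquiv
      (DQ.ρ.baseChangeAlong (φ' : DQ.R →+* DualNumber (ResidueField 𝒪)) hφ')) :
    φ = φ' := by
  haveI := isAdicComplete_dualNumber (k := ResidueField 𝒪)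
  haveI := isLocalHom_algebraMap halg
  obtain ⟨φ₀, -, huniq⟩ := DQ.universal (DualNumber (ResidueField 𝒪))
    (residue_comp_algebraMap_surjective halg)
    (DQ.ρ.baseChangeAlong (φ' : DQ.R →+* DualNumber (ResidueField 𝒪)) hφ') h𝒟'
    (residual_baseChangeAlong_universal DQ φ' hφ')
  rw [huniq φ ⟨hφ, h⟩, huniq φ' ⟨hφ', adicIsEquiv_refl _⟩]

/-- Every tangent vector `φ : DQ.R → k[ε]` gives a continuous lift of `rbar` of type `𝒟`, whose
representation is the base change of the universal deformation along `φ`. -/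
theorem exists_lift_of_algHom
    (halg : ∀ c : 𝒪, algebraMap 𝒪 (DualNumber (ResidueField 𝒪)) c =
      TrivSqZeroExt.inl (residue 𝒪 c))
    (DQ : DeformationRingData 𝒪 ρbar 𝒟)
    (b : Module.Basis (Fin 2) (ResidueField 𝒪) ρbar.V)
    (hiso : ∀ ⦃ρ ρ' : GaloisRepAdic (DualNumber (ResidueField 𝒪))⦄, ρ.IsEquiv ρ' → 𝒟 ρ → 𝒟 ρ')
    (φ : DQ.R →ₐ[𝒪] DualNumber (ResidueField 𝒪))
    (hφ : IsLocalHom (φ : DQ.R →+* DualNumber (ResidueField 𝒪)))
    (hbc : 𝒟 (DQ.ρ.baseChangeAlong (φ : DQ.R →+* DualNumber (ResidueField 𝒪)) hφ)) :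
    ∃ (r : GQ →* M2 (DualNumber (ResidueField 𝒪))) (hr : MatCont r),
      IsLiftOf (matrixOfBasisRes ρbar b) r ∧ 𝒟 (ofMatrix r hr) ∧
      (DQ.ρ.baseChangeAlong (φ : DQ.R →+* DualNumber (ResidueField 𝒪)) hφ).IsEquiv
        (ofMatrix r hr) := by
  haveI := isLocalHom_algebraMap halg
  obtain ⟨r, hr, hfst, hequiv⟩ := exists_dualLift_of_residual_isEquiv ρbar b halg _
    (residual_baseChangeAlong_universal DQ φ hφ)
  exact ⟨r, hr, hfst, hiso hequiv hbc, hequiv⟩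

/-- **T1.**  The tangent vectors `DQ.R →ₐ[𝒪] k[ε]` of the universal deformation ring inject into
the Selmer group `Sel S (ad⁰ ρ̄) L`. -/
theorem exists_injective_sel
    (halg : ∀ c : 𝒪, algebraMap 𝒪 (DualNumber (ResidueField 𝒪)) c =
      TrivSqZeroExt.inl (residue 𝒪 c))
    (DQ : DeformationRingData 𝒪 ρbar 𝒟)
    (b : Module.Basis (Fin 2) (ResidueField 𝒪) ρbar.V) (S : Finset Nat.Primes)
    (L : ∀ q : ↥S, Submodule (ResidueField 𝒪)
      (Basic1.Hq1 (Basic1.ad0Rep (matrixOfBasisRes ρbar b)) ((q : Nat.Primes) : ℕ)))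
    (hiso : ∀ ⦃ρ ρ' : GaloisRepAdic (DualNumber (ResidueField 𝒪))⦄, ρ.IsEquiv ρ' → 𝒟 ρ → 𝒟 ρ')
    (hbc : ∀ (φ : DQ.R →ₐ[𝒪] DualNumber (ResidueField 𝒪))
      (hφ : IsLocalHom (φ : DQ.R →+* DualNumber (ResidueField 𝒪))),
      𝒟 (DQ.ρ.baseChangeAlong (φ : DQ.R →+* DualNumber (ResidueField 𝒪)) hφ))
    (hur : ∀ (r : GQ →* M2 (DualNumber (ResidueField 𝒪))) (hr : MatCont r),
      IsLiftOf (matrixOfBasisRes ρbar b) r → 𝒟 (ofMatrix r hr) →
        ∀ q : Nat.Primes, q ∉ S → (ofMatrix r hr).IsUnramifiedAt (q : ℕ))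
    (hdet : ∀ (r : GQ →* M2 (DualNumber (ResidueField 𝒪))) (hr : MatCont r),
      IsLiftOf (matrixOfBasisRes ρbar b) r → 𝒟 (ofMatrix r hr) → ∀ σ, ((r σ).det).snd = 0)
    (hL : ∀ (r : GQ →* M2 (DualNumber (ResidueField 𝒪))) (hr : MatCont r)
      (h : IsLiftOf (matrixOfBasisRes ρbar b) r), 𝒟 (ofMatrix r hr) →
        ∀ (hlev : ∃ U ∈ (levelS S).sets, ∀ s ∈ U, r s = 1)
          (htr : ∀ σ, (liftCocycle (matrixOfBasisRes ρbar b) r σ).trace = 0) (q : ↥S),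
          Basic1.resq1 S (Basic1.ad0Rep (matrixOfBasisRes ρbar b)) ((q : Nat.Primes) : ℕ)
            (liftClass S h hlev htr) ∈ L q) :
    ∃ f : (DQ.R →ₐ[𝒪] DualNumber (ResidueField 𝒪)) →
        ↥(Basic1.Sel S (Basic1.ad0Rep (matrixOfBasisRes ρbar b)) L),
      Function.Injective f := by
  have hloc : ∀ φ : DQ.R →ₐ[𝒪] DualNumber (ResidueField 𝒪),
      IsLocalHom (φ : DQ.R →+* DualNumber (ResidueField 𝒪)) := fun φ => isLocalHom_algHom halg φ
  choose r hr hlift htype hequiv using fun φ : DQ.R →ₐ[𝒪] DualNumber (ResidueField 𝒪) =>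
    exists_lift_of_algHom halg DQ b hiso φ (hloc φ) (hbc φ (hloc φ))
  have hlev : ∀ φ, ∃ U ∈ (levelS S).sets, ∀ s ∈ U, r φ s = 1 := fun φ => by
    obtain ⟨U, hU, -, h1⟩ := exists_levelS_forall_eq_one_of_unramified S (hr φ)
      (hur (r φ) (hr φ) (hlift φ) (htype φ))
    exact ⟨U, hU, h1⟩
  have htr : ∀ φ σ, (liftCocycle (matrixOfBasisRes ρbar b) (r φ) σ).trace = 0 := fun φ σ =>
    trace_liftCocycle (hlift φ) σ (hdet (r φ) (hr φ) (hlift φ) (htype φ) σ)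
  refine ⟨fun φ => ⟨liftClass S (hlift φ) (hlev φ) (htr φ),
    (Basic1.mem_Sel_iff S _ L _).mpr fun q =>
      hL (r φ) (hr φ) (hlift φ) (htype φ) (hlev φ) (htr φ) q⟩, fun φ φ' hc => ?_⟩
  have hc' : liftClass S (hlift φ) (hlev φ) (htr φ) = liftClass S (hlift φ') (hlev φ') (htr φ') :=
    congrArg Subtype.val hc
  obtain ⟨X, -, hX⟩ := (liftClass_eq_iff S (hlift φ') (hlev φ') (htr φ') (hlift φ) (hlev φ)
    (htr φ)).mp hc'
  -- `r φ = conjEps (-X) (r φ')`, hence the two representations are equivalent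
  have h1 : (ofMatrix (r φ') (hr φ')).IsEquiv (ofMatrix (r φ) (hr φ)) :=
    adicIsEquiv_trans (ofMatrix_isEquiv_conjEps (-X) (hr φ'))
      (MatrixModel.ofMatrix_isEquiv_of_eq _ _ hX.symm)
  exact (algHom_eq_of_isEquiv_of_type halg DQ φ' φ (hloc φ') (hloc φ) (hbc φ (hloc φ))
    (adicIsEquiv_trans (hequiv φ') (adicIsEquiv_trans h1 (adicIsEquiv_symm (hequiv φ))))).symm

/-- **T1, counting form.**  Every finite set of tangent vectors has at most `#Sel` elements. -/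
theorem card_tangent_le
    (halg : ∀ c : 𝒪, algebraMap 𝒪 (DualNumber (ResidueField 𝒪)) c =
      TrivSqZeroExt.inl (residue 𝒪 c))
    (DQ : DeformationRingData 𝒪 ρbar 𝒟)
    (b : Module.Basis (Fin 2) (ResidueField 𝒪) ρbar.V) (S : Finset Nat.Primes)
    (L : ∀ q : ↥S, Submodule (ResidueField 𝒪)
      (Basic1.Hq1 (Basic1.ad0Rep (matrixOfBasisRes ρbar b)) ((q : Nat.Primes) : ℕ)))
    [Finite ↥(Basic1.Sel S (Basic1.ad0Rep (matrixOfBasisRes ρbar b)) L)]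
    (hiso : ∀ ⦃ρ ρ' : GaloisRepAdic (DualNumber (ResidueField 𝒪))⦄, ρ.IsEquiv ρ' → 𝒟 ρ → 𝒟 ρ')
    (hbc : ∀ (φ : DQ.R →ₐ[𝒪] DualNumber (ResidueField 𝒪))
      (hφ : IsLocalHom (φ : DQ.R →+* DualNumber (ResidueField 𝒪))),
      𝒟 (DQ.ρ.baseChangeAlong (φ : DQ.R →+* DualNumber (ResidueField 𝒪)) hφ))
    (hur : ∀ (r : GQ →* M2 (DualNumber (ResidueField 𝒪))) (hr : MatCont r),
      IsLiftOf (matrixOfBasisRes ρbar b) r → 𝒟 (ofMatrix r hr) →
        ∀ q : Nat.Primes, q ∉ S → (ofMatrix r hr).IsUnramifiedAt (q : ℕ))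
    (hdet : ∀ (r : GQ →* M2 (DualNumber (ResidueField 𝒪))) (hr : MatCont r),
      IsLiftOf (matrixOfBasisRes ρbar b) r → 𝒟 (ofMatrix r hr) → ∀ σ, ((r σ).det).snd = 0)
    (hL : ∀ (r : GQ →* M2 (DualNumber (ResidueField 𝒪))) (hr : MatCont r)
      (h : IsLiftOf (matrixOfBasisRes ρbar b) r), 𝒟 (ofMatrix r hr) →
        ∀ (hlev : ∃ U ∈ (levelS S).sets, ∀ s ∈ U, r s = 1)
          (htr : ∀ σ, (liftCocycle (matrixOfBasisRes ρbar b) r σ).trace = 0) (q : ↥S),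
          Basic1.resq1 S (Basic1.ad0Rep (matrixOfBasisRes ρbar b)) ((q : Nat.Primes) : ℕ)
            (liftClass S h hlev htr) ∈ L q)
    (T : Finset (DQ.R →ₐ[𝒪] DualNumber (ResidueField 𝒪))) :
    T.card ≤ Nat.card ↥(Basic1.Sel S (Basic1.ad0Rep (matrixOfBasisRes ρbar b)) L) := by
  classical
  obtain ⟨f, hf⟩ := exists_injective_sel halg DQ b S L hiso hbc hur hdet hL
  letI : Fintype ↥(Basic1.Sel S (Basic1.ad0Rep (matrixOfBasisRes ρbar b)) L) := Fintype.ofFinite _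
  calc T.card = (T.image f).card := (Finset.card_image_of_injective T hf).symm
    _ ≤ Fintype.card ↥(Basic1.Sel S (Basic1.ad0Rep (matrixOfBasisRes ρbar b)) L) :=
        Finset.card_le_univ _
    _ = Nat.card ↥(Basic1.Sel S (Basic1.ad0Rep (matrixOfBasisRes ρbar b)) L) :=
        (Nat.card_eq_fintype_card).symm

/-- **T1 + T2.**  If the Selmer group has at most `(#k) ^ n` elements, the universal deformation
ring is a quotient of a power series ring in `n` variables over `𝒪`. -/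
theorem exists_mvPowerSeries_surjective [Finite (ResidueField 𝒪)]
    (halg : ∀ c : 𝒪, algebraMap 𝒪 (DualNumber (ResidueField 𝒪)) c =
      TrivSqZeroExt.inl (residue 𝒪 c))
    (DQ : DeformationRingData 𝒪 ρbar 𝒟)
    (b : Module.Basis (Fin 2) (ResidueField 𝒪) ρbar.V) (S : Finset Nat.Primes)
    (L : ∀ q : ↥S, Submodule (ResidueField 𝒪)
      (Basic1.Hq1 (Basic1.ad0Rep (matrixOfBasisRes ρbar b)) ((q : Nat.Primes) : ℕ)))
    [Finite ↥(Basic1.Sel S (Basic1.ad0Rep (matrixOfBasisRes ρbar b)) L)]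
    (hiso : ∀ ⦃ρ ρ' : GaloisRepAdic (DualNumber (ResidueField 𝒪))⦄, ρ.IsEquiv ρ' → 𝒟 ρ → 𝒟 ρ')
    (hbc : ∀ (φ : DQ.R →ₐ[𝒪] DualNumber (ResidueField 𝒪))
      (hφ : IsLocalHom (φ : DQ.R →+* DualNumber (ResidueField 𝒪))),
      𝒟 (DQ.ρ.baseChangeAlong (φ : DQ.R →+* DualNumber (ResidueField 𝒪)) hφ))
    (hur : ∀ (r : GQ →* M2 (DualNumber (ResidueField 𝒪))) (hr : MatCont r),
      IsLiftOf (matrixOfBasisRes ρbar b) r → 𝒟 (ofMatrix r hr) →
        ∀ q : Nat.Primes, q ∉ S → (ofMatrix r hr).IsUnramifiedAt (q : ℕ))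
    (hdet : ∀ (r : GQ →* M2 (DualNumber (ResidueField 𝒪))) (hr : MatCont r),
      IsLiftOf (matrixOfBasisRes ρbar b) r → 𝒟 (ofMatrix r hr) → ∀ σ, ((r σ).det).snd = 0)
    (hL : ∀ (r : GQ →* M2 (DualNumber (ResidueField 𝒪))) (hr : MatCont r)
      (h : IsLiftOf (matrixOfBasisRes ρbar b) r), 𝒟 (ofMatrix r hr) →
        ∀ (hlev : ∃ U ∈ (levelS S).sets, ∀ s ∈ U, r s = 1)
          (htr : ∀ σ, (liftCocycle (matrixOfBasisRes ρbar b) r σ).trace = 0) (q : ↥S),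
          Basic1.resq1 S (Basic1.ad0Rep (matrixOfBasisRes ρbar b)) ((q : Nat.Primes) : ℕ)
            (liftClass S h hlev htr) ∈ L q)
    (n : ℕ)
    (hcard : Nat.card ↥(Basic1.Sel S (Basic1.ad0Rep (matrixOfBasisRes ρbar b)) L) ≤
      Nat.card (ResidueField 𝒪) ^ n) :
    ∃ γ : MvPowerSeries (Fin n) 𝒪 →ₐ[𝒪] DQ.R, Function.Surjective γ :=
  TangentCount8.exists_surjective_of_card_le halg DQ.instIsLocalHom DQ.residue_surjective n
    fun T => (card_tangent_le halg DQ b S L hiso hbc hur hdet hL T).trans hcard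

omit [IsAdicComplete (maximalIdeal 𝒪) 𝒪] in
/-- The hypothesis `hdet` follows from "type `𝒟` implies cyclotomic determinant". -/
theorem hdet_of_detIsCyclotomic {p : ℕ} (hp : p ≠ 0)
    (rbar : GQ →* M2 (ResidueField 𝒪))
    (h : ∀ ⦃ρ : GaloisRepAdic (DualNumber (ResidueField 𝒪))⦄, 𝒟 ρ → ρ.DetIsCyclotomic p) :
    ∀ (r : GQ →* M2 (DualNumber (ResidueField 𝒪))) (hr : MatCont r),
      IsLiftOf rbar r → 𝒟 (ofMatrix r hr) → ∀ σ, ((r σ).det).snd = 0 :=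
  fun _ hr _ hD σ => snd_det_eq_zero_of_ofMatrix_detIsCyclotomic hp hr (h hD) σ

end Fermat.Agent.TW.DEF.TangentCard8
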