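/-
Programme T (S56, Taylor–Wiles primes), chapter DEF (helper8): T1 + T2 FOR THE CONCRETE CONDITIONS
OF S56.

`CondStable8.soCond 𝒪 p Sig Smin` / `flCond 𝒪 p Sig Smin` are (by `rfl`, see `soCond_eq`, `flCond_eq`)
the deformation conditions of statement S56 with `Sig = Smin ∪ Finset.univ.image qv`.  For a universal
deformation ring `DQ` of such a type, a basis `b` of `ρbar`, `rbar := S53.matrixOfBasisRes ρbar b`, a
set `S : Finset Nat.Primes` containing all primes of `Sig`, and local conditions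
`L q ⊆ H¹(ℚ_q, ad⁰ ρ̄)` (`q ∈ S`) containing the restrictions of the classes of all lifts of `rbar` to
`k[ε]` of that type (hypothesis `hL`, to be proved by chapter T/LOC):

* `exists_injective_sel_so`, `exists_mvPowerSeries_surjective_so` : if `#Sel_L(ad⁰ ρ̄) ≤ (#k)^n` then
  `DQ.R` is a quotient of `𝒪⟦X₁, …, X_n⟧`;
* `exists_mvPowerSeries_surjective_fl` : the same for the flat condition, with the extra hypothesis
  `hflat` that the base changes of the universal deformation to `k[ε]` are flat at `p`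
  (chapter T/FLAT).
-/
import Mathlib
import Fermat.Agent.TW.DEF.TangentCard8
import Fermat.Agent.TW.DEF.CondStable8

set_option autoImplicit false
set_option linter.style.haveILetI false

open IsLocalRing
open Fermat.Agent.PT.PRO.LevelCoh28 Fermat.Agent.PT.GLUE.Objects21

namespace Fermat.Agent.TW.DEF.TangentCardSO8

open Fermat.Agent.S53 Fermat.Agent.TW.DEF.LiftCocycle1 Fermat.Agent.TW.DEF.DualLift8
open Fermat.Agent.TW.DEF.DualLiftLevel8 Fermat.Agent.TW.DEF.CondStable8 GaloisRep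

section Shape

variable (𝒪 : Type) [CommRing 𝒪] (p : ℕ) (Sig Smin : Finset ℕ)

/-- `soCond` is literally the deformation condition of the first half of S56. -/
theorem soCond_eq :
    soCond 𝒪 p Sig Smin = ((fun _A _ _ _ ρ =>
      GaloisRep.strictOrdinaryCondition 𝒪 p Sig ρ ∧
        ∀ q ∈ Smin, q.Prime → q ≠ p → ρ.IsUnipotentOnInertiaAt q) :
      ∀ ⦃A : Type⦄ [CommRing A] [IsLocalRing A] [Algebra 𝒪 A], GaloisRepAdic A → Prop) := rfl

/-- `flCond` is literally the deformation condition of the second half of S56. -/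
theorem flCond_eq :
    flCond 𝒪 p Sig Smin = ((fun _A _ _ _ ρ =>
      GaloisRep.flatCondition 𝒪 p Sig ρ ∧
        ∀ q ∈ Smin, q.Prime → q ≠ p → ρ.IsUnipotentOnInertiaAt q) :
      ∀ ⦃A : Type⦄ [CommRing A] [IsLocalRing A] [Algebra 𝒪 A], GaloisRepAdic A → Prop) := rfl

end Shape

variable {𝒪 : Type} [CommRing 𝒪] [IsDomain 𝒪] [IsDiscreteValuationRing 𝒪]
  [IsAdicComplete (maximalIdeal 𝒪) 𝒪]
  [alg : Algebra 𝒪 (DualNumber (ResidueField 𝒪))]
  {ρbar : ResidualGaloisRep (ResidueField 𝒪)} {p : ℕ} {Sig Smin : Finset ℕ}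

/-- **T1 for the strict-ordinary condition of S56.** -/
theorem exists_injective_sel_so
    (halg : ∀ c : 𝒪, algebraMap 𝒪 (DualNumber (ResidueField 𝒪)) c =
      TrivSqZeroExt.inl (residue 𝒪 c))
    (hp : p ≠ 0)
    (DQ : DeformationRingData 𝒪 ρbar (soCond 𝒪 p Sig Smin))
    (b : Module.Basis (Fin 2) (ResidueField 𝒪) ρbar.V) (S : Finset Nat.Primes)
    (hS : ∀ q : Nat.Primes, q ∉ S → (q : ℕ) ∉ Sig)
    (L : ∀ q : ↥S, Submodule (ResidueField 𝒪)
      (Basic1.Hq1 (Basic1.ad0Rep (matrixOfBasisRes ρbar b)) ((q : Nat.Primes) : ℕ)))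
    (hL : ∀ (r : GQ →* M2 (DualNumber (ResidueField 𝒪))) (hr : MatCont r)
      (h : IsLiftOf (matrixOfBasisRes ρbar b) r), soCond 𝒪 p Sig Smin (ofMatrix r hr) →
        ∀ (hlev : ∃ U ∈ (levelS S).sets, ∀ s ∈ U, r s = 1)
          (htr : ∀ σ, (liftCocycle (matrixOfBasisRes ρbar b) r σ).trace = 0) (q : ↥S),
          Basic1.resq1 S (Basic1.ad0Rep (matrixOfBasisRes ρbar b)) ((q : Nat.Primes) : ℕ)
            (liftClass S h hlev htr) ∈ L q) :
    ∃ f : (DQ.R →ₐ[𝒪] DualNumber (ResidueField 𝒪)) →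
        ↥(Basic1.Sel S (Basic1.ad0Rep (matrixOfBasisRes ρbar b)) L),
      Function.Injective f :=
  TangentCard8.exists_injective_sel halg DQ b S L
    (fun _ _ h h1 => soCond_of_isEquiv h h1)
    (fun _ hφ => soCond_baseChangeAlong _ hφ DQ.isOfType)
    (fun _ _ _ hD q hq => hD.1.2.2 (q : ℕ) q.2 (hS q hq))
    (TangentCard8.hdet_of_detIsCyclotomic hp _ fun _ hD => hD.1.1)
    hL

/-- **T1 + T2 for the strict-ordinary condition of S56.** -/
theorem exists_mvPowerSeries_surjective_so [Finite (ResidueField 𝒪)]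
    (halg : ∀ c : 𝒪, algebraMap 𝒪 (DualNumber (ResidueField 𝒪)) c =
      TrivSqZeroExt.inl (residue 𝒪 c))
    (hp : p ≠ 0)
    (DQ : DeformationRingData 𝒪 ρbar (soCond 𝒪 p Sig Smin))
    (b : Module.Basis (Fin 2) (ResidueField 𝒪) ρbar.V) (S : Finset Nat.Primes)
    (hS : ∀ q : Nat.Primes, q ∉ S → (q : ℕ) ∉ Sig)
    (L : ∀ q : ↥S, Submodule (ResidueField 𝒪)
      (Basic1.Hq1 (Basic1.ad0Rep (matrixOfBasisRes ρbar b)) ((q : Nat.Primes) : ℕ)))
    [Finite ↥(Basic1.Sel S (Basic1.ad0Rep (matrixOfBasisRes ρbar b)) L)]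
    (hL : ∀ (r : GQ →* M2 (DualNumber (ResidueField 𝒪))) (hr : MatCont r)
      (h : IsLiftOf (matrixOfBasisRes ρbar b) r), soCond 𝒪 p Sig Smin (ofMatrix r hr) →
        ∀ (hlev : ∃ U ∈ (levelS S).sets, ∀ s ∈ U, r s = 1)
          (htr : ∀ σ, (liftCocycle (matrixOfBasisRes ρbar b) r σ).trace = 0) (q : ↥S),
          Basic1.resq1 S (Basic1.ad0Rep (matrixOfBasisRes ρbar b)) ((q : Nat.Primes) : ℕ)
            (liftClass S h hlev htr) ∈ L q)
    (n : ℕ)
    (hcard : Nat.card ↥(Basic1.Sel S (Basic1.ad0Rep (matrixOfBasisRes ρbar b)) L) ≤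
      Nat.card (ResidueField 𝒪) ^ n) :
    ∃ γ : MvPowerSeries (Fin n) 𝒪 →ₐ[𝒪] DQ.R, Function.Surjective γ :=
  TangentCard8.exists_mvPowerSeries_surjective halg DQ b S L
    (fun _ _ h h1 => soCond_of_isEquiv h h1)
    (fun _ hφ => soCond_baseChangeAlong _ hφ DQ.isOfType)
    (fun _ _ _ hD q hq => hD.1.2.2 (q : ℕ) q.2 (hS q hq))
    (TangentCard8.hdet_of_detIsCyclotomic hp _ fun _ hD => hD.1.1)
    hL n hcard

/-- **T1 + T2 for the flat condition of S56**, given that the base changes of the universal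
deformation to `k[ε]` are flat at `p` (hypothesis `hflat`, chapter T/FLAT). -/
theorem exists_mvPowerSeries_surjective_fl [Finite (ResidueField 𝒪)]
    (halg : ∀ c : 𝒪, algebraMap 𝒪 (DualNumber (ResidueField 𝒪)) c =
      TrivSqZeroExt.inl (residue 𝒪 c))
    (hp : p ≠ 0)
    (DQ : DeformationRingData 𝒪 ρbar (flCond 𝒪 p Sig Smin))
    (hflat : ∀ (φ : DQ.R →ₐ[𝒪] DualNumber (ResidueField 𝒪))
      (hφ : IsLocalHom (φ : DQ.R →+* DualNumber (ResidueField 𝒪))),
      (DQ.ρ.baseChangeAlong (φ : DQ.R →+* DualNumber (ResidueField 𝒪)) hφ).IsFlatAt p)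
    (b : Module.Basis (Fin 2) (ResidueField 𝒪) ρbar.V) (S : Finset Nat.Primes)
    (hS : ∀ q : Nat.Primes, q ∉ S → (q : ℕ) ∉ Sig)
    (L : ∀ q : ↥S, Submodule (ResidueField 𝒪)
      (Basic1.Hq1 (Basic1.ad0Rep (matrixOfBasisRes ρbar b)) ((q : Nat.Primes) : ℕ)))
    [Finite ↥(Basic1.Sel S (Basic1.ad0Rep (matrixOfBasisRes ρbar b)) L)]
    (hL : ∀ (r : GQ →* M2 (DualNumber (ResidueField 𝒪))) (hr : MatCont r)
      (h : IsLiftOf (matrixOfBasisRes ρbar b) r), flCond 𝒪 p Sig Smin (ofMatrix r hr) →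
        ∀ (hlev : ∃ U ∈ (levelS S).sets, ∀ s ∈ U, r s = 1)
          (htr : ∀ σ, (liftCocycle (matrixOfBasisRes ρbar b) r σ).trace = 0) (q : ↥S),
          Basic1.resq1 S (Basic1.ad0Rep (matrixOfBasisRes ρbar b)) ((q : Nat.Primes) : ℕ)
            (liftClass S h hlev htr) ∈ L q)
    (n : ℕ)
    (hcard : Nat.card ↥(Basic1.Sel S (Basic1.ad0Rep (matrixOfBasisRes ρbar b)) L) ≤
      Nat.card (ResidueField 𝒪) ^ n) :
    ∃ γ : MvPowerSeries (Fin n) 𝒪 →ₐ[𝒪] DQ.R, Function.Surjective γ :=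
  TangentCard8.exists_mvPowerSeries_surjective halg DQ b S L
    (fun _ _ h h1 => flCond_of_isEquiv h h1)
    (fun φ hφ => flCond_baseChangeAlong_of_isFlatAt _ hφ DQ.isOfType (hflat φ hφ))
    (fun _ _ _ hD q hq => hD.1.2.2 (q : ℕ) q.2 (hS q hq))
    (TangentCard8.hdet_of_detIsCyclotomic hp _ fun _ hD => hD.1.1)
    hL n hcard

end Fermat.Agent.TW.DEF.TangentCardSO8
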